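import Mathlib

/-!
# PROGRAMME III, X1-IRR, last step (E'): full residue degree from a Galois-stable valuation ring

`L/K` finite Galois, `O ⊂ L` a valuation subring stable under `Gal(L/K)` (so `O` is the ONLY
extension of `O₀ := O ∩ K` to `L`), `O₀` a discrete valuation ring whose uniformiser `ϖ` is also a
uniformiser of `O` (`e = 1`).  Then the residue degree is the full degree `[L : K]`:
there are `[L : K]` elements of `O` whose residues are linearly independent over the residue field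
of `O₀` (`exists_residue_independent`, in the elementary `nonunits` form).

Route: every `x ∈ O` is integral over `O₀` (Mathlib's `Algebra.IsInvariant.isIntegral`: the
characteristic polynomial `∏_g (X - g x)` has coefficients in `O ∩ L^G = O₀`), so `O` is the integral
closure of `O₀` in `L`, hence a finite free `O₀`-module of rank `[L : K]` (separable extension, PID);
`O / 𝔪₀ O` has dimension `[L : K]` over `O₀ / 𝔪₀` (`IsLocalRing.basisQuotient`) and `𝔪₀ O = 𝔪_O`.
-/

set_option autoImplicit false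
set_option linter.style.haveILetI false

namespace Fermat.Agent.DS.X1.ResDeg

open IsLocalRing Module

/-! ### the abstract core -/

/-- `R` a DVR with fraction field `K`, `S` integrally closed with fraction field `L`, integral over
`R`, `L/K` finite separable: a basis of `S` over `R` of cardinality `[L : K]` whose residues are
linearly independent modulo `𝔪_R S`. -/
theorem exists_residue_basis
    (R S K L : Type*) [CommRing R] [IsDomain R] [IsDiscreteValuationRing R] [CommRing S] [IsDomain S]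
    [Field K] [Field L] [Algebra R K] [IsFractionRing R K] [Algebra S L] [IsFractionRing S L]
    [Algebra K L] [Algebra R L] [IsScalarTower R K L] [Algebra R S] [IsScalarTower R S L]
    [FiniteDimensional K L] [Algebra.IsSeparable K L] [IsIntegrallyClosed S]
    [Algebra.IsIntegral R S] :
    ∃ b : Fin (Module.finrank K L) → S, ∀ c : Fin (Module.finrank K L) → R,
      (∑ i, c i • b i) ∈ (maximalIdeal R).map (algebraMap R S) → ∀ i, c i ∈ maximalIdeal R := by
  haveI : IsIntegralClosure S R L := IsIntegralClosure.of_isIntegrallyClosed S R L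
  haveI : Module.Finite R S := IsIntegralClosure.finite R K L S
  haveI : Module.IsTorsionFree R L := by
    have hinj : Function.Injective (algebraMap R L) := by
      rw [IsScalarTower.algebraMap_eq R K L]
      exact (algebraMap K L).injective.comp (IsFractionRing.injective R K)
    exact Module.isTorsionFree_iff_algebraMap_injective.mpr hinj
  haveI : Module.Free R S := IsIntegralClosure.module_free R K L S
  have hrank : Module.finrank R S = Module.finrank K L := (IsFractionRing.finrank_eq R K S L).symm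
  let b : Basis (Fin (Module.finrank K L)) R S := Module.finBasisOfFinrankEq R S hrank
  refine ⟨b, fun c hc i => ?_⟩
  have hlin := (basisQuotient b).linearIndependent
  rw [Fintype.linearIndependent_iff] at hlin
  have h0 : ∑ j, (Ideal.Quotient.mk (maximalIdeal R) (c j)) • (basisQuotient b) j = 0 := by
    have : (Ideal.Quotient.mk ((maximalIdeal R).map (algebraMap R S))) (∑ j, c j • b j) = 0 :=
      Ideal.Quotient.eq_zero_iff_mem.mpr hc
    rw [map_sum] at this
    rw [← this]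
    refine Finset.sum_congr rfl fun j _ => ?_
    rw [basisQuotient_apply, Algebra.smul_def, Algebra.smul_def, map_mul]
    rfl
  have := hlin _ h0 i
  exact Ideal.Quotient.eq_zero_iff_mem.mp this

/-! ### a valuation subring with a uniformiser is a DVR -/

section DVR

variable {K : Type*} [Field K]

/-- in a valuation subring with `ϖ ∈ A`, `ϖ⁻¹ ∉ A`: an element `ϖ^k u` (`u` a unit) of `A` has
`k ≥ 0`. -/
theorem zpow_nonneg_of_mem (A : ValuationSubring K) (ϖ : K) (hϖ : ϖ ∈ A) (hnu : ϖ⁻¹ ∉ A)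
    {k : ℤ} {u : K} (hu' : u⁻¹ ∈ A) (hu0 : u ≠ 0) (hx : ϖ ^ k * u ∈ A) : 0 ≤ k := by
  by_contra hk
  push_neg at hk
  apply hnu
  have hϖ0 : ϖ ≠ 0 := fun h => hnu (by rw [h, inv_zero]; exact A.zero_mem)
  obtain ⟨m, hm⟩ : ∃ m : ℕ, k = -(m + 1 : ℤ) := ⟨(-k - 1).toNat, by omega⟩
  have e : ϖ⁻¹ = ϖ ^ m * (ϖ ^ k * u) * u⁻¹ := by
    rw [hm, zpow_neg, zpow_add₀ hϖ0, zpow_one, zpow_natCast]
    field_simp
  rw [e]
  exact A.mul_mem _ _ (A.mul_mem _ _ (pow_mem hϖ m) hx) hu'

theorem isDiscreteValuationRing_of_uniformizer (A : ValuationSubring K) (ϖ : K) (hϖ : ϖ ∈ A)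
    (hnu : ϖ⁻¹ ∉ A)
    (hdvr : ∀ x : K, x ≠ 0 → ∃ (k : ℤ) (u : K), u ∈ A ∧ u⁻¹ ∈ A ∧ x = ϖ ^ k * u) :
    IsDiscreteValuationRing ↥A := by
  have hϖ0 : ϖ ≠ 0 := fun h => hnu (by rw [h, inv_zero]; exact A.zero_mem)
  let p : ↥A := ⟨ϖ, hϖ⟩
  have hp0 : p ≠ 0 := fun h => hϖ0 (congrArg Subtype.val h)
  -- the factorisation in `A`
  have hfac : ∀ x : ↥A, x ≠ 0 → ∃ (n : ℕ) (u : (↥A)ˣ), x = p ^ n * u := by
    intro x hx0
    have hx0' : (x : K) ≠ 0 := fun h => hx0 (Subtype.ext h)
    obtain ⟨k, u, hu, hu', hx⟩ := hdvr x hx0'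
    have hu0 : u ≠ 0 := by
      rintro rfl
      rw [mul_zero] at hx
      exact hx0' hx
    have hk : 0 ≤ k := zpow_nonneg_of_mem A ϖ hϖ hnu hu' hu0 (hx ▸ x.2)
    obtain ⟨n, rfl⟩ := Int.eq_ofNat_of_zero_le hk
    refine ⟨n, ⟨⟨u, hu⟩, ⟨u⁻¹, hu'⟩, Subtype.ext (mul_inv_cancel₀ hu0),
      Subtype.ext (inv_mul_cancel₀ hu0)⟩, Subtype.ext ?_⟩
    rw [hx, zpow_natCast]
    rfl
  have hpu : ¬ IsUnit p := by
    rintro ⟨v, hv⟩
    apply hnu
    have : ϖ * ((v⁻¹ : (↥A)ˣ) : ↥A) = 1 := by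
      have := congrArg Subtype.val (v.mul_inv)
      rw [hv] at this
      exact this
    rw [← eq_inv_of_mul_eq_one_right this]
    exact ((v⁻¹ : (↥A)ˣ) : ↥A).2
  refine IsDiscreteValuationRing.ofHasUnitMulPowIrreducibleFactorization ⟨p, ?_, ?_⟩
  · rw [irreducible_iff]
    refine ⟨hpu, fun a b hab => ?_⟩
    have ha0 : a ≠ 0 := by rintro rfl; rw [zero_mul] at hab; exact hp0 hab
    have hb0 : b ≠ 0 := by rintro rfl; rw [mul_zero] at hab; exact hp0 hab
    obtain ⟨i, u, rfl⟩ := hfac a ha0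
    obtain ⟨j, v, rfl⟩ := hfac b hb0
    rcases Nat.eq_zero_or_pos i with rfl | hi
    · left; rw [pow_zero, one_mul]; exact u.isUnit
    rcases Nat.eq_zero_or_pos j with rfl | hj
    · right; rw [pow_zero, one_mul]; exact v.isUnit
    exfalso
    apply hpu
    -- `p = p^(i+j) u v` with `i + j ≥ 2`
    have h1 : p * 1 = p * (p ^ (i + j - 1) * (u * v)) := by
      rw [mul_one]
      calc p = p ^ i * ↑u * (p ^ j * ↑v) := hab
        _ = p ^ (i + j) * (u * v) := by rw [pow_add]; ring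
        _ = p * (p ^ (i + j - 1) * (u * v)) := by
          have e : p ^ (i + j) = p * p ^ (i + j - 1) := by
            rw [← pow_succ', Nat.sub_add_cancel (by omega)]
          rw [e]; ring
    have h2 := mul_left_cancel₀ hp0 h1
    have h3 : p * (p ^ (i + j - 2) * (u * v)) = 1 := by
      rw [h2, ← mul_assoc, ← pow_succ']
      congr 2
      omega
    exact IsUnit.of_mul_eq_one _ h3
  · intro x hx0
    obtain ⟨n, u, rfl⟩ := hfac x hx0
    exact ⟨n, u, rfl⟩

end DVR

/-! ### the Galois-stable valuation ring -/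

section Main

variable {K L : Type*} [Field K] [Field L] [Algebra K L] [FiniteDimensional K L] [IsGalois K L]

/-- **(E')**: `L/K` finite Galois, `O` a Galois-stable valuation subring of `L`, `ϖ ∈ K` a common
uniformiser: there are `[L : K]` elements of `O` with residues linearly independent over the
residue field of `O ∩ K`. -/
theorem exists_residue_independent (O : ValuationSubring L)
    (hO : ∀ (g : L ≃ₐ[K] L) (x : L), x ∈ O → g x ∈ O)
    (ϖ : K) (hϖ : algebraMap K L ϖ ∈ O) (hnu : (algebraMap K L ϖ)⁻¹ ∉ O)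
    (hdvr : ∀ x : L, x ≠ 0 → ∃ (k : ℤ) (u : L), u ∈ O ∧ u⁻¹ ∈ O ∧ x = algebraMap K L ϖ ^ k * u) :
    ∃ b : Fin (Module.finrank K L) → L, (∀ i, b i ∈ O) ∧
      ∀ c : Fin (Module.finrank K L) → K, (∀ i, c i ∈ O.comap (algebraMap K L)) →
        (∑ i, algebraMap K L (c i) * b i) ∈ O.nonunits →
        ∀ i, c i ∈ (O.comap (algebraMap K L)).nonunits := by
  classical
  set O₀ : ValuationSubring K := O.comap (algebraMap K L) with hO₀
  have hmem₀ : ∀ x : K, x ∈ O₀ ↔ algebraMap K L x ∈ O := fun x => ValuationSubring.mem_comap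
  have hϖ₀ : ϖ ∈ O₀ := (hmem₀ ϖ).mpr hϖ
  have hnu₀ : ϖ⁻¹ ∉ O₀ := fun h => hnu (by rw [← map_inv₀]; exact (hmem₀ _).mp h)
  have hϖ0 : ϖ ≠ 0 := fun h => hnu₀ (by rw [h, inv_zero]; exact O₀.zero_mem)
  have hϖL0 : algebraMap K L ϖ ≠ 0 := (map_ne_zero _).mpr hϖ0
  -- the DVR structure on `O₀`
  have hdvr₀ : ∀ x : K, x ≠ 0 → ∃ (k : ℤ) (u : K), u ∈ O₀ ∧ u⁻¹ ∈ O₀ ∧ x = ϖ ^ k * u := by
    intro x hx0
    obtain ⟨k, u, hu, hu', hx⟩ := hdvr (algebraMap K L x) ((map_ne_zero _).mpr hx0)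
    have hu_eq : u = algebraMap K L (x * ϖ ^ (-k)) := by
      rw [map_mul, map_zpow₀, hx, zpow_neg]
      field_simp
    refine ⟨k, x * ϖ ^ (-k), ?_, ?_, ?_⟩
    · rw [hmem₀, ← hu_eq]; exact hu
    · rw [hmem₀, map_inv₀, ← hu_eq]; exact hu'
    · rw [zpow_neg]; field_simp
  haveI : IsDiscreteValuationRing ↥O₀ :=
    isDiscreteValuationRing_of_uniformizer O₀ ϖ hϖ₀ hnu₀ hdvr₀
  -- the algebra structures
  let f₀ : ↥O₀ →+* ↥O :=
    { toFun := fun x => ⟨algebraMap K L x, (hmem₀ _).mp x.2⟩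
      map_one' := Subtype.ext (map_one _)
      map_mul' := fun _ _ => Subtype.ext (map_mul _ _ _)
      map_zero' := Subtype.ext (map_zero _)
      map_add' := fun _ _ => Subtype.ext (map_add _ _ _) }
  letI : Algebra ↥O₀ ↥O := f₀.toAlgebra
  letI : Algebra ↥O₀ L := ((algebraMap K L).comp O₀.subtype).toAlgebra
  haveI : IsScalarTower ↥O₀ K L := IsScalarTower.of_algebraMap_eq fun _ => rfl
  haveI : IsScalarTower ↥O₀ ↥O L := IsScalarTower.of_algebraMap_eq fun _ => rfl
  -- the Galois action on `O`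
  letI : MulSemiringAction (L ≃ₐ[K] L) ↥O :=
    { smul := fun g x => ⟨g x, hO g x x.2⟩
      one_smul := fun _ => rfl
      mul_smul := fun _ _ _ => rfl
      smul_zero := fun g => Subtype.ext (map_zero g)
      smul_add := fun g _ _ => Subtype.ext (map_add g _ _)
      smul_one := fun g => Subtype.ext (map_one g)
      smul_mul := fun g _ _ => Subtype.ext (map_mul g _ _) }
  haveI : Algebra.IsInvariant ↥O₀ ↥O (L ≃ₐ[K] L) := ⟨fun b hb => by
    have hfix : ∀ g : L ≃ₐ[K] L, g (b : L) = b := fun g => congrArg Subtype.val (hb g)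
    obtain ⟨a, ha⟩ := (IsGalois.mem_range_algebraMap_iff_fixed (F := K) (E := L) (b : L)).mpr hfix
    exact ⟨⟨a, (hmem₀ a).mpr (ha ▸ b.2)⟩, Subtype.ext ha⟩⟩
  haveI : Algebra.IsIntegral ↥O₀ ↥O := Algebra.IsInvariant.isIntegral ↥O₀ ↥O (L ≃ₐ[K] L)
  obtain ⟨b, hb⟩ := exists_residue_basis ↥O₀ ↥O K L
  refine ⟨fun i => (b i : L), fun i => (b i).2, fun c hc hsum i => ?_⟩
  -- `e = 1`: the maximal ideal of `O` is generated by `ϖ`
  have hmax : ∀ y : ↥O, y ∈ maximalIdeal ↥O →
      y ∈ (maximalIdeal ↥O₀).map (algebraMap ↥O₀ ↥O) := by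
    intro y hy
    by_cases hy0 : y = 0
    · rw [hy0]; exact Ideal.zero_mem _
    have hy0' : (y : L) ≠ 0 := fun h => hy0 (Subtype.ext h)
    obtain ⟨k, u, hu, hu', hyk⟩ := hdvr y hy0'
    have hu0 : u ≠ 0 := by
      rintro rfl
      rw [mul_zero] at hyk
      exact hy0' hyk
    have hk : 0 ≤ k := zpow_nonneg_of_mem O _ hϖ hnu hu' hu0 (hyk ▸ y.2)
    obtain ⟨n, rfl⟩ := Int.eq_ofNat_of_zero_le hk
    rcases Nat.eq_zero_or_pos n with rfl | hn
    · -- `y = u` would be a unit
      exfalso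
      rw [Nat.cast_zero, zpow_zero, one_mul] at hyk
      have : IsUnit y := by
        refine IsUnit.of_mul_eq_one (⟨u⁻¹, hu'⟩ : ↥O) (Subtype.ext ?_)
        show (y : L) * u⁻¹ = 1
        rw [hyk, mul_inv_cancel₀ hu0]
      exact (mem_maximalIdeal y).mp hy this
    · have hpmem : (⟨ϖ, hϖ₀⟩ : ↥O₀) ∈ maximalIdeal ↥O₀ := by
        rw [mem_maximalIdeal, mem_nonunits_iff]
        rintro ⟨v, hv⟩
        apply hnu₀
        have h1 : ϖ * ((v⁻¹ : (↥O₀)ˣ) : ↥O₀) = 1 := by
          have := congrArg Subtype.val (v.mul_inv)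
          rw [hv] at this
          exact this
        rw [← eq_inv_of_mul_eq_one_right h1]
        exact ((v⁻¹ : (↥O₀)ˣ) : ↥O₀).2
      have hy_eq : y = algebraMap ↥O₀ ↥O ⟨ϖ, hϖ₀⟩ *
          ⟨algebraMap K L ϖ ^ (n - 1) * u, O.mul_mem _ _ (pow_mem hϖ _) hu⟩ := by
        apply Subtype.ext
        show (y : L) = algebraMap K L ϖ * (algebraMap K L ϖ ^ (n - 1) * u)
        rw [hyk, zpow_natCast, ← mul_assoc, ← pow_succ', Nat.sub_add_cancel hn]
      rw [hy_eq]
      exact Ideal.mul_mem_right _ _ (Ideal.mem_map_of_mem _ hpmem)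
  -- apply the core to `c`
  let c' : Fin (Module.finrank K L) → ↥O₀ := fun i => ⟨c i, hc i⟩
  have hsum' : (∑ i, c' i • b i) ∈ (maximalIdeal ↥O₀).map (algebraMap ↥O₀ ↥O) := by
    apply hmax
    obtain ⟨hmemO, hmaxO⟩ := ValuationSubring.mem_nonunits_iff_exists_mem_maximalIdeal.mp hsum
    convert hmaxO using 1
    apply Subtype.ext
    rw [AddSubmonoidClass.coe_finsetSum]
    rfl
  have hci := hb c' hsum' i
  rw [ValuationSubring.mem_nonunits_iff_exists_mem_maximalIdeal]
  exact ⟨hc i, hci⟩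

end Main

end Fermat.Agent.DS.X1.ResDeg
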