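import Mathlib
import Fermat.Prelude.Def_ModularCurve_HeckeOperator

/-!
# PROGRAMME III (S48, Deligne–Serre) — the MODEL of `X₁(M)`: `K1 M ⊂ ℚ((q))`  (X1-MODEL ruling)

**Moduli reading.**  `q` is the Prelude's variable.  The universal pair at our cusp is
`(E, P) = (Tate(q^M), q)`, i.e. over `ℂ`: `τ ↦ (ℂ/(ℤ Mτ + ℤ), τ)`; this is invariant under the
STANDARD `Γ₁(M)`, the cusp is the STANDARD `∞` with the STANDARD `q = e^{2πiτ}` (width one), and the
`q`-expansions of the generators below are RATIONAL (integral).  `j(E) = j(q^M) = jqN M`,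
`j(E/⟨P⟩) = j(q) = jq`, so the Prelude's `modularFunctionFieldFull M` (the field of `X₀(M)`) is a
SUBFIELD of `K1 M`, by plain inclusion inside `ℚ((q))`.

* `tateX M a = Σ_{n∈ℤ} Q^n w/(1-Q^n w)²` at `Q = q^M`, `w = q^a` (`0 < a < M`), an element of `ℤ⟦q⟧`
  (`x_Tate(aP) = tateX + E₂(Q)/12 - 1/12`; differences `tateX M a - tateX M b` are `x(aP) - x(bP)`,
  integral with leading coefficient `±1`);
* `weberQ M a = E₄(Q) E₆(Q) (12 · tateX M a + E₂(Q)) / Δ(Q)` : Shimura's normalised Weber function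
  `-2⁷3⁵ (g₂g₃/Δ) ℘(aτ; ℤMτ+ℤ)`, weight `0`, in `ℤ((q))`, leading term `q^{-M}`;
* `K1 M = ℚ(j(q^d) (d ∣ M), weberQ M a (0 < a < M))`;  `K1Bar M`, `JOne M = Pic⁰`;
  `G_ℚ` acts on `K1Bar M` and on `JOne M` COEFFICIENTWISE through the Prelude's generic
  `arithmeticGalois` (nothing to define);
* level `(M; ℓ)`: `K1Lev M ℓ`, `alphaOne` (inclusion), `betaOne` (`q ↦ q^ℓ`): the two degeneracy maps,
  exactly as for `X₀` in the Prelude.
-/

set_option autoImplicit false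

noncomputable section

namespace Fermat.Agent.DS.X1

open ModularCurve HahnSeries IntermediateField

/-! ### level-one series -/

/-- `E₂ = 1 - 24 Σ σ₁(n) qⁿ` -/
def eis2 : PowerSeries ℤ :=
  PowerSeries.mk fun n => if n = 0 then 1 else -24 * ∑ d ∈ n.divisors, (d : ℤ)

/-- `E₆ = 1 - 504 Σ σ₅(n) qⁿ` -/
def eis6 : PowerSeries ℤ :=
  PowerSeries.mk fun n => if n = 0 then 1 else -504 * ∑ d ∈ n.divisors, (d : ℤ) ^ 5

/-- an integral power series, as a rational Laurent series -/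
def ofInt (f : PowerSeries ℤ) : LaurentSeries ℚ :=
  HahnSeries.ofPowerSeries ℤ ℚ (f.map (Int.castRingHom ℚ))

/-- `E₄ E₆ / Δ = q⁻¹ E₄ E₆ / ∏(1-qⁿ)²⁴`  (weight `-2`, level one) -/
def cUnit : LaurentSeries ℚ :=
  HahnSeries.single (-1 : ℤ) 1 * ofInt (eisenstein4 * eis6 * dedekindEtaUnitInv)

/-! ### the Tate series and the Weber functions of the multiples of `P = q` on `Tate(q^M)` -/

/-- `Σ_{n ∈ ℤ} Qⁿ w / (1 - Qⁿ w)²` at `Q = q^M`, `w = q^a`:
`Σ_{k ≥ 1} k q^{ak} + Σ_{m ≥ 1} Σ_{d ∣ m} d (q^{Mm+ad} + q^{Mm-ad})`. -/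
def tateX (M a : ℕ) : PowerSeries ℤ :=
  PowerSeries.mk fun n =>
    (if 0 < n ∧ a ∣ n then ((n / a : ℕ) : ℤ) else 0) +
      ∑ m ∈ Finset.Icc 1 n, ∑ d ∈ m.divisors,
        ((if M * m + a * d = n then (d : ℤ) else 0) + (if M * m = n + a * d then (d : ℤ) else 0))

variable (M : ℕ) [NeZero M]

/-- **the Weber function of `aP`**: `E₄(Q)E₆(Q)(12·tateX M a + E₂(Q))/Δ(Q)`, `Q = q^M`. -/
def weberQ (a : ℕ) : LaurentSeries ℚ :=
  qExpand ℚ M cUnit * (12 * ofInt (tateX M a) + qExpand ℚ M (ofInt eis2))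

/-- the generators of `K1 M` besides the `j(q^d)` -/
def weberSet : Set (LaurentSeries ℚ) := {x | ∃ a : ℕ, 0 < a ∧ a < M ∧ x = weberQ M a}

/-- **the function field of `X₁(M)` over `ℚ`** inside `ℚ((q))`. -/
def K1 : IntermediateField ℚ (LaurentSeries ℚ) :=
  IntermediateField.adjoin ℚ (divisorExpansions M ∪ weberSet M)

theorem modularFunctionFieldFull_le_K1 : modularFunctionFieldFull M ≤ K1 M :=
  IntermediateField.adjoin.mono ℚ _ _ Set.subset_union_left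

theorem weberQ_mem_K1 {a : ℕ} (ha : 0 < a) (haM : a < M) : weberQ M a ∈ K1 M :=
  IntermediateField.subset_adjoin ℚ _ (Or.inr ⟨a, ha, haM, rfl⟩)

/-- the function field of `X₁(M)` over `ℚ̄` -/
abbrev K1Bar : IntermediateField (AlgebraicClosure ℚ) (LaurentSeries (AlgebraicClosure ℚ)) :=
  laurentBaseChange (AlgebraicClosure ℚ) (K1 M)

/-- **`J₁(M)(ℚ̄)`** -/
abbrev JOne : Type _ := AlgebraicCurve.Pic0 (AlgebraicClosure ℚ) (K1Bar M)

/-- the Galois action on `J₁(M)(ℚ̄)` is the Prelude's generic coefficientwise action -/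
example : DistribMulAction (AlgebraicClosure ℚ ≃ₐ[ℚ] AlgebraicClosure ℚ) (JOne M) := inferInstance

/-! ### level `(M; ℓ)` and the two degeneracy maps -/

variable (ℓ : ℕ) [NeZero ℓ]

/-- the function field of `X(Γ₁(M) ∩ Γ₀(ℓ))`: generated by `K1 M` and its image under `q ↦ q^ℓ`
(and the `j(q^d)`, `d ∣ Mℓ`). -/
def K1Lev : IntermediateField ℚ (LaurentSeries ℚ) :=
  IntermediateField.adjoin ℚ
    (divisorExpansions (M * ℓ) ∪ (K1 M : Set (LaurentSeries ℚ)) ∪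
      (qExpand ℚ ℓ '' (K1 M : Set (LaurentSeries ℚ))))

theorem K1_le_K1Lev : K1 M ≤ K1Lev M ℓ := fun _ hx =>
  IntermediateField.subset_adjoin ℚ _ (Or.inl (Or.inr hx))

theorem qExpand_mem_K1Lev {x : LaurentSeries ℚ} (hx : x ∈ K1 M) : qExpand ℚ ℓ x ∈ K1Lev M ℓ :=
  IntermediateField.subset_adjoin ℚ _ (Or.inr ⟨x, hx, rfl⟩)

/-- `α^*` : forget the subgroup (as a ring hom; the `ℚ̄`-algebra versions are built on
`laurentBaseChange` exactly as the Prelude's `heckeAlphaBar` / `heckeBetaBar`) -/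
def alphaOne : K1 M →+* K1Lev M ℓ where
  toFun x := ⟨(x : LaurentSeries ℚ), K1_le_K1Lev M ℓ x.2⟩
  map_one' := rfl
  map_mul' _ _ := rfl
  map_zero' := rfl
  map_add' _ _ := rfl

/-- `β^*` : `(E, P, C) ↦ (E/C, P mod C)`, on `q`-expansions `q ↦ q^ℓ` -/
def betaOne : K1 M →+* K1Lev M ℓ where
  toFun x := ⟨qExpand ℚ ℓ (x : LaurentSeries ℚ), qExpand_mem_K1Lev M ℓ x.2⟩
  map_one' := Subtype.ext (map_one (qExpand ℚ ℓ))
  map_mul' _ _ := Subtype.ext (map_mul (qExpand ℚ ℓ) _ _)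
  map_zero' := Subtype.ext (map_zero (qExpand ℚ ℓ))
  map_add' _ _ := Subtype.ext (map_add (qExpand ℚ ℓ) _ _)

end Fermat.Agent.DS.X1
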