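import Mathlib
import Fermat.Agent.DS.X1.Defs

/-!
# PROGRAMME III (S48), X1-model: SERIES-LEVEL facts about `tateX`, `weberQ`  (helper10)

For `0 < a < M`:

* `coeff_tateX` : the closed coefficient formula (unfolding of the definition);
* `coeff_tateX_nonneg`, `coeff_tateX_of_lt` (no term below `min a (M - a)`),
  `coeff_tateX_min` (the leading coefficient is `1`, or `2` when `2 * a = M`),
  `order_tateX : (tateX M a).order = min a (M - a)`;
* `coeff_tateX_sub_of_lt`, `coeff_tateX_sub_min` : for `a ≠ b`, `a + b ≠ M` the difference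
  `tateX M a - tateX M b` (`= x(aP) - x(bP)`) starts at `min (min a (M-a)) (min b (M-b))` with
  leading coefficient `±1`.
-/

set_option autoImplicit false
set_option linter.unusedSectionVars false

noncomputable section

namespace Fermat.Agent.DS.X1

open ModularCurve PowerSeries

/-- the closed coefficient formula of `tateX` -/
theorem coeff_tateX (M a n : ℕ) :
    PowerSeries.coeff n (tateX M a) =
      (if 0 < n ∧ a ∣ n then ((n / a : ℕ) : ℤ) else 0) +
        ∑ m ∈ Finset.Icc 1 n, ∑ d ∈ m.divisors,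
          ((if M * m + a * d = n then (d : ℤ) else 0) +
            (if M * m = n + a * d then (d : ℤ) else 0)) := by
  rw [tateX, PowerSeries.coeff_mk]

theorem coeff_tateX_nonneg (M a n : ℕ) : 0 ≤ PowerSeries.coeff n (tateX M a) := by
  rw [coeff_tateX]
  refine add_nonneg ?_ (Finset.sum_nonneg fun m _ => Finset.sum_nonneg fun d _ => add_nonneg ?_ ?_)
  · split_ifs
    · exact Int.natCast_nonneg _
    · exact le_refl _
  · split_ifs
    · exact Int.natCast_nonneg _
    · exact le_refl _
  · split_ifs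
    · exact Int.natCast_nonneg _
    · exact le_refl _

/-- the double sum in `coeff_tateX` vanishes below `M - a` -/
theorem tateX_sum_eq_zero {M a n : ℕ} (haM : a < M) (hn : n < M - a) :
    ∑ m ∈ Finset.Icc 1 n, ∑ d ∈ m.divisors,
      ((if M * m + a * d = n then (d : ℤ) else 0) +
        (if M * m = n + a * d then (d : ℤ) else 0)) = 0 := by
  refine Finset.sum_eq_zero fun m hm => Finset.sum_eq_zero fun d hd => ?_
  rw [Finset.mem_Icc] at hm
  have hdm : d ≤ m := Nat.divisor_le hd
  have h1 : ¬ M * m + a * d = n := by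
    intro h
    have : M * 1 ≤ M * m := Nat.mul_le_mul_left M hm.1
    omega
  have h2 : ¬ M * m = n + a * d := by
    intro h
    have h3 : a * d ≤ a * m := Nat.mul_le_mul_left a hdm
    have h4 : (M - a) * m + a * m = M * m := by
      rw [← Nat.add_mul, Nat.sub_add_cancel haM.le]
    have h5 : (M - a) * 1 ≤ (M - a) * m := Nat.mul_le_mul_left _ hm.1
    omega
  rw [if_neg h1, if_neg h2, add_zero]

/-- **no term below `min a (M - a)`** -/
theorem coeff_tateX_of_lt {M a n : ℕ} (_ha : 0 < a) (haM : a < M) (hn : n < min a (M - a)) :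
    PowerSeries.coeff n (tateX M a) = 0 := by
  rw [coeff_tateX, tateX_sum_eq_zero haM (lt_of_lt_of_le hn (min_le_right _ _)), add_zero]
  rw [if_neg]
  rintro ⟨h0, h1⟩
  have := Nat.le_of_dvd h0 h1
  have := lt_of_lt_of_le hn (min_le_left _ _)
  omega

/-- the double sum in `coeff_tateX` at `n = M - a` is the single term `(m, d) = (1, 1)` -/
theorem tateX_sum_eq_one {M a : ℕ} (ha : 0 < a) (haM : a < M) :
    ∑ m ∈ Finset.Icc 1 (M - a), ∑ d ∈ m.divisors,
      ((if M * m + a * d = M - a then (d : ℤ) else 0) +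
        (if M * m = M - a + a * d then (d : ℤ) else 0)) = 1 := by
  rw [Finset.sum_eq_single 1]
  · rw [Nat.divisors_one, Finset.sum_singleton, if_neg (by omega), if_pos (by omega)]
    simp
  · intro m hm hm1
    rw [Finset.mem_Icc] at hm
    refine Finset.sum_eq_zero fun d hd => ?_
    have hdm : d ≤ m := Nat.divisor_le hd
    have h1 : ¬ M * m + a * d = M - a := by
      intro h
      have : M * 1 ≤ M * m := Nat.mul_le_mul_left M hm.1
      omega
    have h2 : ¬ M * m = M - a + a * d := by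
      intro h
      have h3 : a * d ≤ a * m := Nat.mul_le_mul_left a hdm
      have h4 : (M - a) * m + a * m = M * m := by
        rw [← Nat.add_mul, Nat.sub_add_cancel haM.le]
      have h5 : (M - a) * 2 ≤ (M - a) * m := Nat.mul_le_mul_left _ (by omega)
      omega
    rw [if_neg h1, if_neg h2, add_zero]
  · intro h
    exact absurd (Finset.mem_Icc.mpr ⟨le_refl 1, by omega⟩) h

/-- **the leading coefficient**: `1`, or `2` when `a` is the point of order two (`2 * a = M`) -/
theorem coeff_tateX_min {M a : ℕ} (ha : 0 < a) (haM : a < M) :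
    PowerSeries.coeff (min a (M - a)) (tateX M a) = if 2 * a = M then 2 else 1 := by
  rcases lt_trichotomy a (M - a) with h | h | h
  · rw [min_eq_left h.le, coeff_tateX, tateX_sum_eq_zero haM h, add_zero,
      if_pos ⟨ha, dvd_refl a⟩, Nat.div_self ha, if_neg (by omega)]
    rfl
  · rw [min_eq_left h.le, coeff_tateX, if_pos ⟨ha, dvd_refl a⟩, Nat.div_self ha,
      if_pos (by omega)]
    have := tateX_sum_eq_one ha haM
    rw [← h] at this
    rw [this]
    rfl
  · rw [min_eq_right h.le, coeff_tateX, tateX_sum_eq_one ha haM, if_neg, if_neg (by omega),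
      zero_add]
    rintro ⟨h0, h1⟩
    have := Nat.le_of_dvd h0 h1
    omega

theorem coeff_tateX_min_ne_zero {M a : ℕ} (ha : 0 < a) (haM : a < M) :
    PowerSeries.coeff (min a (M - a)) (tateX M a) ≠ 0 := by
  rw [coeff_tateX_min ha haM]
  split_ifs <;> norm_num

/-- **the order of `tateX M a`** is `min a (M - a)` -/
theorem order_tateX {M a : ℕ} (ha : 0 < a) (haM : a < M) :
    (tateX M a).order = ((min a (M - a) : ℕ) : ℕ∞) :=
  PowerSeries.order_eq_nat.mpr
    ⟨coeff_tateX_min_ne_zero ha haM, fun _ hi => coeff_tateX_of_lt ha haM hi⟩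

theorem tateX_ne_zero {M a : ℕ} (ha : 0 < a) (haM : a < M) : tateX M a ≠ 0 := fun h => by
  have := coeff_tateX_min_ne_zero ha haM
  rw [h] at this
  exact this (map_zero _)

theorem constantCoeff_tateX {M a : ℕ} (ha : 0 < a) (haM : a < M) :
    PowerSeries.constantCoeff (tateX M a) = 0 := by
  rw [← PowerSeries.coeff_zero_eq_constantCoeff_apply]
  exact coeff_tateX_of_lt ha haM (lt_min ha (by omega))

/-! ### differences `x(aP) - x(bP)` -/

/-- `min a (M - a) = min b (M - b)` iff `b = ±a` -/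
theorem min_eq_min_iff {M a b : ℕ} (haM : a < M) (hbM : b < M) :
    min a (M - a) = min b (M - b) ↔ a = b ∨ a + b = M := by
  omega

theorem coeff_tateX_sub_of_lt {M a b n : ℕ} (ha : 0 < a) (haM : a < M) (hb : 0 < b) (hbM : b < M)
    (hn : n < min (min a (M - a)) (min b (M - b))) :
    PowerSeries.coeff n (tateX M a - tateX M b) = 0 := by
  rw [map_sub, coeff_tateX_of_lt ha haM (lt_of_lt_of_le hn (min_le_left _ _)),
    coeff_tateX_of_lt hb hbM (lt_of_lt_of_le hn (min_le_right _ _)), sub_zero]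

/-- **the leading coefficient of `x(aP) - x(bP)` is `±1`** (`b ≠ ±a`) -/
theorem coeff_tateX_sub_min {M a b : ℕ} (ha : 0 < a) (haM : a < M) (hb : 0 < b) (hbM : b < M)
    (hab : a ≠ b) (hab' : a + b ≠ M) :
    PowerSeries.coeff (min (min a (M - a)) (min b (M - b))) (tateX M a - tateX M b) =
      if min a (M - a) < min b (M - b) then 1 else -1 := by
  have hne : min a (M - a) ≠ min b (M - b) := fun h =>
    ((min_eq_min_iff haM hbM).mp h).elim hab hab'
  rcases lt_or_gt_of_ne hne with h | h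
  · rw [if_pos h, min_eq_left h.le, map_sub, coeff_tateX_of_lt hb hbM h, sub_zero,
      coeff_tateX_min ha haM, if_neg]
    omega
  · rw [if_neg (not_lt.mpr h.le), min_eq_right h.le, map_sub, coeff_tateX_of_lt ha haM h, zero_sub,
      coeff_tateX_min hb hbM, if_neg]
    omega

theorem order_tateX_sub {M a b : ℕ} (ha : 0 < a) (haM : a < M) (hb : 0 < b) (hbM : b < M)
    (hab : a ≠ b) (hab' : a + b ≠ M) :
    (tateX M a - tateX M b).order = ((min (min a (M - a)) (min b (M - b)) : ℕ) : ℕ∞) := by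
  refine PowerSeries.order_eq_nat.mpr ⟨?_, fun _ hi => coeff_tateX_sub_of_lt ha haM hb hbM hi⟩
  rw [coeff_tateX_sub_min ha haM hb hbM hab hab']
  split_ifs <;> norm_num

/-! ### `ofInt`, `qExpand` and `PowerSeries.expand` -/

/-- `ofInt` as a ring homomorphism -/
def ofIntHom : PowerSeries ℤ →+* LaurentSeries ℚ :=
  (HahnSeries.ofPowerSeries ℤ ℚ).comp (PowerSeries.map (Int.castRingHom ℚ))

theorem ofIntHom_apply (f : PowerSeries ℤ) : ofIntHom f = ofInt f := rfl

theorem ofInt_mul (f g : PowerSeries ℤ) : ofInt (f * g) = ofInt f * ofInt g :=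
  map_mul ofIntHom f g

theorem ofInt_add (f g : PowerSeries ℤ) : ofInt (f + g) = ofInt f + ofInt g :=
  map_add ofIntHom f g

theorem ofInt_sub (f g : PowerSeries ℤ) : ofInt (f - g) = ofInt f - ofInt g :=
  map_sub ofIntHom f g

theorem ofInt_one : ofInt 1 = 1 := map_one ofIntHom

theorem ofInt_natCast (n : ℕ) : ofInt (n : PowerSeries ℤ) = (n : LaurentSeries ℚ) :=
  map_natCast ofIntHom n

theorem coeff_ofInt_natCast (f : PowerSeries ℤ) (n : ℕ) :
    (ofInt f).coeff (n : ℤ) = ((PowerSeries.coeff n f : ℤ) : ℚ) := by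
  rw [ofInt, HahnSeries.ofPowerSeries_apply_coeff, PowerSeries.coeff_map]
  rfl

theorem coeff_ofInt_of_neg (f : PowerSeries ℤ) {k : ℤ} (hk : k < 0) : (ofInt f).coeff k = 0 :=
  ofPowerSeries_coeff_of_neg _ hk

theorem ofInt_injective : Function.Injective ofInt := fun f g h => by
  ext n
  have := congrArg (fun x : LaurentSeries ℚ => x.coeff (n : ℤ)) h
  simp only [coeff_ofInt_natCast] at this
  exact_mod_cast this

/-- every coefficient of `ofInt f` is an integer -/
theorem coeff_ofInt_mem (f : PowerSeries ℤ) (k : ℤ) : ∃ z : ℤ, (ofInt f).coeff k = z := by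
  rcases lt_or_ge k 0 with hk | hk
  · exact ⟨0, by rw [coeff_ofInt_of_neg f hk]; rfl⟩
  · lift k to ℕ using hk
    exact ⟨_, coeff_ofInt_natCast f k⟩

/-- **`q ↦ q^N` on integral power series is `PowerSeries.expand`** -/
theorem qExpand_ofInt (N : ℕ) [NeZero N] (f : PowerSeries ℤ) :
    qExpand ℚ N (ofInt f) = ofInt (f.expand N (NeZero.ne N)) := by
  have hN : (0 : ℤ) < (N : ℤ) := by exact_mod_cast Nat.pos_of_ne_zero (NeZero.ne N)
  ext k
  by_cases hk : (N : ℤ) ∣ k
  · obtain ⟨m, rfl⟩ := hk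
    rw [qExpand_coeff_mul]
    rcases lt_or_ge m 0 with hm | hm
    · rw [coeff_ofInt_of_neg _ hm, coeff_ofInt_of_neg _ (mul_neg_of_pos_of_neg hN hm)]
    · lift m to ℕ using hm
      rw [coeff_ofInt_natCast, ← Nat.cast_mul, coeff_ofInt_natCast, PowerSeries.coeff_expand_mul]
  · rw [qExpand_coeff_of_not_dvd _ _ hk]
    rcases lt_or_ge k 0 with hk0 | hk0
    · rw [coeff_ofInt_of_neg _ hk0]
    · lift k to ℕ using hk0
      rw [coeff_ofInt_natCast, PowerSeries.coeff_expand_of_not_dvd, Int.cast_zero]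
      intro h
      exact hk (Int.natCast_dvd_natCast.mpr h)

/-! ### the Weber functions -/

theorem constantCoeff_eis2 : PowerSeries.constantCoeff eis2 = 1 := by
  rw [← PowerSeries.coeff_zero_eq_constantCoeff_apply, eis2, PowerSeries.coeff_mk, if_pos rfl]

theorem constantCoeff_eis6 : PowerSeries.constantCoeff eis6 = 1 := by
  rw [← PowerSeries.coeff_zero_eq_constantCoeff_apply, eis6, PowerSeries.coeff_mk, if_pos rfl]

/-- the unit `E₄ E₆ / ∏ (1 - qⁿ)²⁴` -/
def cNum : PowerSeries ℤ := eisenstein4 * eis6 * dedekindEtaUnitInv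

theorem constantCoeff_cNum : PowerSeries.constantCoeff cNum = 1 := by
  rw [cNum, map_mul, map_mul, constantCoeff_eisenstein4, constantCoeff_eis6,
    constantCoeff_dedekindEtaUnitInv, one_mul, one_mul]

theorem cUnit_eq : cUnit = HahnSeries.single (-1 : ℤ) 1 * ofInt cNum := rfl

variable (M : ℕ) [NeZero M]

/-- the numerator of `weberQ M a` : `weberQ M a = q^{-M} · weberNum M a` -/
def weberNum (a : ℕ) : PowerSeries ℤ :=
  cNum.expand M (NeZero.ne M) * (12 * tateX M a + eis2.expand M (NeZero.ne M))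

/-- **`weberQ M a = q^{-M} · (integral power series with constant term 1)`** -/
theorem weberQ_eq (a : ℕ) :
    weberQ M a = HahnSeries.single (-(M : ℤ)) 1 * ofInt (weberNum M a) := by
  have h12 : ofInt (12 : PowerSeries ℤ) = (12 : LaurentSeries ℚ) := by
    have := ofInt_natCast 12
    exact_mod_cast this
  rw [weberQ, cUnit_eq, map_mul, qExpand_single, qExpand_ofInt, qExpand_ofInt, weberNum, ofInt_mul,
    ofInt_add, ofInt_mul, h12, mul_neg_one, mul_assoc]

theorem constantCoeff_weberNum {a : ℕ} (ha : 0 < a) (haM : a < M) :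
    PowerSeries.constantCoeff (weberNum M a) = 1 := by
  rw [weberNum, map_mul, map_add, map_mul, PowerSeries.constantCoeff_expand,
    PowerSeries.constantCoeff_expand, constantCoeff_cNum, constantCoeff_eis2,
    constantCoeff_tateX ha haM, mul_zero, zero_add, one_mul]

theorem coeff_weberQ (a : ℕ) (k : ℤ) :
    (weberQ M a).coeff k = (ofInt (weberNum M a)).coeff (k + M) := by
  rw [weberQ_eq, HahnSeries.coeff_single_mul, one_mul, sub_neg_eq_add]

/-- all coefficients of `weberQ M a` are integers -/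
theorem coeff_weberQ_mem (a : ℕ) (k : ℤ) : ∃ z : ℤ, (weberQ M a).coeff k = z := by
  rw [coeff_weberQ]
  exact coeff_ofInt_mem _ _

theorem coeff_weberQ_of_lt (a : ℕ) {k : ℤ} (hk : k < -(M : ℤ)) : (weberQ M a).coeff k = 0 := by
  rw [coeff_weberQ]
  exact coeff_ofInt_of_neg _ (by omega)

/-- **the leading term of `weberQ M a` is `q^{-M}`** -/
theorem coeff_weberQ_neg {a : ℕ} (ha : 0 < a) (haM : a < M) :
    (weberQ M a).coeff (-(M : ℤ)) = 1 := by
  rw [coeff_weberQ, neg_add_cancel, show (0 : ℤ) = ((0 : ℕ) : ℤ) from rfl, coeff_ofInt_natCast,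
    PowerSeries.coeff_zero_eq_constantCoeff_apply, constantCoeff_weberNum M ha haM]
  rfl

theorem weberQ_ne_zero {a : ℕ} (ha : 0 < a) (haM : a < M) : weberQ M a ≠ 0 := fun h => by
  have := coeff_weberQ_neg M ha haM
  rw [h] at this
  simp at this

theorem orderTop_weberQ {a : ℕ} (ha : 0 < a) (haM : a < M) :
    (weberQ M a).orderTop = ((-(M : ℤ) : ℤ) : WithTop ℤ) := by
  rw [HahnSeries.orderTop_of_ne_zero (weberQ_ne_zero M ha haM)]
  congr 1
  refine le_antisymm (Set.IsWF.min_le _ _ ?_) ?_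
  · rw [HahnSeries.mem_support, coeff_weberQ_neg M ha haM]
    exact one_ne_zero
  · by_contra hlt
    rw [not_le] at hlt
    have h1 := Set.IsWF.min_mem (weberQ M a).isWF_support
      (HahnSeries.support_nonempty_iff.mpr (weberQ_ne_zero M ha haM))
    rw [HahnSeries.mem_support] at h1
    exact h1 (coeff_weberQ_of_lt M a hlt)

/-- **differences of Weber functions**: `W_a - W_b = 12 (E₄E₆/Δ)(q^M) (x(aP) - x(bP))` -/
theorem weberQ_sub (a b : ℕ) :
    weberQ M a - weberQ M b =
      HahnSeries.single (-(M : ℤ)) 1 *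
        ofInt (12 * cNum.expand M (NeZero.ne M) * (tateX M a - tateX M b)) := by
  rw [weberQ_eq, weberQ_eq, ← mul_sub, ← ofInt_sub]
  congr 2
  rw [weberNum, weberNum]
  ring

/-! ### the unit ratios `(W_a - W_b)/(W_c - W_d) = (x(aP) - x(bP))/(x(cP) - x(dP))` -/

/-- admissible pair of indices: `0 < a, b < M`, `b ≠ ±a` -/
structure Adm (a b : ℕ) : Prop where
  ha : 0 < a
  haM : a < M
  hb : 0 < b
  hbM : b < M
  hab : a ≠ b
  hab' : a + b ≠ M

/-- the exponent of the leading term of `x(aP) - x(bP)` -/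
def tateOrd (a b : ℕ) : ℕ := min (min a (M - a)) (min b (M - b))

/-- the leading coefficient (`±1`) of `x(aP) - x(bP)`, as a unit of `ℤ` -/
def tateSign (a b : ℕ) : ℤˣ := if min a (M - a) < min b (M - b) then 1 else -1

/-- the unit part of `x(aP) - x(bP)` -/
def tateUnit (a b : ℕ) : PowerSeries ℤ := PowerSeries.divXPowOrder (tateX M a - tateX M b)

/-- its inverse -/
def tateUnitInv (a b : ℕ) : PowerSeries ℤ := (tateUnit M a b).invOfUnit (tateSign M a b)

variable {M}

omit [NeZero M] in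
theorem tateX_sub_eq {a b : ℕ} (h : Adm M a b) :
    tateX M a - tateX M b = PowerSeries.X ^ tateOrd M a b * tateUnit M a b := by
  have h1 := PowerSeries.X_pow_order_mul_divXPowOrder (f := tateX M a - tateX M b)
  rw [order_tateX_sub h.ha h.haM h.hb h.hbM h.hab h.hab', ENat.toNat_natCast] at h1
  exact h1.symm

omit [NeZero M] in
theorem constantCoeff_tateUnit {a b : ℕ} (h : Adm M a b) :
    PowerSeries.constantCoeff (tateUnit M a b) = ((tateSign M a b : ℤˣ) : ℤ) := by
  rw [tateUnit, PowerSeries.constantCoeff_divXPowOrder,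
    order_tateX_sub h.ha h.haM h.hb h.hbM h.hab h.hab', ENat.toNat_natCast,
    coeff_tateX_sub_min h.ha h.haM h.hb h.hbM h.hab h.hab', tateSign]
  split_ifs <;> rfl

theorem tateUnit_mul_inv {a b : ℕ} (h : Adm M a b) : tateUnit M a b * tateUnitInv M a b = 1 :=
  PowerSeries.mul_invOfUnit _ _ (constantCoeff_tateUnit h)

theorem isUnit_tateUnit {a b : ℕ} (h : Adm M a b) : IsUnit (tateUnit M a b) :=
  IsUnit.of_mul_eq_one _ (tateUnit_mul_inv h)

omit [NeZero M] in
theorem constantCoeff_tateUnitInv (a b : ℕ) :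
    PowerSeries.constantCoeff (tateUnitInv M a b) = ((tateSign M a b : ℤˣ) : ℤ) := by
  rw [tateUnitInv, PowerSeries.constantCoeff_invOfUnit, tateSign]
  split_ifs <;> rfl

theorem single_one_inv (n : ℤ) :
    (HahnSeries.single n (1 : ℚ))⁻¹ = HahnSeries.single (-n) (1 : ℚ) := by
  refine inv_eq_of_mul_eq_one_right ?_
  rw [HahnSeries.single_mul_single, add_neg_cancel, one_mul]
  rfl

theorem ofInt_X_pow (n : ℕ) : ofInt (PowerSeries.X ^ n) = HahnSeries.single (n : ℤ) 1 := by
  rw [ofInt, map_pow, PowerSeries.map_X, HahnSeries.ofPowerSeries_X_pow]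

theorem ofInt_tateUnit_ne_zero {a b : ℕ} (h : Adm M a b) : ofInt (tateUnit M a b) ≠ 0 := fun h0 => by
  have := congrArg ofInt (tateUnit_mul_inv h)
  rw [ofInt_mul, h0, zero_mul, ofInt_one] at this
  exact zero_ne_one this

theorem inv_ofInt_tateUnit {a b : ℕ} (h : Adm M a b) :
    (ofInt (tateUnit M a b))⁻¹ = ofInt (tateUnitInv M a b) := by
  refine inv_eq_of_mul_eq_one_right ?_
  rw [← ofInt_mul, tateUnit_mul_inv h, ofInt_one]

variable (M)

/-- the common factor `12 (E₄E₆/Δ)(q^M)` of the differences -/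
def weberFactor : LaurentSeries ℚ :=
  HahnSeries.single (-(M : ℤ)) 1 * ofInt (12 * cNum.expand M (NeZero.ne M))

theorem weberFactor_ne_zero : weberFactor M ≠ 0 := by
  refine mul_ne_zero (HahnSeries.single_ne_zero one_ne_zero) fun h => ?_
  have h1 : (12 * cNum.expand M (NeZero.ne M) : PowerSeries ℤ) = 0 :=
    ofInt_injective (h.trans (map_zero ofIntHom).symm)
  have h2 := congrArg (PowerSeries.constantCoeff (R := ℤ)) h1
  rw [map_mul, PowerSeries.constantCoeff_expand, constantCoeff_cNum, map_zero, mul_one] at h2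
  have h3 : PowerSeries.constantCoeff (12 : PowerSeries ℤ) = 12 := by
    have := PowerSeries.constantCoeff_C (R := ℤ) 12
    exact_mod_cast this
  rw [h3] at h2
  norm_num at h2

variable {M}

/-- **`W_a - W_b = 12 (E₄E₆/Δ)(q^M) · q^{n} · (unit of ℤ⟦q⟧)`** -/
theorem weberQ_sub_eq {a b : ℕ} (h : Adm M a b) :
    weberQ M a - weberQ M b =
      weberFactor M * (HahnSeries.single (tateOrd M a b : ℤ) 1 * ofInt (tateUnit M a b)) := by
  rw [weberQ_sub, tateX_sub_eq h, weberFactor]
  simp only [ofInt_mul, ofInt_X_pow]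
  ring

theorem weberQ_sub_ne_zero {a b : ℕ} (h : Adm M a b) : weberQ M a - weberQ M b ≠ 0 := by
  rw [weberQ_sub_eq h]
  exact mul_ne_zero (weberFactor_ne_zero M)
    (mul_ne_zero (HahnSeries.single_ne_zero one_ne_zero) (ofInt_tateUnit_ne_zero h))

/-- **the `q`-expansion separates the Weber functions up to `a ↦ M - a`** (the `hinj` of
`isSepVar_K1Bar`) -/
theorem weberQ_eq_imp_pm {a b : ℕ} (ha : 0 < a) (haM : a < M) (hb : 0 < b) (hbM : b < M)
    (h : weberQ M a = weberQ M b) : a = b ∨ a + b = M := by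
  by_contra hne
  rw [not_or] at hne
  exact weberQ_sub_ne_zero ⟨ha, haM, hb, hbM, hne.1, hne.2⟩ (sub_eq_zero.mpr h)

/-- the same in the literal `∀`-form consumed by `isSepVar_K1Bar` -/
theorem weberQ_hinj (M : ℕ) [NeZero M] : ∀ a b, 0 < a → a < M → 0 < b → b < M →
    weberQ M a = weberQ M b → a = b ∨ a + b = M :=
  fun _ _ ha haM hb hbM h => weberQ_eq_imp_pm ha haM hb hbM h

variable (M)

/-- **the unit ratio** `(W_a - W_b)/(W_c - W_d) = (x(aP) - x(bP))/(x(cP) - x(dP))` -/
def unitRatio (a b c d : ℕ) : LaurentSeries ℚ :=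
  (weberQ M a - weberQ M b) / (weberQ M c - weberQ M d)

/-- the unit of `ℤ⟦q⟧` in the unit ratio -/
def ratioUnit (a b c d : ℕ) : PowerSeries ℤ := tateUnit M a b * tateUnitInv M c d

variable {M}

/-- **the unit ratio is `q^{n} · (unit of ℤ⟦q⟧)`**: integral, with integral inverse, leading
coefficient `±1`. -/
theorem unitRatio_eq {a b c d : ℕ} (hab : Adm M a b) (hcd : Adm M c d) :
    unitRatio M a b c d =
      HahnSeries.single ((tateOrd M a b : ℤ) - (tateOrd M c d : ℤ)) 1 *
        ofInt (ratioUnit M a b c d) := by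
  have hs : HahnSeries.single ((tateOrd M a b : ℤ) - (tateOrd M c d : ℤ)) (1 : ℚ) =
      HahnSeries.single (tateOrd M a b : ℤ) (1 : ℚ) * HahnSeries.single (-(tateOrd M c d : ℤ)) 1 := by
    rw [HahnSeries.single_mul_single, one_mul, sub_eq_add_neg]
  rw [unitRatio, weberQ_sub_eq hab, weberQ_sub_eq hcd, mul_div_mul_left _ _ (weberFactor_ne_zero M),
    ratioUnit, ofInt_mul, ← inv_ofInt_tateUnit hcd, div_eq_mul_inv, mul_inv, single_one_inv, hs]
  ring

theorem constantCoeff_ratioUnit {a b c d : ℕ} (hab : Adm M a b) :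
    PowerSeries.constantCoeff (ratioUnit M a b c d) =
      ((tateSign M a b * tateSign M c d : ℤˣ) : ℤ) := by
  rw [ratioUnit, map_mul, constantCoeff_tateUnit hab, constantCoeff_tateUnitInv, Units.val_mul]

theorem ratioUnit_mul_ratioUnit {a b c d : ℕ} (hab : Adm M a b) (hcd : Adm M c d) :
    ratioUnit M a b c d * ratioUnit M c d a b = 1 := by
  have h : ratioUnit M a b c d * ratioUnit M c d a b =
      (tateUnit M a b * tateUnitInv M a b) * (tateUnit M c d * tateUnitInv M c d) := by
    rw [ratioUnit, ratioUnit]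
    ring
  rw [h, tateUnit_mul_inv hab, tateUnit_mul_inv hcd, one_mul]

theorem isUnit_ratioUnit {a b c d : ℕ} (hab : Adm M a b) (hcd : Adm M c d) :
    IsUnit (ratioUnit M a b c d) :=
  IsUnit.of_mul_eq_one _ (ratioUnit_mul_ratioUnit hab hcd)

theorem coeff_unitRatio {a b c d : ℕ} (hab : Adm M a b) (hcd : Adm M c d) (k : ℤ) :
    (unitRatio M a b c d).coeff k =
      (ofInt (ratioUnit M a b c d)).coeff (k - ((tateOrd M a b : ℤ) - (tateOrd M c d : ℤ))) := by
  rw [unitRatio_eq hab hcd, HahnSeries.coeff_single_mul, one_mul]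

/-- all coefficients of a unit ratio are integers -/
theorem coeff_unitRatio_mem {a b c d : ℕ} (hab : Adm M a b) (hcd : Adm M c d) (k : ℤ) :
    ∃ z : ℤ, (unitRatio M a b c d).coeff k = z := by
  rw [coeff_unitRatio hab hcd]
  exact coeff_ofInt_mem _ _

theorem coeff_unitRatio_of_lt {a b c d : ℕ} (hab : Adm M a b) (hcd : Adm M c d) {k : ℤ}
    (hk : k < (tateOrd M a b : ℤ) - (tateOrd M c d : ℤ)) : (unitRatio M a b c d).coeff k = 0 := by
  rw [coeff_unitRatio hab hcd]
  exact coeff_ofInt_of_neg _ (by omega)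

/-- **the leading coefficient of a unit ratio is `±1`** -/
theorem coeff_unitRatio_ord {a b c d : ℕ} (hab : Adm M a b) (hcd : Adm M c d) :
    (unitRatio M a b c d).coeff ((tateOrd M a b : ℤ) - (tateOrd M c d : ℤ)) =
      (((tateSign M a b * tateSign M c d : ℤˣ) : ℤ) : ℚ) := by
  rw [coeff_unitRatio hab hcd, sub_self, show (0 : ℤ) = ((0 : ℕ) : ℤ) from rfl, coeff_ofInt_natCast,
    PowerSeries.coeff_zero_eq_constantCoeff_apply, constantCoeff_ratioUnit hab]

theorem unitRatio_mul_unitRatio {a b c d : ℕ} (hab : Adm M a b) (hcd : Adm M c d) :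
    unitRatio M a b c d * unitRatio M c d a b = 1 := by
  rw [unitRatio, unitRatio, div_mul_div_comm, mul_comm, div_self]
  exact mul_ne_zero (weberQ_sub_ne_zero hcd) (weberQ_sub_ne_zero hab)

theorem unitRatio_mem_K1 {a b c d : ℕ} (hab : Adm M a b) (hcd : Adm M c d) :
    unitRatio M a b c d ∈ K1 M :=
  (K1 M).div_mem
    ((K1 M).sub_mem (weberQ_mem_K1 M hab.ha hab.haM) (weberQ_mem_K1 M hab.hb hab.hbM))
    ((K1 M).sub_mem (weberQ_mem_K1 M hcd.ha hcd.haM) (weberQ_mem_K1 M hcd.hb hcd.hbM))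

end Fermat.Agent.DS.X1
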