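import Mathlib
import Fermat.Agent.X0.Psi
import Fermat.Agent.X0.QDict

/-!
# PROGRAMME III, X1-AN, leaf AN-A (generic part): analytic realisation of a finitely generated
`K`-algebra of `q`-series

`K` a field with an embedding `ι : K →+* ℂ`, `Γ ≤ SL(2,ℤ)`.  `IsRealOf ι Γ x F` : the function
`F : ℍ → ℂ` is holomorphic, meromorphic at `i∞` (`X0.IsMerCusp`), `Γ`-invariant, and its `q`-expansion
is `coeffMap ι x`.  For a set `S` of series all of which have a realisation, `PsiGen` is the injective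
ring homomorphism `Algebra.adjoin K S →+* (ℍ → ℂ)`; `transGen` transports a substitution `z ↦ γ₀ • z`
that permutes the generators to a ring endomorphism of `Algebra.adjoin K S`.

Generic twin of `X0/Psi.lean` (there: `K = ℚ̄`, `Γ = Γ₀(N)`, `S = {j(q^d)}`).
-/

set_option autoImplicit false

noncomputable section

namespace Fermat.Agent.DS.X1

open UpperHalfPlane ModularCurve HahnSeries Fermat.Agent.X0
open scoped MatrixGroups Manifold

variable {K : Type*} [Field K] (ι : K →+* ℂ) (Γ : Subgroup SL(2, ℤ))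

/-- `F` is the analytic realisation of the formal series `x`. -/
structure IsRealOf (x : LaurentSeries K) (F : ℍ → ℂ) : Prop where
  mer : IsMerCusp F
  qexp : qexpL F = coeffMap ι x
  inv : ∀ γ ∈ Γ, ∀ z : ℍ, F (γ • z) = F z

variable {ι Γ}

theorem IsRealOf.add {x y : LaurentSeries K} {F G : ℍ → ℂ} (hF : IsRealOf ι Γ x F)
    (hG : IsRealOf ι Γ y G) : IsRealOf ι Γ (x + y) (F + G) where
  mer := hF.mer.add hG.mer
  qexp := by rw [qexpL_add hF.mer hG.mer, hF.qexp, hG.qexp, map_add]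
  inv γ hγ z := by simp only [Pi.add_apply, hF.inv γ hγ z, hG.inv γ hγ z]

theorem IsRealOf.mul {x y : LaurentSeries K} {F G : ℍ → ℂ} (hF : IsRealOf ι Γ x F)
    (hG : IsRealOf ι Γ y G) : IsRealOf ι Γ (x * y) (F * G) where
  mer := hF.mer.mul hG.mer
  qexp := by rw [qexpL_mul hF.mer hG.mer, hF.qexp, hG.qexp, map_mul]
  inv γ hγ z := by simp only [Pi.mul_apply, hF.inv γ hγ z, hG.inv γ hγ z]

variable (ι Γ) in
theorem isRealOf_algebraMap (c : K) :
    IsRealOf ι Γ (algebraMap K (LaurentSeries K) c) (fun _ => ι c) where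
  mer := isMerCusp_const _
  qexp := by
    rw [qexpL_const, algebraMap_laurentSeries_eq_single, coeffMap_single]
    rfl
  inv _ _ _ := rfl

theorem IsRealOf.unique {x : LaurentSeries K} {F G : ℍ → ℂ} (hF : IsRealOf ι Γ x F)
    (hG : IsRealOf ι Γ x G) : F = G := by
  have h : qexpLHom ⟨F, hF.mer⟩ = qexpLHom ⟨G, hG.mer⟩ := by
    simp only [qexpLHom_apply, hF.qexp, hG.qexp]
  exact congrArg Subtype.val (qexpLHom_injective h)

theorem IsRealOf.mono {Γ' : Subgroup SL(2, ℤ)} (h : Γ' ≤ Γ) {x : LaurentSeries K} {F : ℍ → ℂ}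
    (hF : IsRealOf ι Γ x F) : IsRealOf ι Γ' x F :=
  ⟨hF.mer, hF.qexp, fun γ hγ z => hF.inv γ (h hγ) z⟩

theorem IsRealOf.mdiff {x : LaurentSeries K} {F : ℍ → ℂ} (hF : IsRealOf ι Γ x F) : MDiff F :=
  hF.mer.mdiff

/-! ### the realisation of a generated subalgebra -/

variable (ι Γ) in
/-- every generator has a realisation -/
def HasReal (S : Set (LaurentSeries K)) : Prop := ∀ s ∈ S, ∃ F : ℍ → ℂ, IsRealOf ι Γ s F

variable {S : Set (LaurentSeries K)}

theorem exists_isRealOf (hS : HasReal ι Γ S) (r : LaurentSeries K)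
    (hr : r ∈ Algebra.adjoin K S) : ∃ F : ℍ → ℂ, IsRealOf ι Γ r F := by
  induction hr using Algebra.adjoin_induction with
  | mem x hx => exact hS x hx
  | algebraMap c => exact ⟨_, isRealOf_algebraMap ι Γ c⟩
  | add x y _ _ hx hy =>
    obtain ⟨F, hF⟩ := hx
    obtain ⟨G, hG⟩ := hy
    exact ⟨F + G, hF.add hG⟩
  | mul x y _ _ hx hy =>
    obtain ⟨F, hF⟩ := hx
    obtain ⟨G, hG⟩ := hy
    exact ⟨F * G, hF.mul hG⟩

/-- the underlying function of `PsiGen` -/
def psiGenFun (hS : HasReal ι Γ S) (r : Algebra.adjoin K S) : ℍ → ℂ :=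
  (exists_isRealOf hS r r.2).choose

theorem isRealOf_psiGenFun (hS : HasReal ι Γ S) (r : Algebra.adjoin K S) :
    IsRealOf ι Γ (r : LaurentSeries K) (psiGenFun hS r) :=
  (exists_isRealOf hS r r.2).choose_spec

theorem psiGenFun_eq (hS : HasReal ι Γ S) {r : Algebra.adjoin K S} {F : ℍ → ℂ}
    (hF : IsRealOf ι Γ (r : LaurentSeries K) F) : psiGenFun hS r = F :=
  (isRealOf_psiGenFun hS r).unique hF

/-- **the analytic realisation** of `K[S]`. -/
def PsiGen (hS : HasReal ι Γ S) : Algebra.adjoin K S →+* (ℍ → ℂ) where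
  toFun := psiGenFun hS
  map_one' := psiGenFun_eq hS (by
    have h := isRealOf_algebraMap ι Γ (1 : K)
    simp only [map_one] at h
    exact h)
  map_mul' r s := psiGenFun_eq hS ((isRealOf_psiGenFun hS r).mul (isRealOf_psiGenFun hS s))
  map_zero' := psiGenFun_eq hS (by
    have h := isRealOf_algebraMap ι Γ (0 : K)
    simp only [map_zero] at h
    exact h)
  map_add' r s := psiGenFun_eq hS ((isRealOf_psiGenFun hS r).add (isRealOf_psiGenFun hS s))

theorem isRealOf_PsiGen (hS : HasReal ι Γ S) (r : Algebra.adjoin K S) :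
    IsRealOf ι Γ (r : LaurentSeries K) (PsiGen hS r) := isRealOf_psiGenFun hS r

theorem PsiGen_eq (hS : HasReal ι Γ S) {r : Algebra.adjoin K S} {F : ℍ → ℂ}
    (hF : IsRealOf ι Γ (r : LaurentSeries K) F) : PsiGen hS r = F := psiGenFun_eq hS hF

theorem qexpL_PsiGen (hS : HasReal ι Γ S) (r : Algebra.adjoin K S) :
    qexpL (PsiGen hS r) = coeffMap ι (r : LaurentSeries K) := (isRealOf_PsiGen hS r).qexp

theorem PsiGen_smul (hS : HasReal ι Γ S) (r : Algebra.adjoin K S) (γ : SL(2, ℤ)) (hγ : γ ∈ Γ)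
    (z : ℍ) : PsiGen hS r (γ • z) = PsiGen hS r z := (isRealOf_PsiGen hS r).inv γ hγ z

theorem PsiGen_algebraMap (hS : HasReal ι Γ S) (c : K) :
    PsiGen hS (algebraMap K (Algebra.adjoin K S) c) = fun _ => ι c :=
  PsiGen_eq hS (isRealOf_algebraMap ι Γ c)

theorem PsiGen_mdiff (hS : HasReal ι Γ S) (r : Algebra.adjoin K S) : MDiff (PsiGen hS r) :=
  (isRealOf_PsiGen hS r).mdiff

theorem PsiGen_injective (hS : HasReal ι Γ S) : Function.Injective (PsiGen hS) := by
  rw [injective_iff_map_eq_zero]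
  intro r hr
  have h := qexpL_PsiGen hS r
  rw [hr, qexpL_zero] at h
  have h2 : (r : LaurentSeries K) = 0 :=
    coeffMap_injective ι ι.injective (by rw [← h, map_zero])
  exact Subtype.ext h2

/-! ### transport of a substitution `z ↦ γ₀ • z` permuting the generators -/

/-- `r'` is the series of `z ↦ F (γ₀ • z)` whenever `F` realises `r`. -/
def IsTransOf (ι : K →+* ℂ) (Γ : Subgroup SL(2, ℤ)) (γ₀ : SL(2, ℤ)) (r r' : LaurentSeries K) :
    Prop :=
  ∀ F : ℍ → ℂ, IsRealOf ι Γ r F → IsRealOf ι Γ r' (fun z => F (γ₀ • z))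

theorem exists_isTransOf (hS : HasReal ι Γ S) (γ₀ : SL(2, ℤ))
    (hγ₀ : ∀ s ∈ S, ∃ s' ∈ Algebra.adjoin K S, IsTransOf ι Γ γ₀ s s')
    (r : LaurentSeries K) (hr : r ∈ Algebra.adjoin K S) :
    ∃ r' ∈ Algebra.adjoin K S, IsTransOf ι Γ γ₀ r r' := by
  induction hr using Algebra.adjoin_induction with
  | mem x hx => exact hγ₀ x hx
  | algebraMap c =>
    refine ⟨algebraMap K _ c, Subalgebra.algebraMap_mem _ c, fun F hF => ?_⟩
    have : F = fun _ => ι c := hF.unique (isRealOf_algebraMap ι Γ c)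
    subst this
    exact isRealOf_algebraMap ι Γ c
  | add x y hx hy ihx ihy =>
    obtain ⟨x', hx', tx⟩ := ihx
    obtain ⟨y', hy', ty⟩ := ihy
    refine ⟨x' + y', add_mem hx' hy', fun F hF => ?_⟩
    obtain ⟨Fx, hFx⟩ := exists_isRealOf hS x hx
    obtain ⟨Fy, hFy⟩ := exists_isRealOf hS y hy
    have : F = Fx + Fy := hF.unique (hFx.add hFy)
    subst this
    exact (tx Fx hFx).add (ty Fy hFy)
  | mul x y hx hy ihx ihy =>
    obtain ⟨x', hx', tx⟩ := ihx
    obtain ⟨y', hy', ty⟩ := ihy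
    refine ⟨x' * y', mul_mem hx' hy', fun F hF => ?_⟩
    obtain ⟨Fx, hFx⟩ := exists_isRealOf hS x hx
    obtain ⟨Fy, hFy⟩ := exists_isRealOf hS y hy
    have : F = Fx * Fy := hF.unique (hFx.mul hFy)
    subst this
    exact (tx Fx hFx).mul (ty Fy hFy)

/-- the transported element -/
def transGenFun (hS : HasReal ι Γ S) (γ₀ : SL(2, ℤ))
    (hγ₀ : ∀ s ∈ S, ∃ s' ∈ Algebra.adjoin K S, IsTransOf ι Γ γ₀ s s')
    (r : Algebra.adjoin K S) : Algebra.adjoin K S :=
  ⟨(exists_isTransOf hS γ₀ hγ₀ r r.2).choose, (exists_isTransOf hS γ₀ hγ₀ r r.2).choose_spec.1⟩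

theorem PsiGen_transGenFun (hS : HasReal ι Γ S) (γ₀ : SL(2, ℤ))
    (hγ₀ : ∀ s ∈ S, ∃ s' ∈ Algebra.adjoin K S, IsTransOf ι Γ γ₀ s s')
    (r : Algebra.adjoin K S) :
    PsiGen hS (transGenFun hS γ₀ hγ₀ r) = fun z => PsiGen hS r (γ₀ • z) :=
  PsiGen_eq hS ((exists_isTransOf hS γ₀ hγ₀ r r.2).choose_spec.2 _ (isRealOf_PsiGen hS r))

/-- **the ring endomorphism of `K[S]` induced by `z ↦ γ₀ • z`.** -/
def transGen (hS : HasReal ι Γ S) (γ₀ : SL(2, ℤ))
    (hγ₀ : ∀ s ∈ S, ∃ s' ∈ Algebra.adjoin K S, IsTransOf ι Γ γ₀ s s') :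
    Algebra.adjoin K S →ₐ[K] Algebra.adjoin K S where
  toFun := transGenFun hS γ₀ hγ₀
  map_one' := PsiGen_injective hS (by
    rw [PsiGen_transGenFun, map_one]; rfl)
  map_mul' r s := PsiGen_injective hS (by
    rw [map_mul, PsiGen_transGenFun, PsiGen_transGenFun, PsiGen_transGenFun, map_mul]; rfl)
  map_zero' := PsiGen_injective hS (by
    rw [PsiGen_transGenFun, map_zero]; rfl)
  map_add' r s := PsiGen_injective hS (by
    rw [map_add, PsiGen_transGenFun, PsiGen_transGenFun, PsiGen_transGenFun, map_add]; rfl)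
  commutes' c := PsiGen_injective hS (by
    rw [PsiGen_transGenFun, PsiGen_algebraMap])

theorem PsiGen_transGen (hS : HasReal ι Γ S) (γ₀ : SL(2, ℤ))
    (hγ₀ : ∀ s ∈ S, ∃ s' ∈ Algebra.adjoin K S, IsTransOf ι Γ γ₀ s s')
    (r : Algebra.adjoin K S) (z : ℍ) :
    PsiGen hS (transGen hS γ₀ hγ₀ r) z = PsiGen hS r (γ₀ • z) :=
  congrFun (PsiGen_transGenFun hS γ₀ hγ₀ r) z

/-- the transported series is determined by realisations -/
theorem transGen_eq_of (hS : HasReal ι Γ S) (γ₀ : SL(2, ℤ))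
    (hγ₀ : ∀ s ∈ S, ∃ s' ∈ Algebra.adjoin K S, IsTransOf ι Γ γ₀ s s')
    {r r' : Algebra.adjoin K S} (h : IsTransOf ι Γ γ₀ (r : LaurentSeries K) r') :
    transGen hS γ₀ hγ₀ r = r' :=
  PsiGen_injective hS (by
    funext z
    rw [PsiGen_transGen]
    exact (congrFun (PsiGen_eq hS (h _ (isRealOf_PsiGen hS r))) z).symm)

end Fermat.Agent.DS.X1
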