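import Mathlib
import Fermat.Agent.DS.X1.PsiGen
import Fermat.Agent.X0.DegLower
import Fermat.Agent.X0.SymC
import Fermat.Agent.X0.DegTrans
import Fermat.Agent.X0.BoundedDegree

/-!
# PROGRAMME III, X1-AN, leaf AN-3 (generic part): the degree over `ℚ̄(j)` of a field of `q`-series
with an analytic realisation

`S` a set of series over `Kb = ℚ̄` with realisations (`HasReal iotaC Γ S`), `R = ℚ̄[S]`,
`F ⊂ ℚ̄((q))` a field which is the fraction field of `R`, `x ∈ R` with `PsiGen x = j`.  If the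
realisations are meromorphic at all cusps (`hb`) and every `γ ∉ Γ` moves some `PsiGen r` (`hdist`),
then `[F : ℚ̄(x)] = [SL(2,ℤ) : Γ]`.

Generic twin of `X0/{SoftDescent, DegUpper, DegLower, ModDegOf}` (there `Γ = Γ₀(N)`).
-/

set_option autoImplicit false

noncomputable section

namespace Fermat.Agent.DS.X1

open UpperHalfPlane ModularCurve Polynomial IntermediateField Fermat.Agent.X0
open Fermat.Agent.S23
open scoped MatrixGroups Manifold

local notation "Δ" => ModularForm.discriminant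

variable {Γ : Subgroup SL(2, ℤ)} {S : Set (LaurentSeries Kb)}

/-! ### soft descent -/

/-- coefficientwise form of a `ℂ`-linear relation among the functions `PsiGen (r i)`. -/
theorem soft_descent_coeff_gen (hS : HasReal iotaC Γ S) {ι : Type*} (s : Finset ι)
    (r : ι → Algebra.adjoin Kb S) (c : ι → ℂ)
    (h : ∀ z : ℍ, ∑ i ∈ s, c i * PsiGen hS (r i) z = 0) (n : ℤ) :
    ∑ i ∈ s, c i * iotaC ((r i : LaurentSeries Kb).coeff n) = 0 := by
  classical
  let A : ι → merCuspSubring := fun i =>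
    ⟨fun _ => c i, isMerCusp_const (c i)⟩ * ⟨PsiGen hS (r i), (isRealOf_PsiGen hS (r i)).mer⟩
  have hA : ∑ i ∈ s, A i = 0 := by
    apply Subtype.ext
    funext z
    have h1 : (((∑ i ∈ s, A i : merCuspSubring) : ℍ → ℂ)) z
        = ∑ i ∈ s, c i * PsiGen hS (r i) z := by
      rw [AddSubmonoidClass.coe_finsetSum, Finset.sum_apply]
      rfl
    rw [h1, h z]
    rfl
  have hq := congrArg qexpLHom hA
  rw [map_sum, map_zero] at hq
  have hq2 := congrArg (fun x : LaurentSeries ℂ => x.coeff n) hq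
  simp only [HahnSeries.coeff_sum, HahnSeries.coeff_zero] at hq2
  rw [← hq2]
  refine Finset.sum_congr rfl fun i _ => ?_
  have : qexpLHom (A i) = HahnSeries.C (c i) * coeffMap iotaC (r i : LaurentSeries Kb) := by
    change qexpLHom (⟨fun _ => c i, isMerCusp_const (c i)⟩ *
      ⟨PsiGen hS (r i), (isRealOf_PsiGen hS (r i)).mer⟩) = _
    rw [map_mul, qexpLHom_apply, qexpLHom_apply, qexpL_const, qexpL_PsiGen]
  rw [this, HahnSeries.C_mul_eq_smul, HahnSeries.coeff_smul, coeffMap_coeff, smul_eq_mul]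

theorem soft_descent_gen (hS : HasReal iotaC Γ S) {ι : Type*} (s : Finset ι)
    (r : ι → Algebra.adjoin Kb S) (c : ι → ℂ) (i0 : ι)
    (hi0 : i0 ∈ s) (hc : c i0 ≠ 0) (h : ∀ z : ℍ, ∑ i ∈ s, c i * PsiGen hS (r i) z = 0) :
    ∃ l : ι → Kb, l i0 = 1 ∧ (∀ i ∈ s, c i = 0 → l i = 0) ∧ ∑ i ∈ s, l i • r i = 0 := by
  classical
  letI : Algebra Kb ℂ := iotaC.toAlgebra
  have hsmul : ∀ (k : Kb) (z : ℂ), k • z = iotaC k * z := fun k z => rfl
  obtain ⟨φ0, hφ0⟩ : ∃ φ0 : Module.Dual Kb ℂ, φ0 (c i0) ≠ 0 := by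
    by_contra hcon
    push Not at hcon
    exact hc ((Module.forall_dual_apply_eq_zero_iff Kb (c i0)).mp hcon)
  refine ⟨fun i => φ0 (c i) / φ0 (c i0), div_self hφ0, ?_, ?_⟩
  · intro i _ hi
    simp [hi]
  · apply Subtype.ext
    rw [AddSubmonoidClass.coe_finsetSum]
    ext n
    rw [HahnSeries.coeff_sum]
    have hn := soft_descent_coeff_gen hS s r c h n
    have hn2 : ∑ i ∈ s, ((r i : LaurentSeries Kb).coeff n) • c i = 0 := by
      rw [← hn]
      refine Finset.sum_congr rfl fun i _ => ?_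
      rw [hsmul, mul_comm]
    have hn3 := congrArg φ0 hn2
    rw [map_sum, map_zero] at hn3
    have hn4 : ∑ i ∈ s, (φ0 (c i) / φ0 (c i0)) * ((r i : LaurentSeries Kb).coeff n) = 0 := by
      have : ∑ i ∈ s, (φ0 (c i) / φ0 (c i0)) * ((r i : LaurentSeries Kb).coeff n)
          = (φ0 (c i0))⁻¹ * ∑ i ∈ s, φ0 (((r i : LaurentSeries Kb).coeff n) • c i) := by
        rw [Finset.mul_sum]
        refine Finset.sum_congr rfl fun i _ => ?_
        rw [map_smul, smul_eq_mul]
        field_simp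
      rw [this, hn3, mul_zero]
    have h0 : ((0 : Algebra.adjoin Kb S) : LaurentSeries Kb).coeff n = 0 := rfl
    rw [h0, ← hn4]
    refine Finset.sum_congr rfl fun i _ => ?_
    rw [Subalgebra.coe_smul, Algebra.smul_def, algebraMap_laurentSeries_eq_single,
      HahnSeries.coeff_single_mul, sub_zero]

/-! ### the bounded relation -/

/-- **Upper bound, ring form.** For `g h : R`, `h ≠ 0`, there are polynomials `q i ∈ ℚ̄[X]`
(`i ≤ n = [SL(2,ℤ) : Γ]`), `q 0 ≠ 0`, with `∑ q_i(x) g^{n-i} h^i = 0`. -/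
theorem exists_relation_gen (hS : HasReal iotaC Γ S) [Γ.FiniteIndex]
    (xR : Algebra.adjoin Kb S) (hx : PsiGen hS xR = jFun)
    (hb : ∀ (r : Algebra.adjoin Kb S) (γ : SL(2, ℤ)), ∃ m : ℕ,
      IsBoundedAtImInfty (fun z => Δ z ^ m * PsiGen hS r (γ • z)))
    (g : Algebra.adjoin Kb S) {h : Algebra.adjoin Kb S} (hh : h ≠ 0) :
    ∃ q : ℕ → Kb[X], q 0 ≠ 0 ∧
      ∑ i ∈ Finset.range (Nat.card (SL(2, ℤ) ⧸ Γ) + 1),
        aeval xR (q i) * g ^ (Nat.card (SL(2, ℤ) ⧸ Γ) - i) * h ^ i = 0 := by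
  classical
  haveI : Fintype (SL(2, ℤ) ⧸ Γ) := Fintype.ofFinite _
  obtain ⟨P, hP0, hrel⟩ := SymC.exists_poly_relation (Γ := Γ) (θ := PsiGen hS)
    (fun γ hγ r τ => PsiGen_smul hS r γ hγ τ) (PsiGen_injective hS) (PsiGen_mdiff hS) hb g hh
  rw [← Nat.card_eq_fintype_card] at hrel
  set n := Nat.card (SL(2, ℤ) ⧸ Γ) with hn
  set D := (Finset.range (n + 1)).sup (fun i => (P i).natDegree) with hD
  obtain ⟨k0, hk0⟩ : ∃ k0, (P 0).coeff k0 ≠ 0 := by
    by_contra hcon
    push Not at hcon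
    exact hP0 (Polynomial.ext (by simpa using hcon))
  have hk0D : k0 ≤ D :=
    (le_natDegree_of_ne_zero hk0).trans
      (Finset.le_sup (f := fun i => (P i).natDegree) (Finset.mem_range.mpr (Nat.succ_pos n)))
  set s : Finset (ℕ × ℕ) := Finset.range (n + 1) ×ˢ Finset.range (D + 1) with hs
  set r : ℕ × ℕ → Algebra.adjoin Kb S := fun x => xR ^ x.2 * g ^ (n - x.1) * h ^ x.1 with hr
  set c : ℕ × ℕ → ℂ := fun x => (-1) ^ x.1 * (P x.1).coeff x.2 with hc
  have hsum : ∀ z : ℍ, ∑ x ∈ s, c x * PsiGen hS (r x) z = 0 := by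
    intro z
    rw [hs, Finset.sum_product, ← hrel z]
    refine Finset.sum_congr rfl fun i hi => ?_
    have hdeg : (P i).natDegree < D + 1 :=
      Nat.lt_succ_of_le (Finset.le_sup (f := fun i => (P i).natDegree) hi)
    rw [Polynomial.eval_eq_sum_range' hdeg, Finset.mul_sum, Finset.sum_mul, Finset.sum_mul]
    refine Finset.sum_congr rfl fun k _ => ?_
    simp only [hr, hc, map_mul, map_pow, Pi.mul_apply, Pi.pow_apply, hx]
    ring
  obtain ⟨l, hl0, -, hlsum⟩ := soft_descent_gen hS s r c (0, k0)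
    (by rw [hs, Finset.mem_product]
        exact ⟨Finset.mem_range.mpr (Nat.succ_pos n), Finset.mem_range.mpr (Nat.lt_succ_of_le hk0D)⟩)
    (by simpa [hc] using hk0) hsum
  refine ⟨fun i => ∑ k ∈ Finset.range (D + 1), C (l (i, k)) * X ^ k, ?_, ?_⟩
  · intro h0
    have h4 := congrArg (fun p : Kb[X] => p.coeff k0) h0
    simp only [finsetSum_coeff, coeff_C_mul_X_pow, coeff_zero] at h4
    rw [Finset.sum_eq_single k0] at h4
    · simp [hl0] at h4
    · intro k _ hk
      rw [if_neg (Ne.symm hk)]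
    · intro h5
      exact absurd (Finset.mem_range.mpr (Nat.lt_succ_of_le hk0D)) h5
  · rw [← hlsum, hs, Finset.sum_product]
    refine Finset.sum_congr rfl fun i _ => ?_
    rw [map_sum, Finset.sum_mul, Finset.sum_mul]
    refine Finset.sum_congr rfl fun k _ => ?_
    simp only [hr, map_mul, aeval_C, map_pow, aeval_X, Algebra.smul_def]
    ring

/-! ### the degree -/

section Field

variable (hS : HasReal iotaC Γ S) (F : IntermediateField Kb (LaurentSeries Kb))
  (hRF : ∀ r ∈ Algebra.adjoin Kb S, r ∈ F)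

/-- the inclusion `R → F` -/
def inclRF : Algebra.adjoin Kb S →ₐ[Kb] F where
  toFun r := ⟨r, hRF r r.2⟩
  map_one' := rfl
  map_mul' _ _ := rfl
  map_zero' := rfl
  map_add' _ _ := rfl
  commutes' _ := rfl

theorem inclRF_injective : Function.Injective (inclRF F hRF) := fun _ _ h =>
  Subtype.ext (congrArg (fun y : F => (y : LaurentSeries Kb)) h)

theorem PsiGen_eq_jFun (xR : Algebra.adjoin Kb S)
    (hxq : (xR : LaurentSeries Kb) = coeffEmb Kb jq) : PsiGen hS xR = jFun := by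
  refine PsiGen_eq hS (F := jFun) ⟨isMerCusp_jAn, ?_, fun γ _ z => jFun_smul γ z⟩
  rw [hxq, coeffMap_iotaC_coeffEmb]
  exact qexpL_jAn

variable [Γ.FiniteIndex]

/-- **Upper bound**: every `f : F` satisfies a relation of degree `≤ [SL(2,ℤ):Γ]` over `ℚ̄[x]`. -/
theorem exists_bounded_relation_gen
    (hfrac : ∀ f : F, ∃ g h : Algebra.adjoin Kb S, h ≠ 0 ∧
      (f : LaurentSeries Kb) * (h : LaurentSeries Kb) = g)
    (xR : Algebra.adjoin Kb S) (hxq : (xR : LaurentSeries Kb) = coeffEmb Kb jq)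
    (hb : ∀ (r : Algebra.adjoin Kb S) (γ : SL(2, ℤ)), ∃ m : ℕ,
      IsBoundedAtImInfty (fun z => Δ z ^ m * PsiGen hS r (γ • z)))
    (f : F) :
    ∃ Q : Kb[X][X],
      Q.map (aeval (inclRF F hRF xR) : Kb[X] →ₐ[Kb] F).toRingHom ≠ 0 ∧
      Q.natDegree ≤ Nat.card (SL(2, ℤ) ⧸ Γ) ∧
      (Q.map (aeval (inclRF F hRF xR) : Kb[X] →ₐ[Kb] F).toRingHom).eval f = 0 := by
  classical
  obtain ⟨g, h, hh, hfg⟩ := hfrac f
  obtain ⟨q, hq0, hrel⟩ := exists_relation_gen hS xR (PsiGen_eq_jFun hS xR hxq) hb g hh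
  set n := Nat.card (SL(2, ℤ) ⧸ Γ) with hn
  set x : F := inclRF F hRF xR with hx
  have hxt : Transcendental Kb x := by
    intro halg
    apply transcendental_coeffEmb_jq
    obtain ⟨p, hp0, hp⟩ := halg
    refine ⟨p, hp0, ?_⟩
    have := congrArg (fun y : F => (y : LaurentSeries Kb)) hp
    simp only [ZeroMemClass.coe_zero] at this
    rw [← this, ← hxq]
    have e : ((aeval x p : F) : LaurentSeries Kb) = aeval ((x : F) : LaurentSeries Kb) p := by
      rw [← IntermediateField.coe_val, ← aeval_algHom_apply]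
    rw [e]
    rfl
  set φ : Kb[X] →+* F := (aeval x : Kb[X] →ₐ[Kb] F).toRingHom with hφ
  set Q : Kb[X][X] := ∑ i ∈ Finset.range (n + 1), C (q i) * X ^ (n - i) with hQ
  refine ⟨Q, ?_, ?_, ?_⟩
  · intro h0
    have h1 : (Q.map φ).coeff n = 0 := by rw [h0, coeff_zero]
    rw [coeff_map] at h1
    have h2 : Q.coeff n = q 0 := by
      rw [hQ, finsetSum_coeff, Finset.sum_eq_single 0]
      · rw [coeff_C_mul_X_pow]
        simp
      · intro i hi hi0
        rw [coeff_C_mul_X_pow, if_neg]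
        have := Finset.mem_range.mp hi
        omega
      · intro h3
        exact absurd (Finset.mem_range.mpr (Nat.succ_pos n)) h3
    rw [h2] at h1
    exact hq0 (by
      by_contra hne
      exact (transcendental_iff.mp hxt) (q 0) h1 |> hne)
  · rw [hQ]
    apply natDegree_sum_le_of_forall_le
    intro i _
    exact (natDegree_C_mul_X_pow_le (q i) (n - i)).trans (Nat.sub_le n i)
  · have hhF : inclRF F hRF h ≠ 0 := fun h0 =>
      hh (inclRF_injective F hRF (by rw [h0, map_zero]))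
    have hf : f = inclRF F hRF g / inclRF F hRF h := by
      rw [eq_div_iff hhF]
      exact Subtype.ext hfg
    have hhn : (inclRF F hRF h) ^ n ≠ 0 := pow_ne_zero n hhF
    have key : (Q.map φ).eval f * (inclRF F hRF h) ^ n =
        inclRF F hRF (∑ i ∈ Finset.range (n + 1), aeval xR (q i) * g ^ (n - i) * h ^ i) := by
      rw [hQ, Polynomial.map_sum, eval_finsetSum, Finset.sum_mul, map_sum]
      refine Finset.sum_congr rfl fun i hi => ?_
      have hin : i ≤ n := Nat.lt_succ_iff.mp (Finset.mem_range.mp hi)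
      rw [Polynomial.map_mul, Polynomial.map_pow, map_C, map_X, eval_mul, eval_C,
        eval_pow, eval_X, map_mul, map_mul, map_pow, map_pow]
      have e1 : f ^ (n - i) * (inclRF F hRF h) ^ n =
          (inclRF F hRF g) ^ (n - i) * (inclRF F hRF h) ^ i := by
        have : (inclRF F hRF h) ^ n = (inclRF F hRF h) ^ (n - i) * (inclRF F hRF h) ^ i := by
          rw [← pow_add, Nat.sub_add_cancel hin]
        rw [this, hf, div_pow]
        field_simp
      have e2 : φ (q i) = inclRF F hRF (aeval xR (q i)) := by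
        rw [hφ]
        simp only [AlgHom.toRingHom_eq_coe, RingHom.coe_coe]
        rw [← aeval_algHom_apply]
      rw [mul_assoc, e1, e2, mul_assoc]
    rw [hrel, map_zero] at key
    exact (mul_eq_zero.mp key).resolve_right hhn

/-- **The degree theorem.** -/
theorem isSepVar_gen
    (hfrac : ∀ f : F, ∃ g h : Algebra.adjoin Kb S, h ≠ 0 ∧
      (f : LaurentSeries Kb) * (h : LaurentSeries Kb) = g)
    (xR : Algebra.adjoin Kb S) (hxq : (xR : LaurentSeries Kb) = coeffEmb Kb jq)
    (hb : ∀ (r : Algebra.adjoin Kb S) (γ : SL(2, ℤ)), ∃ m : ℕ,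
      IsBoundedAtImInfty (fun z => Δ z ^ m * PsiGen hS r (γ • z)))
    (hdist : ∀ δ : SL(2, ℤ), (∀ (r : Algebra.adjoin Kb S) (z : ℍ),
      PsiGen hS r (δ • z) = PsiGen hS r z) → δ ∈ Γ) :
    IsSepVar Kb (inclRF F hRF xR) (Nat.card (SL(2, ℤ) ⧸ Γ)) := by
  classical
  haveI : Fintype (SL(2, ℤ) ⧸ Γ) := Fintype.ofFinite _
  set x : F := inclRF F hRF xR with hx
  obtain ⟨hfin, hle⟩ := finiteDimensional_adjoin_simple_and_finrank_le_of_bounded (K := Kb)
    x (Nat.card (SL(2, ℤ) ⧸ Γ)) (exists_bounded_relation_gen hS F hRF hfrac xR hxq hb)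
  have hxt : Transcendental Kb x := by
    intro halg
    apply transcendental_coeffEmb_jq
    obtain ⟨p, hp0, hp⟩ := halg
    refine ⟨p, hp0, ?_⟩
    have := congrArg (fun y : F => (y : LaurentSeries Kb)) hp
    simp only [ZeroMemClass.coe_zero] at this
    rw [← this, ← hxq]
    have e : ((aeval x p : F) : LaurentSeries Kb) = aeval ((x : F) : LaurentSeries Kb) p := by
      rw [← IntermediateField.coe_val, ← aeval_algHom_apply]
    rw [e]
    rfl
  refine ⟨hxt, hfin, le_antisymm hle ?_⟩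
  -- the lower bound
  letI : Algebra (Algebra.adjoin Kb S) F := (inclRF F hRF).toRingHom.toAlgebra
  haveI : IsScalarTower Kb (Algebra.adjoin Kb S) F :=
    IsScalarTower.of_algebraMap_eq fun k => ((inclRF F hRF).commutes k).symm
  haveI : FaithfulSMul (Algebra.adjoin Kb S) F :=
    (faithfulSMul_iff_algebraMap_injective _ _).mpr (inclRF_injective F hRF)
  haveI : IsFractionRing (Algebra.adjoin Kb S) F :=
    IsFractionRing.of_field _ _ fun f => by
      obtain ⟨g, h, hh, hfg⟩ := hfrac f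
      refine ⟨g, h, ?_⟩
      have hhF : inclRF F hRF h ≠ 0 := fun h0 =>
        hh (inclRF_injective F hRF (by rw [h0, map_zero]))
      show f = inclRF F hRF g / inclRF F hRF h
      rw [eq_div_iff hhF]
      exact Subtype.ext hfg
  have hΓ : ∀ γ ∈ Γ, ∀ (r : Algebra.adjoin Kb S) (τ : ℍ), PsiGen hS r (γ • τ) = PsiGen hS r τ :=
    fun γ hγ r τ => PsiGen_smul hS r γ hγ τ
  rw [Nat.card_eq_fintype_card]
  refine card_le_finrank_of_realisations (K := Kb) (R := Algebra.adjoin Kb S) (F := F) x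
    (fun c : SL(2, ℤ) ⧸ Γ => cosetHom Γ (PsiGen hS) c)
    (fun c => cosetHom_injective Γ (PsiGen_injective hS) c)
    (fun c => cosetHom_mdiff Γ (PsiGen_mdiff hS) c) ?_ ?_ xR rfl ?_
  · -- distinctness
    intro c c' h
    induction c using QuotientGroup.induction_on with
    | H γ =>
    induction c' using QuotientGroup.induction_on with
    | H γ' =>
    have h : cosetHom Γ (PsiGen hS) (γ : SL(2, ℤ) ⧸ Γ) =
        cosetHom Γ (PsiGen hS) (γ' : SL(2, ℤ) ⧸ Γ) := h
    rw [cosetHom_mk hΓ, cosetHom_mk hΓ] at h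
    rw [QuotientGroup.eq]
    apply hdist
    intro r z
    have h1 := congrFun (congrArg (fun θ : Algebra.adjoin Kb S →+* (ℍ → ℂ) => θ r) h) (γ' • z)
    simp only [conjHom_apply, inv_smul_smul] at h1
    rw [mul_smul]
    exact h1
  · intro k c c'
    have e : ∀ c : SL(2, ℤ) ⧸ Γ,
        cosetHom Γ (PsiGen hS) c (algebraMap Kb (Algebra.adjoin Kb S) k) = fun _ => iotaC k := by
      intro c
      funext τ
      show PsiGen hS (algebraMap Kb (Algebra.adjoin Kb S) k) ((Quotient.out c)⁻¹ • τ) = iotaC k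
      rw [PsiGen_algebraMap]
    rw [e, e]
  · intro c c'
    have e : ∀ c : SL(2, ℤ) ⧸ Γ, cosetHom Γ (PsiGen hS) c xR = jFun := by
      intro c
      funext τ
      show PsiGen hS xR ((Quotient.out c)⁻¹ • τ) = jFun τ
      rw [PsiGen_eq_jFun hS xR hxq, jFun_smul]
    rw [e, e]

end Field

end Fermat.Agent.DS.X1
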