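import Mathlib
import Fermat.Agent.DS.X1.Defs
import Fermat.Agent.DS.X1.PsiGen

/-!
# PROGRAMME III, X1-AN, leaf AN-A: the analytic realisation `Psi1` of `R1 M = ℚ[j(q^d), W_a]`

The analytic input (leaf AN-1b, `DS/Div`) is bundled in `WeberAnData M`: functions `W a : ℍ → ℂ`
realising the series `weberQ M a` (`Γ₁(M)`-invariant, meromorphic at `i∞`, `q`-expansion `weberQ M a`)
with `W a (γ • z) = W (a·γ₀₀) z` for `γ ∈ Γ₀(M)`.

* `R1 M := Algebra.adjoin ℚ (gens1 M)`, `K1 M` is its fraction field;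
* `Psi1 D : R1 M →+* (ℍ → ℂ)` injective, `Γ₁(M)`-invariant values, `q`-expansion = the series;
* `diamondR D γ : R1 M →ₐ[ℚ] R1 M` for `γ ∈ Γ₀(M)` with `Psi1 (diamondR γ r) z = Psi1 r (γ • z)`.
-/

set_option autoImplicit false

noncomputable section

namespace Fermat.Agent.DS.X1

open UpperHalfPlane ModularCurve HahnSeries CongruenceSubgroup Fermat.Agent.X0
open Fermat.Agent.S23 Fermat.Agent.S23.PrimEltQExp
open scoped MatrixGroups Manifold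

variable (M : ℕ) [NeZero M]

/-- the generators of `K1 M` -/
def gens1 : Set (LaurentSeries ℚ) := divisorExpansions M ∪ weberSet M

theorem K1_eq_adjoin : K1 M = IntermediateField.adjoin ℚ (gens1 M) := rfl

/-- the `ℚ`-algebra `ℚ[j(q^d), W_a]` -/
abbrev R1 : Subalgebra ℚ (LaurentSeries ℚ) := Algebra.adjoin ℚ (gens1 M)

theorem R1_le_K1 : R1 M ≤ (K1 M).toSubalgebra :=
  IntermediateField.algebra_adjoin_le_adjoin ℚ (gens1 M)

/-- **Analytic input (leaf AN-1b).** -/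
structure WeberAnData where
  /-- the analytic Weber function `W_a(τ) = f₀(aτ; ℤMτ+ℤ)` -/
  W : ℕ → ℍ → ℂ
  real : ∀ a : ℕ, 0 < a → a < M →
    IsRealOf (algebraMap ℚ ℂ) (Gamma1 M) (weberQ M a) (W a)
  smul : ∀ γ ∈ Gamma0 M, ∀ a b : ℕ, 0 < a → a < M → 0 < b → b < M →
    (b : ZMod M) = (a : ZMod M) * ((γ 0 0 : ℤ) : ZMod M) → ∀ z : ℍ, W a (γ • z) = W b z

variable {M}

theorem isRealOf_jqd {d : ℕ} [NeZero d] (hd : d ∣ M) :
    IsRealOf (algebraMap ℚ ℂ) (Gamma0 M) (qExpand ℚ d jq) (fun z => jAn (scaleH d z)) :=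
  ⟨isMerCusp_jAn_scale d, qexpL_jAn_scale d, fun γ hγ z => jAn_scaleH_smul hd γ hγ z⟩

theorem hasReal_gens1 (D : WeberAnData M) :
    HasReal (algebraMap ℚ ℂ) (Gamma1 M) (gens1 M) := by
  rintro s (⟨d, hne, hd, rfl⟩ | ⟨a, ha, haM, rfl⟩)
  · exact ⟨_, (isRealOf_jqd hd).mono (Gamma1_in_Gamma0 M)⟩
  · exact ⟨_, D.real a ha haM⟩

/-- **the analytic realisation of `R1 M`.** -/
def Psi1 (D : WeberAnData M) : R1 M →+* (ℍ → ℂ) := PsiGen (hasReal_gens1 D)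

theorem Psi1_injective (D : WeberAnData M) : Function.Injective (Psi1 D) :=
  PsiGen_injective _

theorem isRealOf_Psi1 (D : WeberAnData M) (r : R1 M) :
    IsRealOf (algebraMap ℚ ℂ) (Gamma1 M) (r : LaurentSeries ℚ) (Psi1 D r) :=
  isRealOf_PsiGen _ r

theorem Psi1_smul (D : WeberAnData M) (r : R1 M) (γ : SL(2, ℤ)) (hγ : γ ∈ Gamma1 M) (z : ℍ) :
    Psi1 D r (γ • z) = Psi1 D r z := PsiGen_smul _ r γ hγ z

theorem Psi1_mdiff (D : WeberAnData M) (r : R1 M) : MDiff (Psi1 D r) := PsiGen_mdiff _ r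

theorem qexpL_Psi1 (D : WeberAnData M) (r : R1 M) :
    qexpL (Psi1 D r) = coeffMap (algebraMap ℚ ℂ) (r : LaurentSeries ℚ) := qexpL_PsiGen _ r

theorem weberQ_mem_R1 {a : ℕ} (ha : 0 < a) (haM : a < M) : weberQ M a ∈ R1 M :=
  Algebra.subset_adjoin (Or.inr ⟨a, ha, haM, rfl⟩)

theorem jqd_mem_R1 {d : ℕ} [NeZero d] (hd : d ∣ M) : qExpand ℚ d jq ∈ R1 M :=
  Algebra.subset_adjoin (Or.inl ⟨d, ‹_›, hd, rfl⟩)

theorem Psi1_weberQ (D : WeberAnData M) {a : ℕ} (ha : 0 < a) (haM : a < M) :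
    Psi1 D ⟨weberQ M a, weberQ_mem_R1 ha haM⟩ = D.W a :=
  PsiGen_eq _ (D.real a ha haM)

theorem Psi1_jqd (D : WeberAnData M) {d : ℕ} [NeZero d] (hd : d ∣ M) :
    Psi1 D ⟨qExpand ℚ d jq, jqd_mem_R1 hd⟩ = fun z => jAn (scaleH d z) :=
  PsiGen_eq _ ((isRealOf_jqd hd).mono (Gamma1_in_Gamma0 M))

/-! ### the action of `Γ₀(M)` -/

/-- the upper-left entry of `γ ∈ Γ₀(M)` is a unit mod `M` -/
theorem upperLeft_mul_lowerRight {γ : SL(2, ℤ)} (hγ : γ ∈ Gamma0 M) :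
    ((γ 0 0 : ℤ) : ZMod M) * ((γ 1 1 : ℤ) : ZMod M) = 1 := by
  have hdet : (γ 0 0) * (γ 1 1) - (γ 0 1) * (γ 1 0) = 1 := by
    have := γ.det_coe
    rwa [Matrix.det_fin_two] at this
  have h10 : ((γ 1 0 : ℤ) : ZMod M) = 0 := Gamma0_mem.mp hγ
  have := congrArg (Int.cast : ℤ → ZMod M) hdet
  push_cast at this
  rw [h10, mul_zero, sub_zero] at this
  exact this

theorem exists_index {γ : SL(2, ℤ)} (hγ : γ ∈ Gamma0 M) {a : ℕ} (ha : 0 < a) (haM : a < M) :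
    ∃ b : ℕ, 0 < b ∧ b < M ∧ (b : ZMod M) = (a : ZMod M) * ((γ 0 0 : ℤ) : ZMod M) := by
  set u : ZMod M := (a : ZMod M) * ((γ 0 0 : ℤ) : ZMod M) with hu
  refine ⟨u.val, ?_, ZMod.val_lt u, ZMod.natCast_zmod_val u⟩
  rw [Nat.pos_iff_ne_zero, Ne, ZMod.val_eq_zero]
  intro h0
  have h1 : (a : ZMod M) = 0 := by
    have := congrArg (· * ((γ 1 1 : ℤ) : ZMod M)) h0
    simp only [hu, zero_mul] at this
    rwa [mul_assoc, upperLeft_mul_lowerRight hγ, mul_one] at this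
  rw [ZMod.natCast_eq_zero_iff] at h1
  exact absurd (Nat.le_of_dvd ha h1) (not_le.mpr haM)

theorem isTransOf_gens1 (D : WeberAnData M) {γ : SL(2, ℤ)} (hγ : γ ∈ Gamma0 M) :
    ∀ s ∈ gens1 M, ∃ s' ∈ R1 M, IsTransOf (algebraMap ℚ ℂ) (Gamma1 M) γ s s' := by
  rintro s (⟨d, hne, hd, rfl⟩ | ⟨a, ha, haM, rfl⟩)
  · refine ⟨_, jqd_mem_R1 hd, fun F hF => ?_⟩
    have h1 := (isRealOf_jqd (M := M) hd).mono (Gamma1_in_Gamma0 M)
    have : F = fun z => jAn (scaleH d z) := hF.unique h1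
    subst this
    have : (fun z : ℍ => jAn (scaleH d (γ • z))) = fun z => jAn (scaleH d z) :=
      funext fun z => jAn_scaleH_smul hd γ hγ z
    rw [this]
    exact h1
  · obtain ⟨b, hb, hbM, hab⟩ := exists_index hγ ha haM
    refine ⟨_, weberQ_mem_R1 hb hbM, fun F hF => ?_⟩
    have : F = D.W a := hF.unique (D.real a ha haM)
    subst this
    have : (fun z : ℍ => D.W a (γ • z)) = D.W b :=
      funext fun z => D.smul γ hγ a b ha haM hb hbM hab z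
    rw [this]
    exact D.real b hb hbM

/-- **`f ↦ f ∘ γ` on `R1 M`, `γ ∈ Γ₀(M)`.** -/
def diamondR (D : WeberAnData M) (γ : SL(2, ℤ)) (hγ : γ ∈ Gamma0 M) : R1 M →ₐ[ℚ] R1 M :=
  transGen (hasReal_gens1 D) γ (isTransOf_gens1 D hγ)

theorem Psi1_diamondR (D : WeberAnData M) (γ : SL(2, ℤ)) (hγ : γ ∈ Gamma0 M) (r : R1 M) (z : ℍ) :
    Psi1 D (diamondR D γ hγ r) z = Psi1 D r (γ • z) :=
  PsiGen_transGen _ γ _ r z

theorem diamondR_jqd (D : WeberAnData M) (γ : SL(2, ℤ)) (hγ : γ ∈ Gamma0 M) {d : ℕ} [NeZero d]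
    (hd : d ∣ M) :
    diamondR D γ hγ ⟨qExpand ℚ d jq, jqd_mem_R1 hd⟩ = ⟨qExpand ℚ d jq, jqd_mem_R1 hd⟩ := by
  apply Psi1_injective D
  funext z
  rw [Psi1_diamondR, Psi1_jqd D hd]
  exact jAn_scaleH_smul hd γ hγ z

theorem diamondR_weberQ (D : WeberAnData M) (γ : SL(2, ℤ)) (hγ : γ ∈ Gamma0 M) {a b : ℕ}
    (ha : 0 < a) (haM : a < M) (hb : 0 < b) (hbM : b < M)
    (hab : (b : ZMod M) = (a : ZMod M) * ((γ 0 0 : ℤ) : ZMod M)) :
    diamondR D γ hγ ⟨weberQ M a, weberQ_mem_R1 ha haM⟩ = ⟨weberQ M b, weberQ_mem_R1 hb hbM⟩ := by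
  apply Psi1_injective D
  funext z
  rw [Psi1_diamondR, Psi1_weberQ D ha haM, Psi1_weberQ D hb hbM]
  exact D.smul γ hγ a b ha haM hb hbM hab z

theorem diamondR_mul (D : WeberAnData M) (γ γ' : SL(2, ℤ)) (hγ : γ ∈ Gamma0 M)
    (hγ' : γ' ∈ Gamma0 M) (r : R1 M) :
    diamondR D (γ * γ') (mul_mem hγ hγ') r = diamondR D γ' hγ' (diamondR D γ hγ r) := by
  apply Psi1_injective D
  funext z
  rw [Psi1_diamondR, Psi1_diamondR, Psi1_diamondR, mul_smul]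

theorem diamondR_of_mem_Gamma1 (D : WeberAnData M) (γ : SL(2, ℤ)) (hγ : γ ∈ Gamma1 M) (r : R1 M) :
    diamondR D γ (Gamma1_in_Gamma0 M hγ) r = r := by
  apply Psi1_injective D
  funext z
  rw [Psi1_diamondR, Psi1_smul D r γ hγ]

theorem diamondR_one (D : WeberAnData M) (r : R1 M) :
    diamondR D 1 (one_mem _) r = r := diamondR_of_mem_Gamma1 D 1 (one_mem _) r

theorem diamondR_injective (D : WeberAnData M) (γ : SL(2, ℤ)) (hγ : γ ∈ Gamma0 M) :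
    Function.Injective (diamondR D γ hγ) := by
  intro r s h
  have h1 : diamondR D γ⁻¹ (inv_mem hγ) (diamondR D γ hγ r) =
      diamondR D γ⁻¹ (inv_mem hγ) (diamondR D γ hγ s) := by rw [h]
  rw [← diamondR_mul, ← diamondR_mul] at h1
  have e : ∀ t : R1 M, diamondR D (γ * γ⁻¹) (mul_mem hγ (inv_mem hγ)) t = t := by
    intro t
    apply Psi1_injective D
    funext z
    rw [Psi1_diamondR, mul_inv_cancel, one_smul]
  rwa [e, e] at h1

end Fermat.Agent.DS.X1
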