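import Mathlib
import Fermat.Agent.DS.X1.Psi1
import Fermat.Agent.DS.X1.DegGen
import Fermat.Agent.X0.CuspGrowth

/-!
# PROGRAMME III, X1-AN, leaf AN-3 (core): the degree of `K1Bar M` over `ℚ̄(j)`

`Γ` is any subgroup with `γ ∈ Γ ↔ γ ∈ Γ₁(M) ∨ -γ ∈ Γ₁(M)` (i.e. `±Γ₁(M)`).  From the analytic data
`WeberCuspData M` (leaf AN-1b: realisations of the `weberQ M a`, their transformation under `Γ₀(M)`
and their growth at all cusps), the algebraic inputs `hfrac` (leaf ALGEBRA) and the injectivity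
`hinj` of `a ↦ weberQ M a` modulo `±` (SERIES S2):

  `isSepVar_K1Bar : IsSepVar ℚ̄ (jBar1 M) [SL(2,ℤ) : Γ]`.
-/

set_option autoImplicit false

noncomputable section

namespace Fermat.Agent.DS.X1

open UpperHalfPlane ModularCurve HahnSeries CongruenceSubgroup Fermat.Agent.X0
open Fermat.Agent.S23 Fermat.Agent.S23.PrimEltQExp Filter
open scoped MatrixGroups Manifold

local notation "Δ" => ModularForm.discriminant

/-! ### generic: growth at the cusps of `PsiGen` from the generators -/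

section Generic

variable {K : Type*} [Field K] {ι : K →+* ℂ} {Γ : Subgroup SL(2, ℤ)} {S : Set (LaurentSeries K)}

theorem PsiGen_cusp_bound (hS : HasReal ι Γ S)
    (hgen : ∀ (s : LaurentSeries K) (hs : s ∈ S) (g : SL(2, ℤ)), ∃ m : ℕ,
      IsBoundedAtImInfty (fun z => Δ z ^ m * PsiGen hS ⟨s, Algebra.subset_adjoin hs⟩ (g • z)))
    (r : Algebra.adjoin K S) (g : SL(2, ℤ)) :
    ∃ m : ℕ, IsBoundedAtImInfty (fun z => Δ z ^ m * PsiGen hS r (g • z)) := by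
  obtain ⟨r, hr⟩ := r
  induction hr using Algebra.adjoin_induction with
  | mem x hx => exact hgen x hx g
  | algebraMap c =>
    refine ⟨0, ?_⟩
    have h := PsiGen_algebraMap hS c
    have e : (fun z => Δ z ^ 0 * PsiGen hS ⟨algebraMap K (LaurentSeries K) c,
        Subalgebra.algebraMap_mem _ c⟩ (g • z)) = fun _ => ι c := by
      funext z
      have : (⟨algebraMap K (LaurentSeries K) c, Subalgebra.algebraMap_mem _ c⟩ :
          Algebra.adjoin K S) = algebraMap K (Algebra.adjoin K S) c := rfl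
      rw [this, h]
      simp
    rw [e]
    exact Filter.const_boundedAtFilter _ _
  | add x y hx hy ihx ihy =>
    obtain ⟨m1, h1⟩ := ihx
    obtain ⟨m2, h2⟩ := ihy
    refine ⟨m1 + m2, ?_⟩
    have e : (fun z => Δ z ^ (m1 + m2) * PsiGen hS ⟨x + y, Subalgebra.add_mem _ hx hy⟩ (g • z)) =
        (fun z => Δ z ^ m2) * (fun z => Δ z ^ m1 * PsiGen hS ⟨x, hx⟩ (g • z)) +
        (fun z => Δ z ^ m1) * (fun z => Δ z ^ m2 * PsiGen hS ⟨y, hy⟩ (g • z)) := by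
      funext z
      have : (⟨x + y, Subalgebra.add_mem _ hx hy⟩ : Algebra.adjoin K S) = ⟨x, hx⟩ + ⟨y, hy⟩ := rfl
      rw [this, map_add]
      simp only [Pi.add_apply, Pi.mul_apply, _root_.pow_add]
      ring
    rw [e]
    exact ((cuspGrowth_isBounded_discriminant_pow m2).mul h1).add
      ((cuspGrowth_isBounded_discriminant_pow m1).mul h2)
  | mul x y hx hy ihx ihy =>
    obtain ⟨m1, h1⟩ := ihx
    obtain ⟨m2, h2⟩ := ihy
    refine ⟨m1 + m2, ?_⟩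
    have e : (fun z => Δ z ^ (m1 + m2) * PsiGen hS ⟨x * y, Subalgebra.mul_mem _ hx hy⟩ (g • z)) =
        (fun z => Δ z ^ m1 * PsiGen hS ⟨x, hx⟩ (g • z)) *
        (fun z => Δ z ^ m2 * PsiGen hS ⟨y, hy⟩ (g • z)) := by
      funext z
      have : (⟨x * y, Subalgebra.mul_mem _ hx hy⟩ : Algebra.adjoin K S) = ⟨x, hx⟩ * ⟨y, hy⟩ := rfl
      rw [this, map_mul]
      simp only [Pi.mul_apply, _root_.pow_add]
      ring
    rw [e]
    exact h1.mul h2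

/-- invariance under `-γ` is free: a realisation for `Γ` is one for `±Γ`. -/
theorem IsRealOf.of_pm {Γ' : Subgroup SL(2, ℤ)} (h : ∀ γ ∈ Γ', γ ∈ Γ ∨ -γ ∈ Γ)
    {x : LaurentSeries K} {F : ℍ → ℂ} (hF : IsRealOf ι Γ x F) : IsRealOf ι Γ' x F :=
  ⟨hF.mer, hF.qexp, fun γ hγ z => by
    rcases h γ hγ with h1 | h1
    · exact hF.inv γ h1 z
    · rw [← hF.inv (-γ) h1 z, ModularGroup.SL_neg_smul]⟩

end Generic

/-! ### the instance `K1Bar M` -/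

variable (M : ℕ) [NeZero M]

/-- **Analytic input (leaf AN-1b), with the growth at all cusps.** -/
structure WeberCuspData extends WeberAnData M where
  bound : ∀ a : ℕ, 0 < a → a < M → ∀ g : SL(2, ℤ), ∃ m : ℕ,
    IsBoundedAtImInfty (fun z => Δ z ^ m * W a (g • z))

/-- the generators of `K1Bar M` over `ℚ̄` -/
def gens1Bar : Set (LaurentSeries Kb) := ⇑(coeffEmb Kb) '' gens1 M

/-- `ℚ̄[j(q^d), W_a]` -/
abbrev R1Bar : Subalgebra Kb (LaurentSeries Kb) := Algebra.adjoin Kb (gens1Bar M)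

variable {M}

theorem isRealOf_coeffEmb {Γ : Subgroup SL(2, ℤ)} {x : LaurentSeries ℚ} {F : ℍ → ℂ}
    (h : IsRealOf (algebraMap ℚ ℂ) Γ x F) : IsRealOf iotaC Γ (coeffEmb Kb x) F :=
  ⟨h.mer, by rw [coeffMap_iotaC_coeffEmb]; exact h.qexp, h.inv⟩

variable {Γ : Subgroup SL(2, ℤ)}

theorem hasReal_gens1Bar (D : WeberAnData M) (hΓ : ∀ γ ∈ Γ, γ ∈ Gamma1 M ∨ -γ ∈ Gamma1 M) :
    HasReal iotaC Γ (gens1Bar M) := by
  rintro s ⟨x, hx, rfl⟩
  obtain ⟨F, hF⟩ := hasReal_gens1 D x hx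
  exact ⟨F, (isRealOf_coeffEmb hF).of_pm hΓ⟩

theorem R1Bar_le_K1Bar : ∀ r ∈ R1Bar M, r ∈ K1Bar M := by
  intro r hr
  have : R1Bar M ≤ (K1Bar M).toSubalgebra := by
    refine Algebra.adjoin_le ?_
    rintro s ⟨x, hx, rfl⟩
    exact coeffEmb_mem_laurentBaseChange Kb (IntermediateField.subset_adjoin ℚ _ hx)
  exact this hr

/-- `j` as an element of `K1Bar M` -/
def jBar1 (M : ℕ) [NeZero M] : K1Bar M :=
  ⟨coeffEmb Kb jq, coeffEmb_mem_laurentBaseChange Kb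
    (modularFunctionFieldFull_le_K1 M (by
      have h := jqd_mem_full M (one_dvd M)
      rwa [qExpand_one_apply] at h))⟩

theorem jq_mem_gens1 : jq ∈ gens1 M := by
  refine Or.inl ⟨1, ⟨one_ne_zero⟩, one_dvd M, ?_⟩
  rw [qExpand_one_apply]

/-- `j` as an element of `R1Bar M` -/
def jR1 (M : ℕ) [NeZero M] : R1Bar M :=
  ⟨coeffEmb Kb jq, Algebra.subset_adjoin ⟨jq, jq_mem_gens1, rfl⟩⟩

theorem PsiGen_weberBar (D : WeberAnData M) (hΓ : ∀ γ ∈ Γ, γ ∈ Gamma1 M ∨ -γ ∈ Gamma1 M)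
    {a : ℕ} (ha : 0 < a) (haM : a < M) :
    PsiGen (hasReal_gens1Bar D hΓ) ⟨coeffEmb Kb (weberQ M a),
      Algebra.subset_adjoin ⟨_, Or.inr ⟨a, ha, haM, rfl⟩, rfl⟩⟩ = D.W a :=
  PsiGen_eq _ ((isRealOf_coeffEmb (D.real a ha haM)).of_pm hΓ)

theorem PsiGen_jqdBar (D : WeberAnData M) (hΓ : ∀ γ ∈ Γ, γ ∈ Gamma1 M ∨ -γ ∈ Gamma1 M)
    {d : ℕ} [NeZero d] (hd : d ∣ M) :
    PsiGen (hasReal_gens1Bar D hΓ) ⟨coeffEmb Kb (qExpand ℚ d jq),
      Algebra.subset_adjoin ⟨_, Or.inl ⟨d, ‹_›, hd, rfl⟩, rfl⟩⟩ = fun z => jAn (scaleH d z) :=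
  PsiGen_eq _ ((isRealOf_coeffEmb ((isRealOf_jqd hd).mono (Gamma1_in_Gamma0 M))).of_pm hΓ)

/-- growth at all cusps of the realisations of `R1Bar M` -/
theorem PsiGen_R1Bar_cusp_bound (D : WeberCuspData M)
    (hΓ : ∀ γ ∈ Γ, γ ∈ Gamma1 M ∨ -γ ∈ Gamma1 M) (r : R1Bar M) (g : SL(2, ℤ)) :
    ∃ m : ℕ, IsBoundedAtImInfty
      (fun z => Δ z ^ m * PsiGen (hasReal_gens1Bar D.toWeberAnData hΓ) r (g • z)) := by
  refine PsiGen_cusp_bound _ ?_ r g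
  rintro s ⟨x, (⟨d, hne, hd, rfl⟩ | ⟨a, ha, haM, rfl⟩), rfl⟩ g
  · obtain ⟨m, hm⟩ := exists_discriminant_pow_mul_jFun_scaleH_smul_isBounded d g
    refine ⟨m, ?_⟩
    rw [PsiGen_jqdBar D.toWeberAnData hΓ hd]
    exact hm
  · obtain ⟨m, hm⟩ := D.bound a ha haM g
    refine ⟨m, ?_⟩
    rw [PsiGen_weberBar D.toWeberAnData hΓ ha haM]
    exact hm

/-- **Distinctness**: a `δ ∈ SL(2,ℤ)` fixing all realisations lies in `±Γ₁(M)`. -/
theorem mem_of_PsiGen_R1Bar_fixed (D : WeberAnData M) (hM : 2 ≤ M)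
    (hΓ : ∀ γ ∈ Γ, γ ∈ Gamma1 M ∨ -γ ∈ Gamma1 M)
    (hΓ' : ∀ γ : SL(2, ℤ), γ ∈ Gamma1 M ∨ -γ ∈ Gamma1 M → γ ∈ Γ)
    (hinj : ∀ a b : ℕ, 0 < a → a < M → 0 < b → b < M → weberQ M a = weberQ M b →
      a = b ∨ a + b = M)
    (δ : SL(2, ℤ))
    (hδ : ∀ (r : R1Bar M) (z : ℍ), PsiGen (hasReal_gens1Bar D hΓ) r (δ • z) =
      PsiGen (hasReal_gens1Bar D hΓ) r z) : δ ∈ Γ := by
  -- step 1: `δ ∈ Γ₀(M)` from `j(Mz)`
  have h0 : δ ∈ Gamma0 M := by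
    apply mem_Gamma0_of_jFun_scaleH_smul_eq M δ
    intro z
    have := hδ ⟨coeffEmb Kb (qExpand ℚ M jq),
      Algebra.subset_adjoin ⟨_, Or.inl ⟨M, ‹_›, dvd_rfl, rfl⟩, rfl⟩⟩ z
    rw [PsiGen_jqdBar D hΓ (dvd_refl M)] at this
    exact this
  -- step 2: `W_1 ∘ δ = W_b`, `b ≡ δ₀₀`
  have h1 : 0 < 1 := Nat.one_pos
  have h1M : 1 < M := hM
  obtain ⟨b, hb0, hbM, hb⟩ := exists_index h0 h1 h1M
  have hW : D.W b = D.W 1 := by
    funext z
    rw [← D.smul δ h0 1 b h1 h1M hb0 hbM hb z]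
    have := hδ ⟨coeffEmb Kb (weberQ M 1),
      Algebra.subset_adjoin ⟨_, Or.inr ⟨1, h1, h1M, rfl⟩, rfl⟩⟩ z
    rw [PsiGen_weberBar D hΓ h1 h1M] at this
    exact this
  have hq : weberQ M b = weberQ M 1 := by
    have e1 := (D.real b hb0 hbM).qexp
    have e2 := (D.real 1 h1 h1M).qexp
    rw [hW, e2] at e1
    exact (coeffMap_injective _ (algebraMap ℚ ℂ).injective e1).symm
  have hcast : ((δ 0 0 : ℤ) : ZMod M) = 1 ∨ ((δ 0 0 : ℤ) : ZMod M) = -1 := by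
    rcases hinj b 1 hb0 hbM h1 h1M hq with h | h
    · left
      rw [h] at hb
      simpa using hb.symm
    · right
      have hb' : (b : ZMod M) = -1 := by
        have : ((b + 1 : ℕ) : ZMod M) = 0 := by rw [h]; exact ZMod.natCast_self M
        push_cast at this
        exact eq_neg_of_add_eq_zero_left this
      rw [hb'] at hb
      simpa using hb.symm
  have h10 : ((δ 1 0 : ℤ) : ZMod M) = 0 := Gamma0_mem.mp h0
  have hul := upperLeft_mul_lowerRight h0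
  apply hΓ'
  rcases hcast with h | h
  · left
    rw [Gamma1_mem]
    refine ⟨h, ?_, h10⟩
    rw [h, one_mul] at hul
    exact hul
  · right
    rw [Gamma1_mem]
    have e00 : ((-δ : SL(2, ℤ)) 0 0 : ℤ) = -(δ 0 0) := by simp
    have e11 : ((-δ : SL(2, ℤ)) 1 1 : ℤ) = -(δ 1 1) := by simp
    have e10 : ((-δ : SL(2, ℤ)) 1 0 : ℤ) = -(δ 1 0) := by simp
    rw [e00, e11, e10]
    push_cast
    refine ⟨by rw [h, neg_neg], ?_, by rw [h10, neg_zero]⟩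
    rw [h] at hul
    have : ((δ 1 1 : ℤ) : ZMod M) = -1 := by
      have := congrArg Neg.neg hul
      simpa using this
    rw [this, neg_neg]

/-- **AN-3 (core): `[K1Bar M : ℚ̄(j)] = [SL(2,ℤ) : ±Γ₁(M)]`.** -/
theorem isSepVar_K1Bar (D : WeberCuspData M) (hM : 2 ≤ M) [Γ.FiniteIndex]
    (hΓ : ∀ γ : SL(2, ℤ), γ ∈ Γ ↔ γ ∈ Gamma1 M ∨ -γ ∈ Gamma1 M)
    (hfrac : ∀ f : K1Bar M, ∃ g h : R1Bar M, h ≠ 0 ∧
      (f : LaurentSeries Kb) * (h : LaurentSeries Kb) = g)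
    (hinj : ∀ a b : ℕ, 0 < a → a < M → 0 < b → b < M → weberQ M a = weberQ M b →
      a = b ∨ a + b = M) :
    IsSepVar Kb (jBar1 M) (Nat.card (SL(2, ℤ) ⧸ Γ)) := by
  have hΓ1 : ∀ γ ∈ Γ, γ ∈ Gamma1 M ∨ -γ ∈ Gamma1 M := fun γ hγ => (hΓ γ).mp hγ
  exact isSepVar_gen (hasReal_gens1Bar D.toWeberAnData hΓ1) (K1Bar M) R1Bar_le_K1Bar hfrac
    (jR1 M) rfl (PsiGen_R1Bar_cusp_bound D hΓ1)
    (mem_of_PsiGen_R1Bar_fixed D.toWeberAnData hM hΓ1 (fun γ h => (hΓ γ).mpr h) hinj)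

end Fermat.Agent.DS.X1
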