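import Mathlib
import Fermat.Agent.DS.X1.Defs
import Fermat.Agent.DS.Chart.Defs

/-!
# PROGRAMME III (S48), X1-CHART (helper27): the first two inputs of the chart layer for `K1 M`

* (I1) `fact_jq_mem_K1 : Fact (jq ∈ K1 M)`;
* (I2) `isZlField_K1 M ℓ : Chart.IsZlField (K1 M) ℓ` for EVERY prime `ℓ`: the generators `j(q^d)`
  and `weberQ M a` have INTEGRAL `q`-expansions (`weberQ_mem_range_zlIota`), in particular they
  lie in the Gauss ring `Igusa.gaussSubring ℓ` (`weberQ_mem_gaussSubring`).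

The remaining inputs of `Chart.ChartInputs (K1 M) ℓ d₁(M)` are (I3) `Chart.DegInputs (K1 M) d₁(M)`
(AN-3) and (I4) the family (X1-IG + X1-IRR).
-/

set_option autoImplicit false
set_option linter.unusedSectionVars false

noncomputable section

namespace Fermat.Agent.DS.X1.ChartK1

open ModularCurve HahnSeries IntermediateField Fermat.Agent.Igusa Fermat.Agent.DS.X1
open Fermat.Agent.DS.Chart

variable (M : ℕ) [NeZero M] (ℓ : ℕ) [Fact ℓ.Prime]

set_option quotPrecheck false in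
local notation "ℤℓ" => ↥(GaloisRep.ratLocalizedAt ℓ)

/-- (I1) `j ∈ K1 M` -/
theorem fact_jq_mem_K1 : Fact (jq ∈ K1 M) :=
  ⟨modularFunctionFieldFull_le_K1 M (modularFunctionField_le_full M (jq_mem M))⟩

/-! ### integral `q`-expansions -/

omit [Fact ℓ.Prime] in
theorem coeffMap_qExpand_gen {R S : Type*} [CommRing R] [CommRing S] (f : R →+* S) (n : ℕ)
    [NeZero n] (x : LaurentSeries R) : coeffMap f (qExpand R n x) = qExpand S n (coeffMap f x) := by
  ext k
  by_cases hk : (n : ℤ) ∣ k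
  · obtain ⟨m, rfl⟩ := hk
    rw [coeffMap_coeff, qExpand_coeff_mul, qExpand_coeff_mul, coeffMap_coeff]
  · rw [coeffMap_coeff, qExpand_coeff_of_not_dvd n _ hk, qExpand_coeff_of_not_dvd n _ hk,
      map_zero]

omit [Fact ℓ.Prime] in
theorem ofInt_mem_range_zlIota (f : PowerSeries ℤ) : ofInt f ∈ (zlIota ℓ).range := by
  refine ⟨HahnSeries.ofPowerSeries ℤ ℤℓ (f.map (Int.castRingHom ℤℓ)), ?_⟩
  rw [zlIota, coeffMap_ofPowerSeries, ofInt]
  congr 1

omit [Fact ℓ.Prime] in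
theorem single_one_mem_range_zlIota (n : ℤ) :
    (HahnSeries.single n (1 : ℚ) : LaurentSeries ℚ) ∈ (zlIota ℓ).range :=
  ⟨HahnSeries.single n 1, by rw [zlIota, coeffMap_single]; simp⟩

omit [Fact ℓ.Prime] in
theorem qExpand_mem_range_zlIota (n : ℕ) [NeZero n] {x : LaurentSeries ℚ}
    (hx : x ∈ (zlIota ℓ).range) : qExpand ℚ n x ∈ (zlIota ℓ).range := by
  obtain ⟨y, rfl⟩ := hx
  exact ⟨qExpand ℤℓ n y, coeffMap_qExpand_gen _ n y⟩

omit [Fact ℓ.Prime] in
/-- **the Weber functions have integral `q`-expansions** -/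
theorem weberQ_mem_range_zlIota (a : ℕ) : weberQ M a ∈ (zlIota ℓ).range := by
  unfold weberQ cUnit
  refine mul_mem (qExpand_mem_range_zlIota ℓ M (mul_mem (single_one_mem_range_zlIota ℓ _)
    (ofInt_mem_range_zlIota ℓ _))) (add_mem (mul_mem ?_ (ofInt_mem_range_zlIota ℓ _))
    (qExpand_mem_range_zlIota ℓ M (ofInt_mem_range_zlIota ℓ _)))
  exact ⟨12, map_ofNat (zlIota ℓ) 12⟩

omit [Fact ℓ.Prime] in
theorem weberQ_isZlFraction (a : ℕ) : IsZlFraction ℓ (weberQ M a) := by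
  obtain ⟨y, hy⟩ := weberQ_mem_range_zlIota M ℓ a
  rw [← hy]
  exact isZlFraction_zlIota ℓ y

theorem weberQ_mem_gaussSubring (a : ℕ) : weberQ M a ∈ gaussSubring ℓ := by
  obtain ⟨y, hy⟩ := weberQ_mem_range_zlIota M ℓ a
  rw [← hy]
  exact zlIota_mem_gaussSubring ℓ y

/-- (I2) every element of `K1 M` is a quotient of two series with coefficients in `ℤ_(ℓ)` -/
theorem isZlField_K1 : IsZlField (K1 M) ℓ := by
  refine isZlField_adjoin ℓ _ ?_
  rintro x (hx | ⟨a, -, -, rfl⟩)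
  · exact isZlFraction_of_mem_full ℓ M (IntermediateField.subset_adjoin ℚ _ hx)
  · exact weberQ_isZlFraction M ℓ a

end Fermat.Agent.DS.X1.ChartK1
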