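import Mathlib
import Fermat.Prelude.Def_ModularCurve_LaurentCoeff

/-!
# PROGRAMME III, X1-AN, leaf ALGEBRA (iv): descent of linear dependence `L → ℚ`

`F ⊆ ℚ((q))` a subfield, `L ⊇ ℚ` a field, `F̄ = laurentBaseChange L F ⊆ L((q))`.  If
`y₁, …, y_n ∈ ℚ((q))` are linearly independent over `F`, then `coeffEmb L y₁, …, coeffEmb L y_n` are
linearly independent over `F̄` (elementary `Σ`-form).

Proof: clear denominators (`F̄` is the fraction field of the `L`-span `R` of `coeffEmb L '' F`), then
apply `ℚ`-linear functionals `φ : L → ℚ` coefficientwise: `Φ_φ : L((q)) → ℚ((q))` is additive, maps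
`R` into `F`, and satisfies `Φ_φ (a * coeffEmb L y) = Φ_φ a * y`.
-/

set_option autoImplicit false

noncomputable section

namespace Fermat.Agent.DS.X1

open ModularCurve HahnSeries IntermediateField

variable {L : Type*} [Field L] [Algebra ℚ L]

/-- apply a `ℚ`-linear functional coefficientwise. -/
def coeffFunctional (φ : L →ₗ[ℚ] ℚ) (x : LaurentSeries L) : LaurentSeries ℚ := x.map φ

@[simp]
theorem coeffFunctional_coeff (φ : L →ₗ[ℚ] ℚ) (x : LaurentSeries L) (k : ℤ) :
    (coeffFunctional φ x).coeff k = φ (x.coeff k) := rfl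

theorem coeffFunctional_zero (φ : L →ₗ[ℚ] ℚ) : coeffFunctional φ 0 = 0 := by
  ext k; simp

theorem coeffFunctional_add (φ : L →ₗ[ℚ] ℚ) (x y : LaurentSeries L) :
    coeffFunctional φ (x + y) = coeffFunctional φ x + coeffFunctional φ y := by
  ext k; simp

theorem coeffFunctional_sum (φ : L →ₗ[ℚ] ℚ) {ι : Type*} (s : Finset ι)
    (x : ι → LaurentSeries L) :
    coeffFunctional φ (∑ i ∈ s, x i) = ∑ i ∈ s, coeffFunctional φ (x i) := by
  classical
  induction s using Finset.induction_on with
  | empty => simp [coeffFunctional_zero]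
  | insert a s ha ih => rw [Finset.sum_insert ha, Finset.sum_insert ha, coeffFunctional_add, ih]

theorem support_coeffFunctional_subset (φ : L →ₗ[ℚ] ℚ) (x : LaurentSeries L) :
    (coeffFunctional φ x).support ⊆ x.support := by
  intro k hk
  rw [HahnSeries.mem_support] at hk ⊢
  intro h0
  apply hk
  rw [coeffFunctional_coeff, h0, map_zero]

theorem support_coeffEmb_subset (y : LaurentSeries ℚ) : (coeffEmb L y).support ⊆ y.support := by
  intro k hk
  rw [HahnSeries.mem_support] at hk ⊢
  intro h0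
  apply hk
  rw [coeffEmb_coeff, h0, map_zero]

/-- `Φ_φ` is `ℚ((q))`-linear. -/
theorem coeffFunctional_mul_coeffEmb (φ : L →ₗ[ℚ] ℚ) (a : LaurentSeries L)
    (y : LaurentSeries ℚ) :
    coeffFunctional φ (a * coeffEmb L y) = coeffFunctional φ a * y := by
  ext m
  rw [coeffFunctional_coeff,
    HahnSeries.coeff_mul_right' y.isPWO_support (support_coeffEmb_subset y),
    HahnSeries.coeff_mul_left' a.isPWO_support (support_coeffFunctional_subset φ a), map_sum]
  refine Finset.sum_congr rfl fun ij _ => ?_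
  rw [coeffFunctional_coeff, coeffEmb_coeff]
  have : a.coeff ij.1 * algebraMap ℚ L (y.coeff ij.2) = y.coeff ij.2 • a.coeff ij.1 := by
    rw [Algebra.smul_def, mul_comm]
  rw [this, map_smul, smul_eq_mul, mul_comm]

/-- `Φ_φ (λ a) = Φ_{φ ∘ (λ ·)} a`. -/
theorem coeffFunctional_algebraMap_mul (φ : L →ₗ[ℚ] ℚ) (c : L) (a : LaurentSeries L) :
    coeffFunctional φ (algebraMap L (LaurentSeries L) c * a) =
      coeffFunctional (φ.comp (LinearMap.mulLeft ℚ c)) a := by
  ext k
  rw [coeffFunctional_coeff, coeffFunctional_coeff, algebraMap_laurentSeries_eq_single,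
    ← HahnSeries.C_apply, HahnSeries.C_mul_eq_smul, HahnSeries.coeff_smul, smul_eq_mul]
  rfl

theorem coeffFunctional_coeffEmb (φ : L →ₗ[ℚ] ℚ) (f : LaurentSeries ℚ) :
    coeffFunctional φ (coeffEmb L f) = algebraMap ℚ (LaurentSeries ℚ) (φ 1) * f := by
  ext k
  rw [coeffFunctional_coeff, coeffEmb_coeff, algebraMap_laurentSeries_eq_single,
    ← HahnSeries.C_apply, HahnSeries.C_mul_eq_smul, HahnSeries.coeff_smul,
    Algebra.algebraMap_eq_smul_one, map_smul, smul_eq_mul, smul_eq_mul, mul_comm]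

/-- an element of `L((q))` all of whose coefficientwise functionals vanish is zero. -/
theorem eq_zero_of_coeffFunctional_eq_zero (a : LaurentSeries L)
    (h : ∀ φ : L →ₗ[ℚ] ℚ, coeffFunctional φ a = 0) : a = 0 := by
  ext k
  rw [HahnSeries.coeff_zero, ← Module.forall_dual_apply_eq_zero_iff ℚ]
  intro φ
  have := congrArg (fun x : LaurentSeries ℚ => x.coeff k) (h φ)
  simpa using this

/-- `Φ_φ` maps the `L`-algebra generated by `coeffEmb L '' F` into `F`. -/
theorem coeffFunctional_mem_of_mem_adjoin (F : IntermediateField ℚ (LaurentSeries ℚ))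
    {a : LaurentSeries L}
    (ha : a ∈ Algebra.adjoin L (⇑(coeffEmb L) '' (F : Set (LaurentSeries ℚ))))
    (φ : L →ₗ[ℚ] ℚ) : coeffFunctional φ a ∈ F := by
  have himg : (⇑(coeffEmb L) '' (F : Set (LaurentSeries ℚ))) =
      ((F.toSubfield.toSubring.toSubmonoid.map (coeffEmb L : LaurentSeries ℚ →* LaurentSeries L) :
        Submonoid (LaurentSeries L)) : Set (LaurentSeries L)) := by
    ext z; simp
  have ha' : a ∈ Subalgebra.toSubmodule
      (Algebra.adjoin L (⇑(coeffEmb L) '' (F : Set (LaurentSeries ℚ)))) := ha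
  rw [Algebra.adjoin_eq_span, himg, Submonoid.closure_eq, ← himg] at ha'
  clear ha
  induction ha' using Submodule.span_induction generalizing φ with
  | mem x hx =>
    obtain ⟨f, hf, rfl⟩ := hx
    rw [coeffFunctional_coeffEmb]
    exact F.mul_mem (F.algebraMap_mem _) hf
  | zero => rw [coeffFunctional_zero]; exact F.zero_mem
  | add x y _ _ hx hy => rw [coeffFunctional_add]; exact F.add_mem (hx φ) (hy φ)
  | smul c x _ hx => rw [Algebra.smul_def, coeffFunctional_algebraMap_mul]; exact hx _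

/-- **ALGEBRA (iv), polynomial form**: coefficients in the `L`-algebra generated by
`coeffEmb L '' F`. -/
theorem eq_zero_of_sum_mul_coeffEmb_adjoin (F : IntermediateField ℚ (LaurentSeries ℚ)) {n : ℕ}
    (y : Fin n → LaurentSeries ℚ)
    (hind : ∀ c : Fin n → LaurentSeries ℚ, (∀ i, c i ∈ F) → ∑ i, c i * y i = 0 → ∀ i, c i = 0)
    (a : Fin n → LaurentSeries L)
    (ha : ∀ i, a i ∈ Algebra.adjoin L (⇑(coeffEmb L) '' (F : Set (LaurentSeries ℚ))))
    (hsum : ∑ i, a i * coeffEmb L (y i) = 0) : ∀ i, a i = 0 := by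
  intro i
  apply eq_zero_of_coeffFunctional_eq_zero
  intro φ
  refine hind (fun i => coeffFunctional φ (a i))
    (fun i => coeffFunctional_mem_of_mem_adjoin F (ha i) φ) ?_ i
  have := congrArg (coeffFunctional φ) hsum
  rw [coeffFunctional_sum, coeffFunctional_zero] at this
  rw [← this]
  exact Finset.sum_congr rfl fun j _ => (coeffFunctional_mul_coeffEmb φ (a j) (y j)).symm

/-- **ALGEBRA (iv)**: descent of linear dependence, elementary `Σ`-form: if the `y i` are linearly
independent over `F ⊆ ℚ((q))`, the `coeffEmb L (y i)` are linearly independent over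
`laurentBaseChange L F`. -/
theorem eq_zero_of_sum_mul_coeffEmb (F : IntermediateField ℚ (LaurentSeries ℚ)) {n : ℕ}
    (y : Fin n → LaurentSeries ℚ)
    (hind : ∀ c : Fin n → LaurentSeries ℚ, (∀ i, c i ∈ F) → ∑ i, c i * y i = 0 → ∀ i, c i = 0)
    (c : Fin n → LaurentSeries L) (hc : ∀ i, c i ∈ laurentBaseChange L F)
    (hsum : ∑ i, c i * coeffEmb L (y i) = 0) : ∀ i, c i = 0 := by
  classical
  -- denominators
  have hfrac : ∀ i, ∃ g h : LaurentSeries L,
      g ∈ Algebra.adjoin L (⇑(coeffEmb L) '' (F : Set (LaurentSeries ℚ))) ∧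
      h ∈ Algebra.adjoin L (⇑(coeffEmb L) '' (F : Set (LaurentSeries ℚ))) ∧ h ≠ 0 ∧
      c i * h = g := by
    intro i
    have hci := hc i
    rw [laurentBaseChange, IntermediateField.mem_adjoin_iff_div] at hci
    obtain ⟨r, hr, s, hs, hrs⟩ := hci
    by_cases hs0 : s = 0
    · refine ⟨0, 1, Subalgebra.zero_mem _, Subalgebra.one_mem _, one_ne_zero, ?_⟩
      rw [hrs, hs0, div_zero, zero_mul]
    · exact ⟨r, s, hr, hs, hs0, by rw [hrs, div_mul_cancel₀ _ hs0]⟩
  choose g h hg hh hh0 hgh using hfrac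
  set H : LaurentSeries L := ∏ i, h i with hH
  have hH0 : H ≠ 0 := Finset.prod_ne_zero_iff.mpr fun i _ => hh0 i
  have hmem : ∀ i, c i * H ∈ Algebra.adjoin L (⇑(coeffEmb L) '' (F : Set (LaurentSeries ℚ))) := by
    intro i
    have : c i * H = g i * ∏ j ∈ Finset.univ.erase i, h j := by
      rw [hH, ← Finset.mul_prod_erase Finset.univ h (Finset.mem_univ i), ← mul_assoc, hgh]
    rw [this]
    exact Subalgebra.mul_mem _ (hg i) (Subalgebra.prod_mem _ fun j _ => hh j)
  have hsum' : ∑ i, (c i * H) * coeffEmb L (y i) = 0 := by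
    have : ∑ i, (c i * H) * coeffEmb L (y i) = H * ∑ i, c i * coeffEmb L (y i) := by
      rw [Finset.mul_sum]
      exact Finset.sum_congr rfl fun i _ => by ring
    rw [this, hsum, mul_zero]
  intro i
  have := eq_zero_of_sum_mul_coeffEmb_adjoin F y hind (fun i => c i * H) hmem hsum' i
  exact (mul_eq_zero.mp this).resolve_right hH0

end Fermat.Agent.DS.X1
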