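import Mathlib
import Fermat.Agent.DS.X1.K1Deg
import Fermat.Agent.FF.RiemannPkg

/-!
# PROGRAMME III, X1-AN: consequences of AN-3 for `K1Bar M`, and the adapter for the analytic input

* `WeberAnData.ofZMod`, `WeberCuspData.ofZMod`: the analytic input in the `ZMod M`-indexed shape
  (`W : ZMod M → ℍ → ℂ`, `X0.IsQExp`, `W x (γ τ) = W (x·γ₀₀) τ`) gives `WeberAnData M`;
* `isSepVarS_K1Bar` (`FF.IsSepVarS`), `riemannPkg_K1Bar`.
-/

set_option autoImplicit false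

noncomputable section

namespace Fermat.Agent.DS.X1

open UpperHalfPlane ModularCurve HahnSeries CongruenceSubgroup Fermat.Agent.X0
open Fermat.Agent.S23 Fermat.Agent.S23.PrimEltQExp Filter
open scoped MatrixGroups Manifold

local notation "Δ" => ModularForm.discriminant

variable {M : ℕ} [NeZero M]

/-- the analytic input in the `ZMod M`-indexed shape -/
def WeberAnData.ofZMod (W : ZMod M → ℍ → ℂ)
    (hq : ∀ a : ℕ, 0 < a → a < M →
      IsQExp (coeffMap (algebraMap ℚ ℂ) (weberQ M a)) (W (a : ZMod M)))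
    (hs : ∀ γ : SL(2, ℤ), γ ∈ Gamma0 M → ∀ (x : ZMod M) (τ : ℍ),
      W x (γ • τ) = W (x * ((γ 0 0 : ℤ) : ZMod M)) τ) : WeberAnData M where
  W a := W (a : ZMod M)
  real a ha haM := ⟨(hq a ha haM).isMerCusp, (hq a ha haM).qexpL_eq, fun γ hγ z => by
    rw [hs γ (Gamma1_in_Gamma0 M hγ)]
    have h00 : ((γ 0 0 : ℤ) : ZMod M) = 1 := (Gamma1_mem M γ).mp hγ |>.1
    rw [h00, mul_one]⟩
  smul γ hγ a b _ _ _ _ hb z := by rw [hs γ hγ, hb]

@[simp] theorem WeberAnData.ofZMod_W (W : ZMod M → ℍ → ℂ) (hq) (hs) (a : ℕ) :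
    (WeberAnData.ofZMod W hq hs).W a = W (a : ZMod M) := rfl

/-- the analytic input with the growth at the cusps, `ZMod M`-indexed shape -/
def WeberCuspData.ofZMod (W : ZMod M → ℍ → ℂ)
    (hq : ∀ a : ℕ, 0 < a → a < M →
      IsQExp (coeffMap (algebraMap ℚ ℂ) (weberQ M a)) (W (a : ZMod M)))
    (hs : ∀ γ : SL(2, ℤ), γ ∈ Gamma0 M → ∀ (x : ZMod M) (τ : ℍ),
      W x (γ • τ) = W (x * ((γ 0 0 : ℤ) : ZMod M)) τ)
    (hb : ∀ a : ℕ, 0 < a → a < M → ∀ g : SL(2, ℤ), ∃ m : ℕ,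
      IsBoundedAtImInfty (fun z => Δ z ^ m * W (a : ZMod M) (g • z))) : WeberCuspData M where
  toWeberAnData := WeberAnData.ofZMod W hq hs
  bound a ha haM g := hb a ha haM g

variable {Γ : Subgroup SL(2, ℤ)}

/-- the characteristic-free form (`FF.IsSepVarS`: separating variable + separability) -/
theorem isSepVarS_K1Bar (D : WeberCuspData M) (hM : 2 ≤ M) [Γ.FiniteIndex]
    (hΓ : ∀ γ : SL(2, ℤ), γ ∈ Γ ↔ γ ∈ Gamma1 M ∨ -γ ∈ Gamma1 M)
    (hfrac : ∀ f : K1Bar M, ∃ g h : R1Bar M, h ≠ 0 ∧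
      (f : LaurentSeries Kb) * (h : LaurentSeries Kb) = g)
    (hinj : ∀ a b : ℕ, 0 < a → a < M → 0 < b → b < M → weberQ M a = weberQ M b →
      a = b ∨ a + b = M) :
    Fermat.Agent.FF.IsSepVarS Kb (jBar1 M) (Nat.card (SL(2, ℤ) ⧸ Γ)) := by
  have h := isSepVar_K1Bar D hM hΓ hfrac hinj
  haveI := h.finite
  exact ⟨h, inferInstance⟩

/-- **the Riemann package of `K1Bar M / ℚ̄`** (divisors, degree, Riemann–Roch). -/
theorem riemannPkg_K1Bar (D : WeberCuspData M) (hM : 2 ≤ M) [Γ.FiniteIndex]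
    (hΓ : ∀ γ : SL(2, ℤ), γ ∈ Γ ↔ γ ∈ Gamma1 M ∨ -γ ∈ Gamma1 M)
    (hfrac : ∀ f : K1Bar M, ∃ g h : R1Bar M, h ≠ 0 ∧
      (f : LaurentSeries Kb) * (h : LaurentSeries Kb) = g)
    (hinj : ∀ a b : ℕ, 0 < a → a < M → 0 < b → b < M → weberQ M a = weberQ M b →
      a = b ∨ a + b = M) :
    Fermat.Agent.Red.RiemannPkg (AlgebraicClosure ℚ) (K1Bar M) :=
  Fermat.Agent.FF.riemannPkg (isSepVarS_K1Bar D hM hΓ hfrac hinj)

end Fermat.Agent.DS.X1
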