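import Mathlib
import Fermat.Agent.DS.X1.K1Pkg
import Fermat.Agent.DS.X1.Series

/-!
# PROGRAMME III, X1-AN: discharging the inputs of AN-3 (`isSepVar_K1Bar`)

* `weberQ_inj` (from helper10's SERIES S2): `weberQ M a = weberQ M b → a = b ∨ a + b = M`.
-/

set_option autoImplicit false

noncomputable section

namespace Fermat.Agent.DS.X1

variable {M : ℕ} [NeZero M]

/-- **S2**: the Weber series `weberQ M a`, `0 < a < M`, are distinct modulo `a ↦ M - a`. -/
theorem weberQ_inj (a b : ℕ) (ha : 0 < a) (haM : a < M) (hb : 0 < b) (hbM : b < M)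
    (h : weberQ M a = weberQ M b) : a = b ∨ a + b = M := by
  by_contra hne
  push_neg at hne
  exact weberQ_sub_ne_zero ⟨ha, haM, hb, hbM, hne.1, hne.2⟩ (sub_eq_zero.mpr h)

/-! ### `hfrac`: `laurentBaseChange` of an `adjoin` is the fraction field of the `Algebra.adjoin` -/

open ModularCurve IntermediateField Fermat.Agent.X0 in
/-- the base change of `ℚ(S)` is contained in `L(coeffEmb S)` -/
theorem laurentBaseChange_adjoin_le (L : Type*) [Field L] [Algebra ℚ L]
    (S : Set (LaurentSeries ℚ)) :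
    laurentBaseChange L (IntermediateField.adjoin ℚ S) ≤
      IntermediateField.adjoin L (⇑(coeffEmb L) '' S) := by
  refine IntermediateField.adjoin_le_iff.mpr ?_
  rintro _ ⟨x, hx, rfl⟩
  induction hx using IntermediateField.adjoin_induction with
  | mem x hx => exact IntermediateField.subset_adjoin L _ ⟨x, hx, rfl⟩
  | algebraMap c =>
    have : coeffEmb L (algebraMap ℚ (LaurentSeries ℚ) c) =
        algebraMap L (LaurentSeries L) (algebraMap ℚ L c) := by
      rw [algebraMap_laurentSeries_eq_single, algebraMap_laurentSeries_eq_single, coeffEmb,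
        coeffMap_single]
    rw [this]
    exact IntermediateField.algebraMap_mem _ _
  | add x y _ _ hx hy => rw [map_add]; exact add_mem hx hy
  | inv x _ hx => rw [map_inv₀]; exact inv_mem hx
  | mul x y _ _ hx hy => rw [map_mul]; exact mul_mem hx hy

open ModularCurve IntermediateField Fermat.Agent.X0 in
/-- **`hfrac`, generic**: every element of `laurentBaseChange L ℚ(S)` is a quotient of elements of
`L[coeffEmb S]`. -/
theorem exists_div_of_mem_laurentBaseChange_adjoin (L : Type*) [Field L] [Algebra ℚ L]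
    (S : Set (LaurentSeries ℚ))
    (f : laurentBaseChange L (IntermediateField.adjoin ℚ S)) :
    ∃ g h : Algebra.adjoin L (⇑(coeffEmb L) '' S), h ≠ 0 ∧
      (f : LaurentSeries L) * (h : LaurentSeries L) = g := by
  obtain ⟨r, hr, s, hs, hfs⟩ :=
    IntermediateField.mem_adjoin_iff_div.mp (laurentBaseChange_adjoin_le L S f.2)
  by_cases hs0 : s = 0
  · refine ⟨0, 1, one_ne_zero, ?_⟩
    rw [hfs, hs0, div_zero]
    simp
  · refine ⟨⟨r, hr⟩, ⟨s, hs⟩, fun h => hs0 (congrArg Subtype.val h), ?_⟩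
    rw [hfs]
    exact div_mul_cancel₀ r hs0

/-- **`hfrac` for `K1Bar M`.** -/
theorem hfrac_K1Bar (f : K1Bar M) : ∃ g h : R1Bar M, h ≠ 0 ∧
    (f : LaurentSeries Fermat.Agent.X0.Kb) * (h : LaurentSeries Fermat.Agent.X0.Kb) = g :=
  exists_div_of_mem_laurentBaseChange_adjoin Fermat.Agent.X0.Kb (gens1 M) f

open scoped MatrixGroups in
/-- **AN-3 with `hfrac`, `hinj` discharged**: the only remaining inputs are the analytic data and
the identification of `Γ` with `±Γ₁(M)`. -/
theorem isSepVar_K1Bar_of (D : WeberCuspData M) (hM : 2 ≤ M) {Γ : Subgroup SL(2, ℤ)}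
    [Γ.FiniteIndex]
    (hΓ : ∀ γ : SL(2, ℤ), γ ∈ Γ ↔
      γ ∈ CongruenceSubgroup.Gamma1 M ∨ -γ ∈ CongruenceSubgroup.Gamma1 M) :
    Fermat.Agent.X0.IsSepVar Fermat.Agent.X0.Kb (jBar1 M) (Nat.card (SL(2, ℤ) ⧸ Γ)) :=
  isSepVar_K1Bar D hM hΓ hfrac_K1Bar weberQ_inj

open scoped MatrixGroups in
theorem isSepVarS_K1Bar_of (D : WeberCuspData M) (hM : 2 ≤ M) {Γ : Subgroup SL(2, ℤ)}
    [Γ.FiniteIndex]
    (hΓ : ∀ γ : SL(2, ℤ), γ ∈ Γ ↔
      γ ∈ CongruenceSubgroup.Gamma1 M ∨ -γ ∈ CongruenceSubgroup.Gamma1 M) :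
    Fermat.Agent.FF.IsSepVarS Fermat.Agent.X0.Kb (jBar1 M) (Nat.card (SL(2, ℤ) ⧸ Γ)) :=
  isSepVarS_K1Bar D hM hΓ hfrac_K1Bar weberQ_inj

end Fermat.Agent.DS.X1
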