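/-
PROGRAMME III (S48, Deligne–Serre), X1-PORT, leaf AN-5 ASSEMBLY (helper15; board #2029):
the degree of the level `(M; p)` field over `K1 M` is at most `p + 1`.

`finrank_K1Lev_le` : from the named inputs `LevDegreeInputs M p d`
  (a) [helper22 AN-5c + helper26 AN-5b + helper11 INDEX] a realisation `HasReal iotaC Γ' S'` of a set
      `S'` of generators of `K1LevBar M p` with cusp bounds, `Γ'` of index `≤ (p+1) d`,
  (b) [helper23 AN-3] `coeffEmb jq` is a separating variable of degree `d` of `K1Bar M`,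
  (c) [helper26 AN-5b (iv)] descent of linear dependence from `ℚ̄((q))` to `ℚ((q))`,
the tower law gives `[K1LevBar : K1Bar] ≤ p + 1`, hence `[K1Lev M p : K1 M] ≤ p + 1`.
Deliverables: the elementary `Σ`-form (`card_le_of_indep`), the `relrank`/`relfinrank` form, the
`Module.finrank` form for the algebra structure `alphaOne`, and the spanning form (`exists_spanning`).
-/
import Fermat.Agent.DS.X1.DegGen
import Fermat.Agent.DS.X1.Defs

set_option autoImplicit false
set_option linter.style.haveILetI false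
set_option linter.unusedSectionVars false

noncomputable section

namespace Fermat.Agent.DS.X1

open UpperHalfPlane ModularCurve Polynomial IntermediateField Fermat.Agent.X0 Cardinal
open scoped MatrixGroups

local notation "Δ" => ModularForm.discriminant

/-! ### generic field theory: degrees inside a big field -/

section Generic

variable {K Ω : Type*} [Field K] [Field Ω] [Algebra K Ω]

/-- `[F : K(x)]` computed inside `F` is the relative rank of `K(x) ⊆ F` inside `Ω`. -/
theorem rank_adjoin_simple_eq_relrank (F : IntermediateField K Ω) (x : F) :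
    Module.rank K⟮x⟯ F = relrank K⟮(x : Ω)⟯ F := by
  have h1 : relrank ((K⟮x⟯ : IntermediateField K F).map F.val)
      ((⊤ : IntermediateField K F).map F.val) = relrank (K⟮x⟯ : IntermediateField K F) ⊤ :=
    relrank_map_map _ _ F.val
  rw [relrank_top_right] at h1
  rw [← h1]
  congr 1
  · rw [IntermediateField.adjoin_map, Set.image_singleton]
    rfl
  · rw [← AlgHom.fieldRange_eq_map, IntermediateField.fieldRange_val]

/-- A family of elements of `C`, linearly independent (elementary form) over `B ≤ C`, has at most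
`relrank B C` members. -/
theorem natCast_le_relrank_of_indep {B C : IntermediateField K Ω} (hBC : B ≤ C) {n : ℕ}
    (y : Fin n → Ω) (hy : ∀ i, y i ∈ C)
    (hind : ∀ c : Fin n → Ω, (∀ i, c i ∈ B) → ∑ i, c i * y i = 0 → ∀ i, c i = 0) :
    (n : Cardinal) ≤ relrank B C := by
  rw [relrank_eq_rank_of_le hBC]
  set v : Fin n → extendScalars hBC := fun i => ⟨y i, hy i⟩ with hv
  have hli : LinearIndependent B v := by
    rw [Fintype.linearIndependent_iff]
    intro g hg i
    have h1 := congrArg (fun z : extendScalars hBC => (z : Ω)) hg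
    have h2 : ∑ j, (g j : Ω) * y j = 0 := by
      simpa [hv, Algebra.smul_def] using h1
    exact Subtype.ext (hind (fun j => (g j : Ω)) (fun j => (g j).2) h2 i)
  have h3 := hli.cardinal_lift_le_rank
  simpa using h3

/-- If every family of vectors of `V` whose images in `Ω` are linearly independent (elementary form)
over `B` has at most `N` members, then `rank_B V ≤ N`, for any `B`-module `V` with an additive
injection into `Ω` turning the scalar action into multiplication. -/
theorem rank_le_of_sigma_indep (B : IntermediateField K Ω) {V : Type*} [AddCommGroup V]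
    [Module B V] (f : V →+ Ω) (hf : Function.Injective f)
    (hsmul : ∀ (b : B) (v : V), f (b • v) = (b : Ω) * f v) (N : ℕ)
    (H : ∀ (n : ℕ) (y : Fin n → V),
      (∀ c : Fin n → Ω, (∀ i, c i ∈ B) → ∑ i, c i * f (y i) = 0 → ∀ i, c i = 0) → n ≤ N) :
    Module.rank B V ≤ (N : Cardinal) := by
  classical
  refine rank_le fun s hs => ?_
  set e : Fin s.card ≃ s := s.equivFin.symm with he
  have hli : LinearIndependent B (fun i : Fin s.card => ((e i : s) : V)) :=
    hs.comp e e.injective
  refine H s.card (fun i => ((e i : s) : V)) ?_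
  intro c hc hsum i
  rw [Fintype.linearIndependent_iff] at hli
  have h1 : ∑ j, (⟨c j, hc j⟩ : B) • ((e j : s) : V) = 0 := by
    apply hf
    rw [map_sum, map_zero]
    simp only [hsmul]
    exact hsum
  exact congrArg Subtype.val (hli (fun j => ⟨c j, hc j⟩) h1 i)

end Generic

/-! ### the inputs -/

variable (M p : ℕ) [NeZero M] [NeZero p]

/-- the function field of `X(Γ₁(M) ∩ Γ₀(p))` over `ℚ̄` -/
abbrev K1LevBar : IntermediateField Kb (LaurentSeries Kb) := laurentBaseChange Kb (K1Lev M p)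

/-- **The named inputs of AN-5 over `ℚ̄`** (`d` = the degree `d₁(M)` of `K1Bar M` over `ℚ̄(j)`). -/
structure LevDegreeBarInputs (d : ℕ) where
  /-- the group of level `(M; p)` (e.g. `pmGamma1 M ⊓ Gamma0 p`) -/
  Γ' : Subgroup SL(2, ℤ)
  fin : Γ'.FiniteIndex
  /-- generators of the level `(M; p)` field over `ℚ̄` -/
  S' : Set (LaurentSeries Kb)
  /-- [helper22, AN-5c] the generators are realised by `Γ'`-invariant functions -/
  hS : HasReal iotaC Γ' S'
  /-- [helper26, AN-5b (ii)] -/
  hRF : ∀ r ∈ Algebra.adjoin Kb S', r ∈ K1LevBar M p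
  /-- [helper26, AN-5b (ii)] -/
  hfrac : ∀ f : K1LevBar M p, ∃ g h : Algebra.adjoin Kb S', h ≠ 0 ∧
    (f : LaurentSeries Kb) * (h : LaurentSeries Kb) = g
  /-- the base variable `j(q)` -/
  xR : Algebra.adjoin Kb S'
  hxq : (xR : LaurentSeries Kb) = coeffEmb Kb jq
  /-- [helper22, AN-5c (iii)] meromorphy at all cusps -/
  hb : ∀ (r : Algebra.adjoin Kb S') (γ : SL(2, ℤ)), ∃ m : ℕ,
    IsBoundedAtImInfty (fun z => Δ z ^ m * PsiGen hS r (γ • z))
  /-- [helper11, INDEX] -/
  hidx : Nat.card (SL(2, ℤ) ⧸ Γ') ≤ (p + 1) * d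
  /-- [helper23, AN-3] `j(q)` is a separating variable of degree `d` of `K1Bar M` -/
  xM : K1Bar M
  hxM : (xM : LaurentSeries Kb) = coeffEmb Kb jq
  hsepM : IsSepVar Kb xM d

/-- **The named inputs of AN-5**: those over `ℚ̄` and the descent to `ℚ`. -/
structure LevDegreeInputs (d : ℕ) extends LevDegreeBarInputs M p d where
  /-- [helper26, AN-5b (iv)] descent of linear dependence -/
  hdesc : ∀ (n : ℕ) (y : Fin n → LaurentSeries ℚ), (∀ i, y i ∈ K1Lev M p) →
    (∀ c : Fin n → LaurentSeries ℚ, (∀ i, c i ∈ K1 M) → ∑ i, c i * y i = 0 → ∀ i, c i = 0) →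
    ∀ c : Fin n → LaurentSeries Kb, (∀ i, c i ∈ K1Bar M) →
      ∑ i, c i * coeffEmb Kb (y i) = 0 → ∀ i, c i = 0

variable {M p} {d : ℕ}

theorem K1Bar_le_K1LevBar : K1Bar M ≤ K1LevBar M p := by
  refine IntermediateField.adjoin.mono Kb _ _ ?_
  rintro _ ⟨x, hx, rfl⟩
  exact ⟨x, K1_le_K1Lev M p hx, rfl⟩

/-- the degree over `ℚ̄`: `[K1LevBar M p : K1Bar M] ≤ p + 1` (no descent needed) -/
theorem LevDegreeBarInputs.relrank_bar_le (D : LevDegreeBarInputs M p d) :
    relrank (K1Bar M) (K1LevBar M p) ≤ ((p + 1 : ℕ) : Cardinal) := by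
  haveI := D.fin
  set jΩ : LaurentSeries Kb := coeffEmb Kb jq with hjΩ
  set AΩ : IntermediateField Kb (LaurentSeries Kb) := Kb⟮jΩ⟯ with hAΩ
  -- level `M`
  haveI := D.hsepM.finite
  have hd : relrank AΩ (K1Bar M) = (d : Cardinal) := by
    rw [hAΩ, hjΩ, ← D.hxM, ← rank_adjoin_simple_eq_relrank, ← Module.finrank_eq_rank,
      D.hsepM.finrank_eq]
  have hd0 : 0 < d := by
    rw [← D.hsepM.finrank_eq]
    exact Module.finrank_pos
  -- level `(M; p)`
  set xL : K1LevBar M p := inclRF (K1LevBar M p) D.hRF D.xR with hxL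
  have hxLc : (xL : LaurentSeries Kb) = jΩ := D.hxq
  obtain ⟨hfinL, hleL⟩ := finiteDimensional_adjoin_simple_and_finrank_le_of_bounded (K := Kb)
    xL (Nat.card (SL(2, ℤ) ⧸ D.Γ'))
    (exists_bounded_relation_gen D.hS (K1LevBar M p) D.hRF D.hfrac D.xR D.hxq D.hb)
  haveI := hfinL
  have hL : relrank AΩ (K1LevBar M p) ≤ (((p + 1) * d : ℕ) : Cardinal) := by
    rw [hAΩ, ← hxLc, ← rank_adjoin_simple_eq_relrank, ← Module.finrank_eq_rank]
    exact_mod_cast hleL.trans D.hidx
  -- the tower
  have h1 : AΩ ≤ K1Bar M := by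
    rw [hAΩ, IntermediateField.adjoin_simple_le_iff, hjΩ, ← D.hxM]
    exact D.xM.2
  have h2 : K1Bar M ≤ K1LevBar M p := K1Bar_le_K1LevBar
  have hmul := relrank_mul_relrank h1 h2
  rw [hd] at hmul
  set r := relrank (K1Bar M) (K1LevBar M p) with hr
  have hr1 : r ≤ (d : Cardinal) * r := by
    have : (1 : Cardinal) ≤ (d : Cardinal) := by exact_mod_cast hd0
    calc r = 1 * r := (one_mul r).symm
      _ ≤ (d : Cardinal) * r := mul_le_mul_left this r
  have hrfin : r < ℵ₀ := lt_of_le_of_lt (hr1.trans (hmul.le.trans hL)) (natCast_lt_aleph0)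
  obtain ⟨m, hm⟩ := lt_aleph0.mp hrfin
  rw [hm] at hmul ⊢
  have h3 : d * m ≤ (p + 1) * d := by
    have : ((d * m : ℕ) : Cardinal) ≤ (((p + 1) * d : ℕ) : Cardinal) := by
      rw [Nat.cast_mul, hmul]
      exact hL
    exact_mod_cast this
  have h4 : m ≤ p + 1 := by
    rw [mul_comm (p + 1) d] at h3
    exact Nat.le_of_mul_le_mul_left h3 hd0
  exact_mod_cast h4

namespace LevDegreeInputs

variable (D : LevDegreeInputs M p d)

include D

/-- the degree over `ℚ̄`: `[K1LevBar M p : K1Bar M] ≤ p + 1` -/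
theorem relrank_bar_le : relrank (K1Bar M) (K1LevBar M p) ≤ ((p + 1 : ℕ) : Cardinal) :=
  D.toLevDegreeBarInputs.relrank_bar_le

/-- **AN-5, elementary form**: a family of elements of `K1Lev M p` linearly independent over `K1 M`
has at most `p + 1` members. -/
theorem card_le_of_indep {n : ℕ} (y : Fin n → LaurentSeries ℚ) (hy : ∀ i, y i ∈ K1Lev M p)
    (hind : ∀ c : Fin n → LaurentSeries ℚ, (∀ i, c i ∈ K1 M) → ∑ i, c i * y i = 0 →
      ∀ i, c i = 0) : n ≤ p + 1 := by
  have h1 := natCast_le_relrank_of_indep (K1Bar_le_K1LevBar (M := M) (p := p))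
    (fun i => coeffEmb Kb (y i)) (fun i => coeffEmb_mem_laurentBaseChange Kb (hy i))
    (D.hdesc n y hy hind)
  exact_mod_cast h1.trans D.relrank_bar_le

/-- **AN-5, `relrank` form.** -/
theorem relrank_le : relrank (K1 M) (K1Lev M p) ≤ ((p + 1 : ℕ) : Cardinal) := by
  rw [relrank_eq_rank_of_le (K1_le_K1Lev M p)]
  exact rank_le_of_sigma_indep (K1 M) (V := extendScalars (K1_le_K1Lev M p))
    { toFun := fun v => (v : LaurentSeries ℚ), map_zero' := rfl, map_add' := fun _ _ => rfl }
    Subtype.val_injective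
    (fun b c => by rw [Algebra.smul_def]; rfl) (p + 1)
    (fun n y hind => D.card_le_of_indep (fun i => ((y i : extendScalars (K1_le_K1Lev M p)) :
      LaurentSeries ℚ)) (fun i => (y i).2) hind)

/-- **AN-5**: `[K1Lev M p : K1 M] ≤ p + 1` for the algebra structure `alphaOne` (the inclusion). -/
theorem finrank_K1Lev_le :
    letI : Algebra (K1 M) (K1Lev M p) := (alphaOne M p).toAlgebra
    FiniteDimensional (K1 M) (K1Lev M p) ∧ Module.finrank (K1 M) (K1Lev M p) ≤ p + 1 := by
  letI : Algebra (K1 M) (K1Lev M p) := (alphaOne M p).toAlgebra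
  have hrank : Module.rank (K1 M) (K1Lev M p) ≤ ((p + 1 : ℕ) : Cardinal) :=
    rank_le_of_sigma_indep (K1 M) (V := K1Lev M p)
      { toFun := fun v => (v : LaurentSeries ℚ), map_zero' := rfl, map_add' := fun _ _ => rfl }
      Subtype.val_injective
      (fun b c => by rw [Algebra.smul_def]; rfl) (p + 1)
      (fun n y hind => D.card_le_of_indep (fun i => ((y i : K1Lev M p) : LaurentSeries ℚ))
        (fun i => (y i).2) hind)
  refine ⟨?_, Module.finrank_le_of_rank_le hrank⟩
  rw [FiniteDimensional, ← Module.rank_lt_aleph0_iff]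
  exact lt_of_le_of_lt hrank (natCast_lt_aleph0)

/-- **AN-5, spanning form** (the shape consumed by IRR-3). -/
theorem exists_spanning : ∃ b : Fin (p + 1) → LaurentSeries ℚ, (∀ i, b i ∈ K1Lev M p) ∧
    ∀ y ∈ K1Lev M p, ∃ c : Fin (p + 1) → LaurentSeries ℚ,
      (∀ i, c i ∈ K1 M) ∧ y = ∑ i, c i * b i := by
  classical
  letI : Algebra (K1 M) (K1Lev M p) := (alphaOne M p).toAlgebra
  obtain ⟨hfin, hle⟩ := D.finrank_K1Lev_le
  haveI := hfin
  haveI : Module.Free (K1 M) (K1Lev M p) := Module.Free.of_divisionRing _ _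
  set m := Module.finrank (K1 M) (K1Lev M p) with hm
  set bas := Module.finBasis (K1 M) (K1Lev M p) with hbas
  set b' : Fin (p + 1) → K1Lev M p := fun i => if h : i.val < m then bas ⟨i.val, h⟩ else 0 with hb'
  have hspan : Submodule.span (K1 M) (Set.range b') = ⊤ := by
    rw [eq_top_iff, ← bas.span_eq]
    refine Submodule.span_mono ?_
    rintro _ ⟨j, rfl⟩
    refine ⟨⟨j.val, lt_of_lt_of_le j.2 hle⟩, ?_⟩
    show (if h : j.val < m then bas ⟨j.val, h⟩ else 0) = bas j
    rw [dif_pos j.2]
  refine ⟨fun i => ((b' i : K1Lev M p) : LaurentSeries ℚ), fun i => (b' i).2, fun y hy => ?_⟩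
  have hy' : (⟨y, hy⟩ : K1Lev M p) ∈ Submodule.span (K1 M) (Set.range b') := by
    rw [hspan]; trivial
  obtain ⟨c, hc⟩ := (Submodule.mem_span_range_iff_exists_fun (K1 M)).mp hy'
  refine ⟨fun i => ((c i : K1 M) : LaurentSeries ℚ), fun i => (c i).2, ?_⟩
  have h1 := congrArg (fun z : K1Lev M p => (z : LaurentSeries ℚ)) hc
  simp only [AddSubmonoidClass.coe_finsetSum] at h1
  rw [← h1]
  refine Finset.sum_congr rfl fun i _ => ?_
  rw [Algebra.smul_def]
  rfl

end LevDegreeInputs

end Fermat.Agent.DS.X1
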