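import Mathlib
import Fermat.Agent.DS.X1.PsiGen
import Fermat.Agent.DS.X1.Psi1
import Fermat.Agent.X0.QExpGamma
import Fermat.Agent.X0.CuspGrowth

/-!
# PROGRAMME III, X1-AN, leaf AN-5c (helper22): the analytic side of level `(M; p)`

* `IsRealOf.scale` : if `F` realises `x` for `Γ₁(M)` then `z ↦ F (p z)` realises `qExpand p x` for
  `Γ₁(M) ⊓ Γ₀(p)` (`p` prime to `M`; `IsRealOf.scale_of` is the generic form);
* `gensLev M p`, `hasReal_gensLev` : the generators of `K1Lev M p` have realisations;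
* `HasCuspBound F` : the growth condition at every cusp, its transfer under `z ↦ p z`
  (`HasCuspBound.scale`, by the Hermite normal form of `diag(p,1) γ`), and the generic induction
  `PsiGen_hasCuspBound` (this is the hypothesis `hb` of `isSepVar_gen`);
* base change of realisations from `ℚ` to `ℚ̄`.
-/

set_option autoImplicit false

noncomputable section

namespace Fermat.Agent.DS.X1

open UpperHalfPlane ModularCurve HahnSeries CongruenceSubgroup Filter Fermat.Agent.X0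
open Fermat.Agent.S23 Fermat.Agent.S23.PrimEltQExp
open scoped MatrixGroups Manifold Topology

local notation "Δ" => ModularForm.discriminant

/-! ### (i) realisations under `q ↦ q^p` -/

section scale

variable {K : Type*} [Field K] {ι : K →+* ℂ} {Γ Γ' : Subgroup SL(2, ℤ)}

/-- **Generic form**: if every `γ ∈ Γ'` satisfies `p · γ z = γ' · (p z)` with `γ' ∈ Γ`, then
`z ↦ F (p z)` realises `qExpand p x` for `Γ'`. -/
theorem IsRealOf.scale_of {x : LaurentSeries K} {F : ℍ → ℂ} (hF : IsRealOf ι Γ x F) (p : ℕ)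
    [NeZero p]
    (h : ∀ γ ∈ Γ', ∃ γ' ∈ Γ, ∀ z : ℍ, scaleH p (γ • z) = γ' • scaleH p z) :
    IsRealOf ι Γ' (qExpand K p x) (fun z => F (scaleH p z)) where
  mer := hF.mer.scale p
  qexp := by rw [qexpL_scale p hF.mer, hF.qexp, coeffMap_qExpand]
  inv γ hγ z := by
    obtain ⟨γ', hγ', hz⟩ := h γ hγ
    show F (scaleH p (γ • z)) = F (scaleH p z)
    rw [hz z, hF.inv γ' hγ']

end scale

/-- For `γ ∈ Γ₁(M) ⊓ Γ₀(M p)`: `p · γ z = γ' · (p z)` with `γ' = (a, p b; c / p, d) ∈ Γ₁(M)`. -/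
theorem exists_scaleH_smul_Gamma1 (M p : ℕ) [NeZero p] {γ : SL(2, ℤ)}
    (hγ : γ ∈ Gamma1 M ⊓ Gamma0 (M * p)) :
    ∃ γ' ∈ Gamma1 M, ∀ z : ℍ, scaleH p (γ • z) = γ' • scaleH p z := by
  have h1 := (Gamma1_mem M γ).mp (Subgroup.mem_inf.mp hγ).1
  have h0 := Gamma0_mem.mp (Subgroup.mem_inf.mp hγ).2
  have hMp : ((M * p : ℕ) : ℤ) ∣ γ 1 0 := (ZMod.intCast_zmod_eq_zero_iff_dvd _ _).mp h0
  obtain ⟨c'', hc''⟩ := hMp
  set c' : ℤ := (M : ℤ) * c'' with hc'def
  have hc' : γ 1 0 = (p : ℤ) * c' := by rw [hc'', hc'def]; push_cast; ring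
  have hdet : (γ 0 0) * (γ 1 1) - (γ 0 1) * (γ 1 0) = 1 := by
    have := γ.det_coe
    rw [Matrix.det_fin_two] at this
    exact this
  have hdet' : Matrix.det !![γ 0 0, γ 0 1 * p; c', γ 1 1] = 1 := by
    rw [Matrix.det_fin_two_of]
    rw [hc'] at hdet
    linarith [hdet]
  let γ' : SL(2, ℤ) := ⟨!![γ 0 0, γ 0 1 * p; c', γ 1 1], hdet'⟩
  have h00 : γ' 0 0 = γ 0 0 := rfl
  have h01 : γ' 0 1 = γ 0 1 * p := rfl
  have h10 : γ' 1 0 = c' := rfl
  have h11 : γ' 1 1 = γ 1 1 := rfl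
  refine ⟨γ', ?_, fun z => ?_⟩
  · rw [Gamma1_mem, h00, h11, h10]
    refine ⟨h1.1, h1.2.1, ?_⟩
    rw [hc'def]
    push_cast
    rw [ZMod.natCast_self, zero_mul]
  · apply UpperHalfPlane.ext
    rw [coe_scaleH, coe_specialLinearGroup_apply, coe_specialLinearGroup_apply γ', coe_scaleH,
      h00, h01, h10, h11, hc']
    simp only [algebraMap_int_eq, eq_intCast, Int.cast_mul, Int.cast_natCast]
    push_cast
    rw [mul_div_assoc']
    congr 1 <;> ring

theorem Gamma1_inf_Gamma0_le {M p : ℕ} (hpM : p.Coprime M) :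
    Gamma1 M ⊓ Gamma0 p ≤ Gamma1 M ⊓ Gamma0 (M * p) := by
  intro γ hγ
  have h1 := (Subgroup.mem_inf.mp hγ).1
  have h0 := Gamma0_mem.mp (Subgroup.mem_inf.mp hγ).2
  refine Subgroup.mem_inf.mpr ⟨h1, ?_⟩
  have h1' := (Gamma1_mem M γ).mp h1
  rw [Gamma0_mem]
  have hM : (M : ℤ) ∣ γ 1 0 := (ZMod.intCast_zmod_eq_zero_iff_dvd _ _).mp h1'.2.2
  have hp : (p : ℤ) ∣ γ 1 0 := (ZMod.intCast_zmod_eq_zero_iff_dvd _ _).mp h0
  have hcop : IsCoprime (M : ℤ) (p : ℤ) := (Nat.isCoprime_iff_coprime.mpr hpM).symm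
  have := hcop.mul_dvd hM hp
  rw [ZMod.intCast_zmod_eq_zero_iff_dvd]
  exact_mod_cast this

theorem Gamma1_inf_Gamma0_le_Gamma0 {M p : ℕ} (hpM : p.Coprime M) :
    Gamma1 M ⊓ Gamma0 p ≤ Gamma0 (M * p) :=
  (Gamma1_inf_Gamma0_le hpM).trans inf_le_right

/-- **`q ↦ q^p` at level `(M; p)`** (board literal). -/
theorem IsRealOf.scale {K : Type*} [Field K] {ι : K →+* ℂ} {M : ℕ} {x : LaurentSeries K}
    {F : ℍ → ℂ} (hF : IsRealOf ι (Gamma1 M) x F) (p : ℕ) [NeZero p] (hpM : p.Coprime M) :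
    IsRealOf ι (Gamma1 M ⊓ Gamma0 p) (qExpand K p x) (fun z => F (scaleH p z)) :=
  hF.scale_of p fun _ hγ => exists_scaleH_smul_Gamma1 M p (Gamma1_inf_Gamma0_le hpM hγ)

/-! ### (ii) the generators of `K1Lev M p` -/

variable (M : ℕ) [NeZero M] (p : ℕ) [NeZero p]

/-- the generators of `K1Lev M p` -/
def gensLev : Set (LaurentSeries ℚ) :=
  gens1 M ∪ qExpand ℚ p '' gens1 M ∪ divisorExpansions (M * p)

variable {M p}

theorem isRealOf_jqd_lev (hpM : p.Coprime M) {d : ℕ} [NeZero d] (hd : d ∣ M * p) :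
    IsRealOf (algebraMap ℚ ℂ) (Gamma1 M ⊓ Gamma0 p) (qExpand ℚ d jq)
      (fun z => jAn (scaleH d z)) :=
  haveI : NeZero (M * p) := ⟨Nat.mul_ne_zero (NeZero.ne M) (NeZero.ne p)⟩
  (isRealOf_jqd (M := M * p) hd).mono (Gamma1_inf_Gamma0_le_Gamma0 hpM)

theorem hasReal_gensLev (D : WeberAnData M) (hpM : p.Coprime M) :
    HasReal (algebraMap ℚ ℂ) (Gamma1 M ⊓ Gamma0 p) (gensLev M p) := by
  rintro s ((hs | ⟨s', hs', rfl⟩) | ⟨d, hne, hd, rfl⟩)
  · obtain ⟨F, hF⟩ := hasReal_gens1 D s hs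
    exact ⟨F, hF.mono inf_le_left⟩
  · obtain ⟨F, hF⟩ := hasReal_gens1 D s' hs'
    exact ⟨_, hF.scale p hpM⟩
  · exact ⟨_, isRealOf_jqd_lev hpM hd⟩

/-- the analytic realisation of `ℚ[gensLev M p]` -/
def PsiLev (D : WeberAnData M) (hpM : p.Coprime M) :
    Algebra.adjoin ℚ (gensLev M p) →+* (ℍ → ℂ) := PsiGen (hasReal_gensLev D hpM)

theorem R1_le_adjoin_gensLev : R1 M ≤ Algebra.adjoin ℚ (gensLev M p) :=
  Algebra.adjoin_mono fun _ hs => Or.inl (Or.inl hs)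

theorem qExpand_mem_adjoin_gensLev {r : LaurentSeries ℚ} (hr : r ∈ R1 M) :
    qExpand ℚ p r ∈ Algebra.adjoin ℚ (gensLev M p) := by
  induction hr using Algebra.adjoin_induction with
  | mem x hx => exact Algebra.subset_adjoin (Or.inl (Or.inr ⟨x, hx, rfl⟩))
  | algebraMap c =>
    have : qExpand ℚ p (algebraMap ℚ (LaurentSeries ℚ) c) = algebraMap ℚ (LaurentSeries ℚ) c := by
      rw [algebraMap_laurentSeries_eq_single, qExpand_single, mul_zero]
    rw [this]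
    exact Subalgebra.algebraMap_mem _ c
  | add x y _ _ hx hy => rw [map_add]; exact Subalgebra.add_mem _ hx hy
  | mul x y _ _ hx hy => rw [map_mul]; exact Subalgebra.mul_mem _ hx hy

/-- on `R1 M` the realisation at level `(M; p)` is `Psi1`. -/
theorem PsiLev_of_mem_R1 (D : WeberAnData M) (hpM : p.Coprime M) (r : R1 M) :
    PsiLev D hpM ⟨r, R1_le_adjoin_gensLev r.2⟩ = Psi1 D r :=
  PsiGen_eq _ ((isRealOf_Psi1 D r).mono inf_le_left)

/-- on `qExpand p (R1 M)` the realisation at level `(M; p)` is `Psi1 ∘ (z ↦ p z)`. -/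
theorem PsiLev_qExpand (D : WeberAnData M) (hpM : p.Coprime M) (r : R1 M) :
    PsiLev D hpM ⟨qExpand ℚ p r, qExpand_mem_adjoin_gensLev r.2⟩ =
      fun z => Psi1 D r (scaleH p z) :=
  PsiGen_eq _ ((isRealOf_Psi1 D r).scale p hpM)

theorem jqd_mem_adjoin_gensLev {d : ℕ} [NeZero d] (hd : d ∣ M * p) :
    qExpand ℚ d jq ∈ Algebra.adjoin ℚ (gensLev M p) :=
  Algebra.subset_adjoin (Or.inr ⟨d, ‹_›, hd, rfl⟩)

theorem PsiLev_jqd (D : WeberAnData M) (hpM : p.Coprime M) {d : ℕ} [NeZero d] (hd : d ∣ M * p) :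
    PsiLev D hpM ⟨qExpand ℚ d jq, jqd_mem_adjoin_gensLev hd⟩ = fun z => jAn (scaleH d z) :=
  PsiGen_eq _ (isRealOf_jqd_lev hpM hd)

/-! ### (iii) cusp bounds -/

/-- **the growth condition at every cusp.** -/
def HasCuspBound (F : ℍ → ℂ) : Prop :=
  ∀ γ : SL(2, ℤ), ∃ m : ℕ, IsBoundedAtImInfty (fun z => Δ z ^ m * F (γ • z))

theorem hasCuspBound_const (c : ℂ) : HasCuspBound (fun _ => c) := fun _ =>
  ⟨0, by
    simp only [pow_zero, one_mul]
    exact Filter.const_boundedAtFilter atImInfty c⟩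

theorem HasCuspBound.add {F G : ℍ → ℂ} (hF : HasCuspBound F) (hG : HasCuspBound G) :
    HasCuspBound (F + G) := by
  intro γ
  obtain ⟨m1, h1⟩ := hF γ
  obtain ⟨m2, h2⟩ := hG γ
  refine ⟨m1 + m2, ?_⟩
  have e : (fun z => Δ z ^ (m1 + m2) * (F + G) (γ • z)) =
      (fun z => Δ z ^ m2) * (fun z => Δ z ^ m1 * F (γ • z)) +
      (fun z => Δ z ^ m1) * (fun z => Δ z ^ m2 * G (γ • z)) := by
    funext z
    simp only [Pi.add_apply, Pi.mul_apply, _root_.pow_add]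
    ring
  rw [e]
  exact ((cuspGrowth_isBounded_discriminant_pow m2).mul h1).add
    ((cuspGrowth_isBounded_discriminant_pow m1).mul h2)

theorem HasCuspBound.mul {F G : ℍ → ℂ} (hF : HasCuspBound F) (hG : HasCuspBound G) :
    HasCuspBound (F * G) := by
  intro γ
  obtain ⟨m1, h1⟩ := hF γ
  obtain ⟨m2, h2⟩ := hG γ
  refine ⟨m1 + m2, ?_⟩
  have e : (fun z => Δ z ^ (m1 + m2) * (F * G) (γ • z)) =
      (fun z => Δ z ^ m1 * F (γ • z)) * (fun z => Δ z ^ m2 * G (γ • z)) := by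
    funext z
    simp only [Pi.mul_apply, _root_.pow_add]
    ring
  rw [e]
  exact h1.mul h2

theorem HasCuspBound.smul_right {F : ℍ → ℂ} (hF : HasCuspBound F) (δ : SL(2, ℤ)) :
    HasCuspBound (fun z => F (δ • z)) := by
  intro γ
  obtain ⟨m, hm⟩ := hF (δ * γ)
  refine ⟨m, ?_⟩
  simpa only [mul_smul] using hm

theorem hasCuspBound_jAn_scale (d : ℕ) [NeZero d] : HasCuspBound (fun z => jAn (scaleH d z)) :=
  fun γ => exists_discriminant_pow_mul_jFun_scaleH_smul_isBounded d γ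

/-- `Δ((a z + b)/d)` has order `a N / d` at `i∞` in the parameter `q_N` (`d ∣ N`). -/
theorem hasOrdInf_discriminant_triH (N : ℕ) [NeZero N] {a d : ℤ} (b : ℤ) (ha : 0 < a)
    (hd : 0 < d) (hdN : d ∣ (N : ℤ)) :
    HasOrdInf N (fun z => Δ (triH a b d z)) (a * ((N : ℤ) / d)) := by
  obtain ⟨L, hL, hT⟩ := hasOrdInf_discriminant 1
  have h1 := hT.comp (tendsto_triH b ha hd)
  refine ⟨L * triZeta b d, mul_ne_zero hL (triZeta_ne_zero b d), ?_⟩
  have h2 := h1.mul_const (triZeta b d)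
  refine h2.congr fun z => ?_
  simp only [Function.comp_apply, Nat.cast_one, zpow_neg, zpow_one]
  rw [qN_one_triH N b ha hd hdN z, mul_inv]
  have := triZeta_ne_zero b d
  field_simp

/-- **Transfer of the cusp bounds under `z ↦ p z`** (Hermite normal form of `diag(p,1) γ`). -/
theorem HasCuspBound.scale {F : ℍ → ℂ} (hF : HasCuspBound F) (p : ℕ) [NeZero p] :
    HasCuspBound (fun z => F (scaleH p z)) := by
  intro γ
  obtain ⟨γ1, a, b, d', ha, hd', -, -, hz⟩ := exists_scaleH_smul_eq p γ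
  obtain ⟨m, hm⟩ := hF γ1
  have hcomp : IsBoundedAtImInfty
      (fun z => Δ (triH a b d' z) ^ m * F (γ1 • triH a b d' z)) :=
    hm.comp_tendsto (tendsto_triH b ha hd')
  -- the level `N = d'`
  obtain ⟨N, rfl⟩ := Int.eq_ofNat_of_zero_le hd'.le
  have hN : NeZero N := ⟨by rintro rfl; exact lt_irrefl _ hd'⟩
  obtain ⟨a', rfl⟩ := Int.eq_ofNat_of_zero_le ha.le
  have hq : IsBoundedAtImInfty
      (fun z => Δ z ^ (m * a') / Δ (triH (a' : ℤ) b (N : ℤ) z) ^ m) := by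
    have h1 := (hasOrdInf_discriminant N).pow (m * a')
    have h2 := (hasOrdInf_discriminant_triH N b ha hd' dvd_rfl).pow m
    have h3 := h1.div h2
    refine HasOrdInf.isBoundedAtImInfty_of_nonneg (h3.congr ?_) ?_
    · funext z
      simp only [Pi.div_apply, Pi.pow_apply]
    · have hN0 : (N : ℤ) ≠ 0 := hd'.ne'
      rw [Int.ediv_self hN0, mul_one]
      have hN1 : (1 : ℤ) ≤ N := hd'
      have hma : (0 : ℤ) ≤ (m : ℤ) * (a' : ℤ) := by positivity
      push_cast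
      nlinarith [mul_le_mul_of_nonneg_left hN1 hma]
  refine ⟨m * a', ?_⟩
  have e : (fun z => Δ z ^ (m * a') * F (scaleH p (γ • z))) =
      (fun z => Δ z ^ (m * a') / Δ (triH (a' : ℤ) b (N : ℤ) z) ^ m) *
        (fun z => Δ (triH (a' : ℤ) b (N : ℤ) z) ^ m * F (γ1 • triH (a' : ℤ) b (N : ℤ) z)) := by
    funext z
    simp only [Pi.mul_apply]
    rw [hz z]
    have h0 : Δ (triH (a' : ℤ) b (N : ℤ) z) ^ m ≠ 0 :=
      pow_ne_zero _ (ModularForm.discriminant_ne_zero _)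
    field_simp
  rw [e]
  exact hq.mul hcomp

/-- **Generic induction**: if the generators have realisations satisfying the cusp bounds, so does
`PsiGen hS r` for every `r` (this is the hypothesis `hb` of `isSepVar_gen`). -/
theorem PsiGen_hasCuspBound {K : Type*} [Field K] {ι : K →+* ℂ} {Γ : Subgroup SL(2, ℤ)}
    {S : Set (LaurentSeries K)} (hS : HasReal ι Γ S)
    (hgen : ∀ s ∈ S, ∃ F : ℍ → ℂ, IsRealOf ι Γ s F ∧ HasCuspBound F)
    (r : Algebra.adjoin K S) : HasCuspBound (PsiGen hS r) := by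
  obtain ⟨r, hr⟩ := r
  induction hr using Algebra.adjoin_induction with
  | mem x hx =>
    obtain ⟨F, hF, hb⟩ := hgen x hx
    rw [PsiGen_eq hS (r := ⟨x, Algebra.subset_adjoin hx⟩) hF]
    exact hb
  | algebraMap c =>
    have : (⟨algebraMap K (LaurentSeries K) c, Subalgebra.algebraMap_mem _ c⟩ :
        Algebra.adjoin K S) = algebraMap K (Algebra.adjoin K S) c := rfl
    rw [this, PsiGen_algebraMap]
    exact hasCuspBound_const _
  | add x y hx hy ihx ihy =>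
    have : (⟨x + y, Subalgebra.add_mem _ hx hy⟩ : Algebra.adjoin K S) = ⟨x, hx⟩ + ⟨y, hy⟩ := rfl
    rw [this, map_add]
    exact ihx.add ihy
  | mul x y hx hy ihx ihy =>
    have : (⟨x * y, Subalgebra.mul_mem _ hx hy⟩ : Algebra.adjoin K S) = ⟨x, hx⟩ * ⟨y, hy⟩ := rfl
    rw [this, map_mul]
    exact ihx.mul ihy

variable {M : ℕ} [NeZero M] {p : ℕ} [NeZero p]

/-- the cusp bounds for `Psi1` (the `hb` of AN-3), from those of the Weber functions. -/
theorem hasCuspBound_Psi1 (D : WeberAnData M)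
    (hW : ∀ a : ℕ, 0 < a → a < M → HasCuspBound (D.W a)) (r : R1 M) :
    HasCuspBound (Psi1 D r) := by
  refine PsiGen_hasCuspBound (hasReal_gens1 D) ?_ r
  rintro s (⟨d, hne, hd, rfl⟩ | ⟨a, ha, haM, rfl⟩)
  · exact ⟨_, (isRealOf_jqd hd).mono (Gamma1_in_Gamma0 M), hasCuspBound_jAn_scale d⟩
  · exact ⟨_, D.real a ha haM, hW a ha haM⟩

/-- the cusp bounds at level `(M; p)` (the `hb` of AN-5). -/
theorem hasCuspBound_PsiLev (D : WeberAnData M)
    (hW : ∀ a : ℕ, 0 < a → a < M → HasCuspBound (D.W a)) (hpM : p.Coprime M)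
    (r : Algebra.adjoin ℚ (gensLev M p)) : HasCuspBound (PsiLev D hpM r) := by
  have h1 : ∀ s ∈ gens1 M, ∃ F : ℍ → ℂ, IsRealOf (algebraMap ℚ ℂ) (Gamma1 M) s F ∧
      HasCuspBound F := by
    rintro s (⟨d, hne, hd, rfl⟩ | ⟨a, ha, haM, rfl⟩)
    · exact ⟨_, (isRealOf_jqd hd).mono (Gamma1_in_Gamma0 M), hasCuspBound_jAn_scale d⟩
    · exact ⟨_, D.real a ha haM, hW a ha haM⟩
  refine PsiGen_hasCuspBound (hasReal_gensLev D hpM) ?_ r
  rintro s ((hs | ⟨s', hs', rfl⟩) | ⟨d, hne, hd, rfl⟩)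
  · obtain ⟨F, hF, hb⟩ := h1 s hs
    exact ⟨F, hF.mono inf_le_left, hb⟩
  · obtain ⟨F, hF, hb⟩ := h1 s' hs'
    exact ⟨_, hF.scale p hpM, hb.scale p⟩
  · exact ⟨_, isRealOf_jqd_lev hpM hd, hasCuspBound_jAn_scale d⟩

end Fermat.Agent.DS.X1
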