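import Mathlib
import Fermat.Agent.DS.X1.LevReal
import Fermat.Agent.DS.X1.K1Deg

/-!
# PROGRAMME III, X1-AN, leaf AN-5c (helper22), part 2: level `(M; p)` over `ℚ̄`

The inputs of the generic degree theorems of `DegGen.lean` (`exists_relation_gen`,
`exists_bounded_relation_gen`, `isSepVar_gen`) for `K1LevQb M p`:

* `gensLevBar M p`, `RLevBar M p = ℚ̄[gensLevBar]`, `hasReal_gensLevBar` (`hS`);
* `RLevBar_le_K1LevBar` (`hRF`), `jRLev` (`xR`, `hxq = rfl`);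
* `PsiGen_RLevBar_cusp_bound` (`hb`);
* `mem_of_PsiGen_RLevBar_fixed` (`hdist`) for any `Γ` with
  `γ ∈ Γ ↔ γ ∈ Γ₁(M) ⊓ Γ₀(p) ∨ -γ ∈ Γ₁(M) ⊓ Γ₀(p)`;
* `isSepVar_K1LevBar`: the exact degree over `ℚ̄(j)` given `hfrac` and `hinj`.
-/

set_option autoImplicit false

noncomputable section

namespace Fermat.Agent.DS.X1

open UpperHalfPlane ModularCurve HahnSeries CongruenceSubgroup Fermat.Agent.X0
open Fermat.Agent.S23 Fermat.Agent.S23.PrimEltQExp Filter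
open scoped MatrixGroups Manifold

local notation "Δ" => ModularForm.discriminant

variable (M : ℕ) [NeZero M] (p : ℕ) [NeZero p]

/-- the function field of `X(Γ₁(M) ∩ Γ₀(p))` over `ℚ̄` -/
abbrev K1LevQb : IntermediateField Kb (LaurentSeries Kb) := laurentBaseChange Kb (K1Lev M p)

/-- the generators of `K1LevQb M p` over `ℚ̄` -/
def gensLevBar : Set (LaurentSeries Kb) := ⇑(coeffEmb Kb) '' gensLev M p

/-- `ℚ̄[gensLevBar M p]` -/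
abbrev RLevBar : Subalgebra Kb (LaurentSeries Kb) := Algebra.adjoin Kb (gensLevBar M p)

variable {M p}

theorem gensLev_subset_K1Lev : gensLev M p ⊆ (K1Lev M p : Set (LaurentSeries ℚ)) := by
  rintro s ((hs | ⟨s', hs', rfl⟩) | hs)
  · exact K1_le_K1Lev M p (IntermediateField.subset_adjoin ℚ _ hs)
  · exact qExpand_mem_K1Lev M p (IntermediateField.subset_adjoin ℚ _ hs')
  · exact IntermediateField.subset_adjoin ℚ _ (Or.inl (Or.inl hs))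

theorem RLevBar_le_K1LevBar : ∀ r ∈ RLevBar M p, r ∈ K1LevQb M p := by
  intro r hr
  have : RLevBar M p ≤ (K1LevQb M p).toSubalgebra := by
    refine Algebra.adjoin_le ?_
    rintro s ⟨x, hx, rfl⟩
    exact coeffEmb_mem_laurentBaseChange Kb (gensLev_subset_K1Lev hx)
  exact this hr

variable {Γ : Subgroup SL(2, ℤ)}

theorem hasReal_gensLevBar (D : WeberAnData M) (hpM : p.Coprime M)
    (hΓ : ∀ γ ∈ Γ, γ ∈ Gamma1 M ⊓ Gamma0 p ∨ -γ ∈ Gamma1 M ⊓ Gamma0 p) :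
    HasReal iotaC Γ (gensLevBar M p) := by
  rintro s ⟨x, hx, rfl⟩
  obtain ⟨F, hF⟩ := hasReal_gensLev D hpM x hx
  exact ⟨F, (isRealOf_coeffEmb hF).of_pm hΓ⟩

theorem jq_mem_gensLev : jq ∈ gensLev M p :=
  Or.inl (Or.inl jq_mem_gens1)

/-- `j` as an element of `RLevBar M p` -/
def jRLev (M : ℕ) [NeZero M] (p : ℕ) [NeZero p] : RLevBar M p :=
  ⟨coeffEmb Kb jq, Algebra.subset_adjoin ⟨jq, jq_mem_gensLev, rfl⟩⟩

/-- the value of the realisation on a generator coming from `gens1 M`. -/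
theorem PsiGen_gensLevBar_of_gens1 (D : WeberAnData M) (hpM : p.Coprime M)
    (hΓ : ∀ γ ∈ Γ, γ ∈ Gamma1 M ⊓ Gamma0 p ∨ -γ ∈ Gamma1 M ⊓ Gamma0 p)
    {s : LaurentSeries ℚ} (hs : s ∈ gens1 M) {F : ℍ → ℂ}
    (hF : IsRealOf (algebraMap ℚ ℂ) (Gamma1 M) s F) :
    PsiGen (hasReal_gensLevBar D hpM hΓ)
      ⟨coeffEmb Kb s, Algebra.subset_adjoin ⟨s, Or.inl (Or.inl hs), rfl⟩⟩ = F :=
  PsiGen_eq _ ((isRealOf_coeffEmb (hF.mono inf_le_left)).of_pm hΓ)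

/-- the value of the realisation on `qExpand p s`, `s ∈ gens1 M`. -/
theorem PsiGen_gensLevBar_qExpand (D : WeberAnData M) (hpM : p.Coprime M)
    (hΓ : ∀ γ ∈ Γ, γ ∈ Gamma1 M ⊓ Gamma0 p ∨ -γ ∈ Gamma1 M ⊓ Gamma0 p)
    {s : LaurentSeries ℚ} (hs : s ∈ gens1 M) {F : ℍ → ℂ}
    (hF : IsRealOf (algebraMap ℚ ℂ) (Gamma1 M) s F) :
    PsiGen (hasReal_gensLevBar D hpM hΓ)
      ⟨coeffEmb Kb (qExpand ℚ p s),
        Algebra.subset_adjoin ⟨_, Or.inl (Or.inr ⟨s, hs, rfl⟩), rfl⟩⟩ =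
      fun z => F (scaleH p z) :=
  PsiGen_eq _ ((isRealOf_coeffEmb (hF.scale p hpM)).of_pm hΓ)

/-- the value of the realisation on `j(q^d)`, `d ∣ M p`. -/
theorem PsiGen_gensLevBar_jqd (D : WeberAnData M) (hpM : p.Coprime M)
    (hΓ : ∀ γ ∈ Γ, γ ∈ Gamma1 M ⊓ Gamma0 p ∨ -γ ∈ Gamma1 M ⊓ Gamma0 p)
    {d : ℕ} [NeZero d] (hd : d ∣ M * p) :
    PsiGen (hasReal_gensLevBar D hpM hΓ)
      ⟨coeffEmb Kb (qExpand ℚ d jq),
        Algebra.subset_adjoin ⟨_, Or.inr ⟨d, ‹_›, hd, rfl⟩, rfl⟩⟩ =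
      fun z => jAn (scaleH d z) :=
  PsiGen_eq _ ((isRealOf_coeffEmb (isRealOf_jqd_lev hpM hd)).of_pm hΓ)

/-- **growth at all cusps** of the realisations of `RLevBar M p` (`hb` of `isSepVar_gen`). -/
theorem PsiGen_RLevBar_cusp_bound (D : WeberCuspData M) (hpM : p.Coprime M)
    (hΓ : ∀ γ ∈ Γ, γ ∈ Gamma1 M ⊓ Gamma0 p ∨ -γ ∈ Gamma1 M ⊓ Gamma0 p)
    (r : RLevBar M p) (g : SL(2, ℤ)) :
    ∃ m : ℕ, IsBoundedAtImInfty
      (fun z => Δ z ^ m * PsiGen (hasReal_gensLevBar D.toWeberAnData hpM hΓ) r (g • z)) := by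
  have h1 : ∀ s ∈ gens1 M, ∃ F : ℍ → ℂ, IsRealOf (algebraMap ℚ ℂ) (Gamma1 M) s F ∧
      HasCuspBound F := by
    rintro s (⟨d, hne, hd, rfl⟩ | ⟨a, ha, haM, rfl⟩)
    · exact ⟨_, (isRealOf_jqd hd).mono (Gamma1_in_Gamma0 M), hasCuspBound_jAn_scale d⟩
    · exact ⟨_, D.real a ha haM, D.bound a ha haM⟩
  refine PsiGen_hasCuspBound (hasReal_gensLevBar D.toWeberAnData hpM hΓ) ?_ r g
  rintro s ⟨x, ((hs | ⟨s', hs', rfl⟩) | ⟨d, hne, hd, rfl⟩), rfl⟩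
  · obtain ⟨F, hF, hb⟩ := h1 x hs
    exact ⟨F, (isRealOf_coeffEmb (hF.mono inf_le_left)).of_pm hΓ, hb⟩
  · obtain ⟨F, hF, hb⟩ := h1 s' hs'
    exact ⟨_, (isRealOf_coeffEmb (hF.scale p hpM)).of_pm hΓ, hb.scale p⟩
  · exact ⟨_, (isRealOf_coeffEmb (isRealOf_jqd_lev hpM hd)).of_pm hΓ, hasCuspBound_jAn_scale d⟩

/-! ### distinctness and the exact degree -/

/-- a `δ ∈ Γ₀(M)` fixing `W_1` lies in `±Γ₁(M)` (extracted from `mem_of_PsiGen_R1Bar_fixed`). -/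
theorem mem_pm_Gamma1_of_weber_fixed (D : WeberAnData M) (hM : 2 ≤ M)
    (hinj : ∀ a b : ℕ, 0 < a → a < M → 0 < b → b < M → weberQ M a = weberQ M b →
      a = b ∨ a + b = M)
    (δ : SL(2, ℤ)) (h0 : δ ∈ Gamma0 M) (hfix : ∀ z : ℍ, D.W 1 (δ • z) = D.W 1 z) :
    δ ∈ Gamma1 M ∨ -δ ∈ Gamma1 M := by
  have h1 : 0 < 1 := Nat.one_pos
  have h1M : 1 < M := hM
  obtain ⟨b, hb0, hbM, hb⟩ := exists_index h0 h1 h1M
  have hW : D.W b = D.W 1 := by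
    funext z
    rw [← D.smul δ h0 1 b h1 h1M hb0 hbM hb z]
    exact hfix z
  have hq : weberQ M b = weberQ M 1 := by
    have e1 := (D.real b hb0 hbM).qexp
    have e2 := (D.real 1 h1 h1M).qexp
    rw [hW, e2] at e1
    exact (coeffMap_injective _ (algebraMap ℚ ℂ).injective e1).symm
  have hcast : ((δ 0 0 : ℤ) : ZMod M) = 1 ∨ ((δ 0 0 : ℤ) : ZMod M) = -1 := by
    rcases hinj b 1 hb0 hbM h1 h1M hq with h | h
    · left
      rw [h] at hb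
      simpa using hb.symm
    · right
      have hb' : (b : ZMod M) = -1 := by
        have : ((b + 1 : ℕ) : ZMod M) = 0 := by rw [h]; exact ZMod.natCast_self M
        push_cast at this
        exact eq_neg_of_add_eq_zero_left this
      rw [hb'] at hb
      simpa using hb.symm
  have h10 : ((δ 1 0 : ℤ) : ZMod M) = 0 := Gamma0_mem.mp h0
  have hul := upperLeft_mul_lowerRight h0
  rcases hcast with h | h
  · left
    rw [Gamma1_mem]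
    refine ⟨h, ?_, h10⟩
    rw [h, one_mul] at hul
    exact hul
  · right
    rw [Gamma1_mem]
    have e00 : ((-δ : SL(2, ℤ)) 0 0 : ℤ) = -(δ 0 0) := by simp
    have e11 : ((-δ : SL(2, ℤ)) 1 1 : ℤ) = -(δ 1 1) := by simp
    have e10 : ((-δ : SL(2, ℤ)) 1 0 : ℤ) = -(δ 1 0) := by simp
    rw [e00, e11, e10]
    push_cast
    refine ⟨by rw [h, neg_neg], ?_, by rw [h10, neg_zero]⟩
    rw [h] at hul
    have : ((δ 1 1 : ℤ) : ZMod M) = -1 := by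
      have := congrArg Neg.neg hul
      simpa using this
    rw [this, neg_neg]

theorem Gamma0_mul_le_left (M p : ℕ) : Gamma0 (M * p) ≤ Gamma0 M := by
  intro γ hγ
  rw [Gamma0_mem] at hγ ⊢
  rw [ZMod.intCast_zmod_eq_zero_iff_dvd] at hγ ⊢
  exact (Dvd.intro _ (by push_cast; rfl) : (M : ℤ) ∣ ((M * p : ℕ) : ℤ)).trans hγ

theorem Gamma0_mul_le_right (M p : ℕ) : Gamma0 (M * p) ≤ Gamma0 p := by
  rw [mul_comm]
  exact Gamma0_mul_le_left p M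

theorem neg_mem_Gamma0_iff {N : ℕ} {γ : SL(2, ℤ)} : -γ ∈ Gamma0 N ↔ γ ∈ Gamma0 N := by
  rw [Gamma0_mem, Gamma0_mem]
  have e10 : ((-γ : SL(2, ℤ)) 1 0 : ℤ) = -(γ 1 0) := by simp
  rw [e10]
  push_cast
  exact neg_eq_zero

/-- **Distinctness at level `(M; p)`**: a `δ ∈ SL(2,ℤ)` fixing all realisations lies in
`±(Γ₁(M) ⊓ Γ₀(p))` (`hdist` of `isSepVar_gen`). -/
theorem mem_of_PsiGen_RLevBar_fixed (D : WeberAnData M) (hM : 2 ≤ M) (hpM : p.Coprime M)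
    (hΓ : ∀ γ ∈ Γ, γ ∈ Gamma1 M ⊓ Gamma0 p ∨ -γ ∈ Gamma1 M ⊓ Gamma0 p)
    (hΓ' : ∀ γ : SL(2, ℤ), γ ∈ Gamma1 M ⊓ Gamma0 p ∨ -γ ∈ Gamma1 M ⊓ Gamma0 p → γ ∈ Γ)
    (hinj : ∀ a b : ℕ, 0 < a → a < M → 0 < b → b < M → weberQ M a = weberQ M b →
      a = b ∨ a + b = M)
    (δ : SL(2, ℤ))
    (hδ : ∀ (r : RLevBar M p) (z : ℍ), PsiGen (hasReal_gensLevBar D hpM hΓ) r (δ • z) =
      PsiGen (hasReal_gensLevBar D hpM hΓ) r z) : δ ∈ Γ := by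
  have hne : NeZero (M * p) := ⟨Nat.mul_ne_zero (NeZero.ne M) (NeZero.ne p)⟩
  -- step 1: `δ ∈ Γ₀(M p)` from `j(M p z)`
  have h0 : δ ∈ Gamma0 (M * p) := by
    apply mem_Gamma0_of_jFun_scaleH_smul_eq (M * p) δ
    intro z
    have := hδ ⟨coeffEmb Kb (qExpand ℚ (M * p) jq),
      Algebra.subset_adjoin ⟨_, Or.inr ⟨M * p, ‹_›, dvd_rfl, rfl⟩, rfl⟩⟩ z
    rw [PsiGen_gensLevBar_jqd D hpM hΓ (dvd_refl (M * p))] at this
    exact this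
  have h0M : δ ∈ Gamma0 M := Gamma0_mul_le_left M p h0
  have h0p : δ ∈ Gamma0 p := Gamma0_mul_le_right M p h0
  -- step 2: `W_1 ∘ δ = W_1`
  have h1 : 0 < 1 := Nat.one_pos
  have h1M : 1 < M := hM
  have hfix : ∀ z : ℍ, D.W 1 (δ • z) = D.W 1 z := by
    intro z
    have := hδ ⟨coeffEmb Kb (weberQ M 1),
      Algebra.subset_adjoin ⟨_, Or.inl (Or.inl (Or.inr ⟨1, h1, h1M, rfl⟩)), rfl⟩⟩ z
    rw [PsiGen_gensLevBar_of_gens1 D hpM hΓ (Or.inr ⟨1, h1, h1M, rfl⟩) (D.real 1 h1 h1M)] at this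
    exact this
  apply hΓ'
  rcases mem_pm_Gamma1_of_weber_fixed D hM hinj δ h0M hfix with h | h
  · exact Or.inl (Subgroup.mem_inf.mpr ⟨h, h0p⟩)
  · exact Or.inr (Subgroup.mem_inf.mpr ⟨h, neg_mem_Gamma0_iff.mpr h0p⟩)

/-- `j` as an element of `K1LevQb M p` -/
def jBarLev (M : ℕ) [NeZero M] (p : ℕ) [NeZero p] : K1LevQb M p :=
  ⟨coeffEmb Kb jq, RLevBar_le_K1LevBar _ (jRLev M p).2⟩

/-- **AN-5 (analytic core): `[K1LevQb M p : ℚ̄(j)] = [SL(2,ℤ) : ±(Γ₁(M) ⊓ Γ₀(p))]`**, given the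
algebraic input `hfrac` (leaf ALGEBRA) and `hinj` (SERIES S2). -/
theorem isSepVar_K1LevBar (D : WeberCuspData M) (hM : 2 ≤ M) (hpM : p.Coprime M)
    [Γ.FiniteIndex]
    (hΓ : ∀ γ : SL(2, ℤ), γ ∈ Γ ↔ γ ∈ Gamma1 M ⊓ Gamma0 p ∨ -γ ∈ Gamma1 M ⊓ Gamma0 p)
    (hfrac : ∀ f : K1LevQb M p, ∃ g h : RLevBar M p, h ≠ 0 ∧
      (f : LaurentSeries Kb) * (h : LaurentSeries Kb) = g)
    (hinj : ∀ a b : ℕ, 0 < a → a < M → 0 < b → b < M → weberQ M a = weberQ M b →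
      a = b ∨ a + b = M) :
    IsSepVar Kb (jBarLev M p) (Nat.card (SL(2, ℤ) ⧸ Γ)) := by
  have hΓ1 : ∀ γ ∈ Γ, γ ∈ Gamma1 M ⊓ Gamma0 p ∨ -γ ∈ Gamma1 M ⊓ Gamma0 p :=
    fun γ hγ => (hΓ γ).mp hγ
  exact isSepVar_gen (hasReal_gensLevBar D.toWeberAnData hpM hΓ1) (K1LevQb M p)
    RLevBar_le_K1LevBar hfrac (jRLev M p) rfl (PsiGen_RLevBar_cusp_bound D hpM hΓ1)
    (mem_of_PsiGen_RLevBar_fixed D.toWeberAnData hM hpM hΓ1 (fun γ h => (hΓ γ).mpr h) hinj)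

end Fermat.Agent.DS.X1
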