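import Mathlib
import Fermat.Agent.X0.CountBasic

/-!
# PROGRAMME III, X1-AN (helper6): the group `±Γ₁(M)` and its index in `SL(2,ℤ)`

The Weber functions `W_a(τ)` are even in the point, so the functions of `K1 M` are invariant under
`±Γ₁(M) = {γ ∈ Γ₀(M) : γ₁₁ ≡ ±1 mod M}` and `K1Bar M` has degree `[SL(2,ℤ) : ±Γ₁(M)]` over `ℚ̄(j)`.
Pure group theory:

* `lowerRightUnit M : Γ₀(M) →* (ℤ/M)ˣ`, surjective;
* `PmGamma1 M`, membership lemmas, `-1 ∈`, `Γ₁(M) ≤ ±Γ₁(M) ≤ Γ₀(M)`, `Γ(M) ≤ ±Γ₁(M)`, finite index;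
* `two_mul_card_cosets_PmGamma1 : 3 ≤ M → 2 * #(SL(2,ℤ) ⧸ ±Γ₁(M)) = ψ(M) φ(M)`.
-/

set_option autoImplicit false

namespace Fermat.Agent.DS.X1

open CongruenceSubgroup Matrix.SpecialLinearGroup ModularCurve
open scoped MatrixGroups

/-- the lower right entry modulo `M`, as a character `Γ₀(M) → (ℤ/M)ˣ` -/
noncomputable def lowerRightUnit (M : ℕ) : Gamma0 M →* (ZMod M)ˣ := (Gamma0Map M).toHomUnits

theorem coe_lowerRightUnit (M : ℕ) (γ : Gamma0 M) :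
    ((lowerRightUnit M γ : (ZMod M)ˣ) : ZMod M) = (((γ : SL(2, ℤ)) 1 1 : ℤ) : ZMod M) := rfl

theorem lowerRightUnit_surjective (M : ℕ) [NeZero M] :
    Function.Surjective (lowerRightUnit M) := by
  intro u
  have hcop : Nat.Coprime (u : ZMod M).val M := ZMod.val_coe_unit_coprime u
  have hcop' : IsCoprime ((u : ZMod M).val : ℤ) (M : ℤ) := Nat.isCoprime_iff_coprime.mpr hcop
  obtain ⟨a, b, hab⟩ := hcop'
  -- a * d + b * M = 1
  let γ : SL(2, ℤ) := ⟨!![a, -b; (M : ℤ), ((u : ZMod M).val : ℤ)], by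
    rw [Matrix.det_fin_two_of]; linarith⟩
  have hγ : γ ∈ Gamma0 M := by
    rw [Gamma0_mem]
    show (((M : ℤ) : ℤ) : ZMod M) = 0
    simp
  refine ⟨⟨γ, hγ⟩, Units.ext ?_⟩
  rw [coe_lowerRightUnit]
  show ((((u : ZMod M).val : ℤ) : ℤ) : ZMod M) = (u : ZMod M)
  simp

/-- `{±1} ≤ (ℤ/M)ˣ` -/
def pmOne (M : ℕ) : Subgroup (ZMod M)ˣ where
  carrier := {u | u = 1 ∨ u = -1}
  mul_mem' := by
    rintro a b (rfl | rfl) (rfl | rfl) <;> simp
  one_mem' := Or.inl rfl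
  inv_mem' := by
    rintro a (rfl | rfl) <;> simp

theorem mem_pmOne {M : ℕ} {u : (ZMod M)ˣ} : u ∈ pmOne M ↔ u = 1 ∨ u = -1 := Iff.rfl

theorem neg_one_ne_one_units {M : ℕ} (hM : 3 ≤ M) : (-1 : (ZMod M)ˣ) ≠ 1 := by
  intro h
  have h1 : ((-1 : (ZMod M)ˣ) : ZMod M) = ((1 : (ZMod M)ˣ) : ZMod M) := by rw [h]
  rw [Units.val_neg, Units.val_one] at h1
  have h2 : ((2 : ℕ) : ZMod M) = 0 := by
    have : (1 : ZMod M) + 1 = 0 := by
      nth_rewrite 1 [← h1]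
      ring
    push_cast
    rw [← this]
    ring
  rw [ZMod.natCast_eq_zero_iff] at h2
  exact absurd (Nat.le_of_dvd (by norm_num) h2) (by omega)

theorem card_pmOne {M : ℕ} (hM : 3 ≤ M) : Nat.card (pmOne M) = 2 := by
  classical
  have hne := neg_one_ne_one_units hM
  rw [Nat.card_eq_two_iff]
  refine ⟨⟨1, Or.inl rfl⟩, ⟨-1, Or.inr rfl⟩, ?_, ?_⟩
  · intro h
    exact hne (congrArg Subtype.val h).symm
  · ext x
    simp only [Set.mem_insert_iff, Set.mem_singleton_iff, Set.mem_univ, iff_true]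
    rcases x with ⟨x, (rfl | rfl)⟩
    · exact Or.inl rfl
    · exact Or.inr rfl

/-- `±Γ₁(M)` as a subgroup of `Γ₀(M)` -/
noncomputable def PmGamma1' (M : ℕ) : Subgroup (Gamma0 M) := (pmOne M).comap (lowerRightUnit M)

/-- **`±Γ₁(M)`** -/
noncomputable def PmGamma1 (M : ℕ) : Subgroup SL(2, ℤ) := (PmGamma1' M).map (Gamma0 M).subtype

variable {M : ℕ}

theorem mem_PmGamma1 {γ : SL(2, ℤ)} :
    γ ∈ PmGamma1 M ↔ ((γ 1 0 : ℤ) : ZMod M) = 0 ∧
      (((γ 1 1 : ℤ) : ZMod M) = 1 ∨ ((γ 1 1 : ℤ) : ZMod M) = -1) := by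
  constructor
  · rintro ⟨⟨g, hg⟩, hmem, rfl⟩
    refine ⟨Gamma0_mem.mp hg, ?_⟩
    have h : lowerRightUnit M ⟨g, hg⟩ = 1 ∨ lowerRightUnit M ⟨g, hg⟩ = -1 := hmem
    rcases h with h | h
    · left
      have := congrArg (fun u : (ZMod M)ˣ => (u : ZMod M)) h
      simpa [coe_lowerRightUnit] using this
    · right
      have := congrArg (fun u : (ZMod M)ˣ => (u : ZMod M)) h
      simpa [coe_lowerRightUnit] using this
  · rintro ⟨h0, h1⟩
    have hg : γ ∈ Gamma0 M := Gamma0_mem.mpr h0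
    refine ⟨⟨γ, hg⟩, ?_, rfl⟩
    show lowerRightUnit M ⟨γ, hg⟩ = 1 ∨ lowerRightUnit M ⟨γ, hg⟩ = -1
    rcases h1 with h1 | h1
    · left
      apply Units.ext
      rw [coe_lowerRightUnit]
      simpa using h1
    · right
      apply Units.ext
      rw [coe_lowerRightUnit]
      simpa using h1

theorem PmGamma1_le_Gamma0 (M : ℕ) : PmGamma1 M ≤ Gamma0 M := fun _ h =>
  Gamma0_mem.mpr (mem_PmGamma1.mp h).1

/-- for `γ ∈ Γ₀(M)`: upper left times lower right is `1` mod `M` -/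
theorem upperLeft_mul_lowerRight_of_mem {γ : SL(2, ℤ)} (hγ : γ ∈ Gamma0 M) :
    ((γ 0 0 : ℤ) : ZMod M) * ((γ 1 1 : ℤ) : ZMod M) = 1 := by
  have hdet : (γ 0 0) * (γ 1 1) - (γ 0 1) * (γ 1 0) = 1 := by
    have := γ.det_coe
    rwa [Matrix.det_fin_two] at this
  have h10 : ((γ 1 0 : ℤ) : ZMod M) = 0 := Gamma0_mem.mp hγ
  have := congrArg (Int.cast : ℤ → ZMod M) hdet
  push_cast at this
  rw [h10, mul_zero, sub_zero] at this
  exact this

/-- membership through the upper left entry (the index of `W_a ∘ γ = W_{a γ₀₀}`) -/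
theorem mem_PmGamma1_iff_upperLeft {γ : SL(2, ℤ)} :
    γ ∈ PmGamma1 M ↔ γ ∈ Gamma0 M ∧
      (((γ 0 0 : ℤ) : ZMod M) = 1 ∨ ((γ 0 0 : ℤ) : ZMod M) = -1) := by
  rw [mem_PmGamma1]
  constructor
  · rintro ⟨h0, h1⟩
    have hg : γ ∈ Gamma0 M := Gamma0_mem.mpr h0
    have hmul := upperLeft_mul_lowerRight_of_mem hg
    refine ⟨hg, ?_⟩
    rcases h1 with h1 | h1
    · left
      rwa [h1, mul_one] at hmul
    · right
      rw [h1, mul_neg, mul_one, neg_eq_iff_eq_neg] at hmul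
      exact hmul
  · rintro ⟨hg, h1⟩
    have hmul := upperLeft_mul_lowerRight_of_mem hg
    refine ⟨Gamma0_mem.mp hg, ?_⟩
    rcases h1 with h1 | h1
    · left
      rwa [h1, one_mul] at hmul
    · right
      rw [h1, neg_mul, one_mul, neg_eq_iff_eq_neg] at hmul
      exact hmul

theorem Gamma1_le_PmGamma1 (M : ℕ) : Gamma1 M ≤ PmGamma1 M := by
  intro γ hγ
  rw [Gamma1_mem] at hγ
  exact mem_PmGamma1.mpr ⟨hγ.2.2, Or.inl hγ.2.1⟩

theorem Gamma_le_PmGamma1 (M : ℕ) : Gamma M ≤ PmGamma1 M := by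
  intro γ hγ
  rw [Gamma_mem] at hγ
  exact mem_PmGamma1.mpr ⟨hγ.2.2.1, Or.inl hγ.2.2.2⟩

theorem neg_one_mem_PmGamma1 (M : ℕ) : (-1 : SL(2, ℤ)) ∈ PmGamma1 M := by
  rw [mem_PmGamma1]
  refine ⟨?_, Or.inr ?_⟩
  · simp
  · simp

/-- `γ ∈ ±Γ₁(M)` iff `γ` or `-γ` lies in `Γ₁(M)` -/
theorem mem_PmGamma1_iff {γ : SL(2, ℤ)} :
    γ ∈ PmGamma1 M ↔ γ ∈ Gamma1 M ∨ -γ ∈ Gamma1 M := by
  constructor
  · intro h
    have h' := mem_PmGamma1_iff_upperLeft.mp h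
    obtain ⟨h0, h1⟩ := mem_PmGamma1.mp h
    rcases h1 with h1 | h1
    · left
      rw [Gamma1_mem]
      refine ⟨?_, h1, h0⟩
      have hmul := upperLeft_mul_lowerRight_of_mem h'.1
      rwa [h1, mul_one] at hmul
    · right
      rw [Gamma1_mem]
      have hmul := upperLeft_mul_lowerRight_of_mem h'.1
      rw [h1, mul_neg, mul_one, neg_eq_iff_eq_neg] at hmul
      refine ⟨?_, ?_, ?_⟩
      · simp [hmul]
      · simp [h1]
      · simp [h0]
  · rintro (h | h)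
    · exact Gamma1_le_PmGamma1 M h
    · have := mul_mem (neg_one_mem_PmGamma1 M) (Gamma1_le_PmGamma1 M h)
      simpa using this

/-- explicit form of `mem_PmGamma1_iff` (the `hΓ` of `isSepVar_K1Bar`) -/
theorem mem_PmGamma1_iff' (M : ℕ) (γ : SL(2, ℤ)) :
    γ ∈ PmGamma1 M ↔ γ ∈ Gamma1 M ∨ -γ ∈ Gamma1 M := mem_PmGamma1_iff

instance instFiniteIndexPmGamma1 [NeZero M] : (PmGamma1 M).FiniteIndex :=
  Subgroup.finiteIndex_of_le (Gamma_le_PmGamma1 M)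

theorem index_PmGamma1' [NeZero M] : (PmGamma1' M).index = (pmOne M).index :=
  Subgroup.index_comap_of_surjective _ (lowerRightUnit_surjective M)

/-- **the index of `±Γ₁(M)`**: `2 · [SL(2,ℤ) : ±Γ₁(M)] = ψ(M) φ(M)` for `M ≥ 3`. -/
theorem two_mul_index_PmGamma1 [NeZero M] (hM : 3 ≤ M) :
    2 * (PmGamma1 M).index = dedekindPsi M * Nat.totient M := by
  have h1 : (PmGamma1 M).index = (PmGamma1' M).index * (Gamma0 M).index :=
    Subgroup.index_map_subtype _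
  have h2 : (Gamma0 M).index = dedekindPsi M := by
    rw [Subgroup.index, Fermat.Agent.X0.card_cosets]
  have h3 : (pmOne M).index * Nat.card (pmOne M) = Nat.card (ZMod M)ˣ :=
    Subgroup.index_mul_card _
  rw [card_pmOne hM, Nat.card_eq_fintype_card, ZMod.card_units_eq_totient] at h3
  rw [h1, index_PmGamma1', h2, ← h3]
  ring

theorem two_mul_card_cosets_PmGamma1 [NeZero M] (hM : 3 ≤ M) :
    2 * Nat.card (SL(2, ℤ) ⧸ PmGamma1 M) = dedekindPsi M * Nat.totient M :=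
  two_mul_index_PmGamma1 hM

/-- `d₁(M) = ψ(M) φ(M) / 2 = [SL(2,ℤ) : ±Γ₁(M)]` (`M ≥ 3`): the degree of `K1 M` over `ℚ(j)`. -/
noncomputable def dOne (M : ℕ) : ℕ := dedekindPsi M * Nat.totient M / 2

theorem card_cosets_PmGamma1 [NeZero M] (hM : 3 ≤ M) :
    Nat.card (SL(2, ℤ) ⧸ PmGamma1 M) = dOne M := by
  have h := two_mul_card_cosets_PmGamma1 hM
  unfold dOne
  omega

theorem index_PmGamma1 [NeZero M] (hM : 3 ≤ M) : (PmGamma1 M).index = dOne M :=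
  card_cosets_PmGamma1 hM

/-- the index of `±Γ₁(M) ∩ Γ₀(p)` is at most `ψ(p) · [SL(2,ℤ) : ±Γ₁(M)]` -/
theorem card_cosets_inf_Gamma0_le (M p : ℕ) [NeZero p] :
    Nat.card (SL(2, ℤ) ⧸ (PmGamma1 M ⊓ Gamma0 p : Subgroup SL(2, ℤ))) ≤
      dedekindPsi p * Nat.card (SL(2, ℤ) ⧸ PmGamma1 M) := by
  have h := Subgroup.index_inf_le (H := PmGamma1 M) (K := Gamma0 p)
  have h2 : (Gamma0 p).index = dedekindPsi p := by
    rw [Subgroup.index, Fermat.Agent.X0.card_cosets]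
  rw [h2, mul_comm] at h
  exact h

instance instFiniteIndexPmGamma1Inf [NeZero M] (p : ℕ) [NeZero p] :
    (PmGamma1 M ⊓ Gamma0 p : Subgroup SL(2, ℤ)).FiniteIndex := inferInstance

/-- `[Γ₀(M) : ±Γ₁(M)] · 2 = φ(M)` -/
theorem two_mul_relIndex_PmGamma1 [NeZero M] (hM : 3 ≤ M) :
    2 * (PmGamma1 M).relIndex (Gamma0 M) = Nat.totient M := by
  have h3 : (pmOne M).index * Nat.card (pmOne M) = Nat.card (ZMod M)ˣ :=
    Subgroup.index_mul_card _
  rw [card_pmOne hM, Nat.card_eq_fintype_card, ZMod.card_units_eq_totient] at h3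
  have h4 : (PmGamma1 M).relIndex (Gamma0 M) = (PmGamma1' M).index := by
    unfold PmGamma1 Subgroup.relIndex
    congr 1
    ext x
    simp [Subgroup.mem_subgroupOf]
  rw [h4, index_PmGamma1', ← h3]
  ring

end Fermat.Agent.DS.X1
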