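/-
PROGRAMME III (S48, Deligne–Serre), X1-PORT, leaf AN-5 INSTANCE (helper15; board #2029):
the named inputs `LevDegreeInputs M p d` of `LevDegree.lean` are discharged from

* helper22's `LevReal.lean` / `LevRealBar.lean` (`hS`, `hRF`, `xR`, `hb`),
* helper23's `K1Inst.lean` (generic `hfrac`, `isSepVar_K1Bar_of`),
* helper6's `PmGamma1.lean` (the group `±Γ₁(M)`, its intersection with `Γ₀(p)` and the index bound),
* `K1Lev_eq_adjoin_gensLev` below (AN-5b (iii)),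

* helper11's `DescDep.lean` (AN-5b (iv), generic descent of linear dependence: `levDescent`),

leaving exactly ONE named input: the analytic data `WeberCuspData M` (AN-1b).  `SpanUp.lean` lifts
the spanning form to `laurentBaseChange L`, any field `L ⊇ ℚ` (e.g. `ℂ`).
-/
import Fermat.Agent.DS.X1.LevDegree
import Fermat.Agent.DS.X1.LevRealBar
import Fermat.Agent.DS.X1.K1Inst
import Fermat.Agent.DS.X1.PmGamma1
import Fermat.Agent.DS.X1.DescDep
import Fermat.Agent.DS.X1.SpanUp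

set_option autoImplicit false

noncomputable section

namespace Fermat.Agent.DS.X1

open UpperHalfPlane ModularCurve IntermediateField CongruenceSubgroup Fermat.Agent.X0
open scoped MatrixGroups

local notation "Δ" => ModularForm.discriminant

variable (M p : ℕ) [NeZero M] [NeZero p]

/-! ### AN-5b (iii): `K1Lev M p = ℚ(gensLev M p)` -/

/-- `q ↦ q^p` maps `ℚ(S)` into `ℚ(T)` as soon as it maps `S` into `ℚ(T)`. -/
theorem qExpand_mem_adjoin_of_mem_adjoin {S T : Set (LaurentSeries ℚ)}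
    (hST : ∀ s ∈ S, qExpand ℚ p s ∈ IntermediateField.adjoin ℚ T) {x : LaurentSeries ℚ}
    (hx : x ∈ IntermediateField.adjoin ℚ S) : qExpand ℚ p x ∈ IntermediateField.adjoin ℚ T := by
  induction hx using IntermediateField.adjoin_induction with
  | mem x hx => exact hST x hx
  | algebraMap c =>
    have : qExpand ℚ p (algebraMap ℚ (LaurentSeries ℚ) c) = algebraMap ℚ (LaurentSeries ℚ) c := by
      rw [algebraMap_laurentSeries_eq_single, qExpand_single, mul_zero]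
    rw [this]
    exact IntermediateField.algebraMap_mem _ c
  | add x y _ _ hx hy => rw [map_add]; exact add_mem hx hy
  | inv x _ hx => rw [map_inv₀]; exact inv_mem hx
  | mul x y _ _ hx hy => rw [map_mul]; exact mul_mem hx hy

/-- **AN-5b (iii)**: the level `(M; p)` field is generated over `ℚ` by `gensLev M p`. -/
theorem K1Lev_eq_adjoin_gensLev :
    K1Lev M p = IntermediateField.adjoin ℚ (gensLev M p) := by
  apply le_antisymm
  · refine IntermediateField.adjoin_le_iff.mpr ?_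
    rintro x ((hx | hx) | ⟨y, hy, rfl⟩)
    · exact IntermediateField.subset_adjoin ℚ _ (Or.inr hx)
    · exact IntermediateField.adjoin.mono ℚ _ _ (fun s hs => Or.inl (Or.inl hs)) hx
    · exact qExpand_mem_adjoin_of_mem_adjoin p
        (fun s hs => IntermediateField.subset_adjoin ℚ _ (Or.inl (Or.inr ⟨s, hs, rfl⟩))) hy
  · exact IntermediateField.adjoin_le_iff.mpr gensLev_subset_K1Lev

/-- **`hfrac` for `K1LevBar M p`** (AN-5b (ii)). -/
theorem hfrac_K1LevBar (f : K1LevBar M p) : ∃ g h : RLevBar M p, h ≠ 0 ∧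
    (f : LaurentSeries Kb) * (h : LaurentSeries Kb) = g := by
  have hf : (f : LaurentSeries Kb) ∈
      laurentBaseChange Kb (IntermediateField.adjoin ℚ (gensLev M p)) := by
    rw [← K1Lev_eq_adjoin_gensLev]
    exact f.2
  exact exists_div_of_mem_laurentBaseChange_adjoin Kb (gensLev M p) ⟨f, hf⟩

/-! ### the group `±Γ₁(M) ⊓ Γ₀(p)` -/

variable {M p}

theorem mem_pm_of_mem_PmGamma1_inf_Gamma0 {γ : SL(2, ℤ)}
    (hγ : γ ∈ (PmGamma1 M ⊓ Gamma0 p : Subgroup SL(2, ℤ))) :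
    γ ∈ Gamma1 M ⊓ Gamma0 p ∨ -γ ∈ Gamma1 M ⊓ Gamma0 p := by
  obtain ⟨h1, h0⟩ := Subgroup.mem_inf.mp hγ
  rcases mem_PmGamma1_iff.mp h1 with h | h
  · exact Or.inl (Subgroup.mem_inf.mpr ⟨h, h0⟩)
  · exact Or.inr (Subgroup.mem_inf.mpr ⟨h, neg_mem_Gamma0_iff.mpr h0⟩)

theorem mem_PmGamma1_inf_Gamma0_iff (γ : SL(2, ℤ)) :
    γ ∈ (PmGamma1 M ⊓ Gamma0 p : Subgroup SL(2, ℤ)) ↔
      γ ∈ Gamma1 M ⊓ Gamma0 p ∨ -γ ∈ Gamma1 M ⊓ Gamma0 p := by
  refine ⟨mem_pm_of_mem_PmGamma1_inf_Gamma0, ?_⟩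
  rintro (h | h)
  · obtain ⟨h1, h0⟩ := Subgroup.mem_inf.mp h
    exact Subgroup.mem_inf.mpr ⟨mem_PmGamma1_iff.mpr (Or.inl h1), h0⟩
  · obtain ⟨h1, h0⟩ := Subgroup.mem_inf.mp h
    exact Subgroup.mem_inf.mpr ⟨mem_PmGamma1_iff.mpr (Or.inr h1), neg_mem_Gamma0_iff.mp h0⟩

theorem dedekindPsi_of_prime (hp : p.Prime) : dedekindPsi p = p + 1 := by
  have h := Fermat.Agent.X0.Count.dedekindPsi_prime_pow hp (k := 1) Nat.one_pos
  simpa using h

/-- the index of `±Γ₁(M) ⊓ Γ₀(p)` is at most `(p + 1) [SL(2,ℤ) : ±Γ₁(M)]`. -/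
theorem card_cosets_PmGamma1_inf_Gamma0_le (hp : p.Prime) :
    Nat.card (SL(2, ℤ) ⧸ (PmGamma1 M ⊓ Gamma0 p : Subgroup SL(2, ℤ))) ≤
      (p + 1) * Nat.card (SL(2, ℤ) ⧸ PmGamma1 M) := by
  have h := card_cosets_inf_Gamma0_le M p
  rwa [dedekindPsi_of_prime hp] at h

/-! ### the instance -/

/-- the Σ-form of the descent of linear dependence from `ℚ̄((q))` to `ℚ((q))` for
`K1 M ≤ K1Lev M p` (AN-5b (iv)), as a named proposition. -/
def LevDescent (M p : ℕ) [NeZero M] [NeZero p] : Prop :=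
  ∀ (n : ℕ) (y : Fin n → LaurentSeries ℚ), (∀ i, y i ∈ K1Lev M p) →
    (∀ c : Fin n → LaurentSeries ℚ, (∀ i, c i ∈ K1 M) → ∑ i, c i * y i = 0 → ∀ i, c i = 0) →
    ∀ c : Fin n → LaurentSeries Kb, (∀ i, c i ∈ K1Bar M) →
      ∑ i, c i * coeffEmb Kb (y i) = 0 → ∀ i, c i = 0

/-- **The inputs of AN-5 over `ℚ̄` from `WeberCuspData M` alone.** -/
def levDegreeBarInputs (D : WeberCuspData M) (hM : 2 ≤ M) (hp : p.Prime) (hpM : p.Coprime M) :
    LevDegreeBarInputs M p (Nat.card (SL(2, ℤ) ⧸ PmGamma1 M)) where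
  Γ' := PmGamma1 M ⊓ Gamma0 p
  fin := instFiniteIndexPmGamma1Inf p
  S' := gensLevBar M p
  hS := hasReal_gensLevBar D.toWeberAnData hpM fun _ => mem_pm_of_mem_PmGamma1_inf_Gamma0
  hRF := RLevBar_le_K1LevBar
  hfrac := hfrac_K1LevBar M p
  xR := jRLev M p
  hxq := rfl
  hb := PsiGen_RLevBar_cusp_bound D hpM fun _ => mem_pm_of_mem_PmGamma1_inf_Gamma0
  hidx := card_cosets_PmGamma1_inf_Gamma0_le hp
  xM := jBar1 M
  hxM := rfl
  hsepM := isSepVar_K1Bar_of D hM (mem_PmGamma1_iff' M)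

/-- **The inputs of AN-5 from `WeberCuspData M` and the descent `LevDescent M p`.** -/
def levDegreeInputs (D : WeberCuspData M) (hM : 2 ≤ M) (hp : p.Prime) (hpM : p.Coprime M)
    (hdesc : LevDescent M p) :
    LevDegreeInputs M p (Nat.card (SL(2, ℤ) ⧸ PmGamma1 M)) where
  toLevDegreeBarInputs := levDegreeBarInputs D hM hp hpM
  hdesc := hdesc

/-- **AN-5 over `ℚ̄`**: `[K1LevBar M p : K1Bar M] ≤ p + 1`, from AN-1b alone. -/
theorem relrank_K1Bar_K1LevBar_le (D : WeberCuspData M) (hM : 2 ≤ M) (hp : p.Prime)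
    (hpM : p.Coprime M) :
    relrank (K1Bar M) (K1LevBar M p) ≤ ((p + 1 : ℕ) : Cardinal) :=
  (levDegreeBarInputs D hM hp hpM).relrank_bar_le

/-- **AN-5**: `[K1Lev M p : K1 M] ≤ p + 1` (for the algebra structure `alphaOne`), from AN-1b and
the descent (iv). -/
theorem finrank_K1Lev_le_of (D : WeberCuspData M) (hM : 2 ≤ M) (hp : p.Prime)
    (hpM : p.Coprime M) (hdesc : LevDescent M p) :
    letI : Algebra (K1 M) (K1Lev M p) := (alphaOne M p).toAlgebra
    FiniteDimensional (K1 M) (K1Lev M p) ∧ Module.finrank (K1 M) (K1Lev M p) ≤ p + 1 :=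
  (levDegreeInputs D hM hp hpM hdesc).finrank_K1Lev_le

/-- **AN-5, spanning form** (IRR-3's `hdeg`), from AN-1b and the descent (iv). -/
theorem exists_spanning_of (D : WeberCuspData M) (hM : 2 ≤ M) (hp : p.Prime)
    (hpM : p.Coprime M) (hdesc : LevDescent M p) :
    ∃ b : Fin (p + 1) → LaurentSeries ℚ, (∀ i, b i ∈ K1Lev M p) ∧
      ∀ y ∈ K1Lev M p, ∃ c : Fin (p + 1) → LaurentSeries ℚ,
        (∀ i, c i ∈ K1 M) ∧ y = ∑ i, c i * b i :=
  (levDegreeInputs D hM hp hpM hdesc).exists_spanning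

/-! ### the descent is a theorem: AN-5 from `WeberCuspData M` ALONE -/

/-- **AN-5b (iv)** for `K1 M ≤ K1Lev M p`. -/
theorem levDescent (M p : ℕ) [NeZero M] [NeZero p] : LevDescent M p :=
  fun _ y _ hind c hc hsum => eq_zero_of_sum_mul_coeffEmb (K1 M) y hind c hc hsum

/-- **AN-5**: `[K1Lev M p : K1 M] ≤ p + 1` (algebra structure `alphaOne`), from AN-1b alone. -/
theorem finrank_K1Lev_le_of_weber (D : WeberCuspData M) (hM : 2 ≤ M) (hp : p.Prime)
    (hpM : p.Coprime M) :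
    letI : Algebra (K1 M) (K1Lev M p) := (alphaOne M p).toAlgebra
    FiniteDimensional (K1 M) (K1Lev M p) ∧ Module.finrank (K1 M) (K1Lev M p) ≤ p + 1 :=
  finrank_K1Lev_le_of D hM hp hpM (levDescent M p)

/-- **AN-5, spanning form** (IRR-3's `hdeg`), from AN-1b alone. -/
theorem exists_spanning_of_weber (D : WeberCuspData M) (hM : 2 ≤ M) (hp : p.Prime)
    (hpM : p.Coprime M) :
    ∃ b : Fin (p + 1) → LaurentSeries ℚ, (∀ i, b i ∈ K1Lev M p) ∧
      ∀ y ∈ K1Lev M p, ∃ c : Fin (p + 1) → LaurentSeries ℚ,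
        (∀ i, c i ∈ K1 M) ∧ y = ∑ i, c i * b i :=
  exists_spanning_of D hM hp hpM (levDescent M p)

/-- **AN-5, spanning form over any field `L ⊇ ℚ`** (e.g. `L = ℂ`): `laurentBaseChange L (K1Lev M p)`
is spanned over `laurentBaseChange L (K1 M)` by `p + 1` elements `coeffEmb L (b i)`, `b i ∈ K1Lev M p`. -/
theorem exists_spanning_baseChange_of_weber (L : Type*) [Field L] [Algebra ℚ L]
    (D : WeberCuspData M) (hM : 2 ≤ M) (hp : p.Prime) (hpM : p.Coprime M) :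
    ∃ b : Fin (p + 1) → LaurentSeries ℚ, (∀ i, b i ∈ K1Lev M p) ∧
      ∀ z ∈ laurentBaseChange L (K1Lev M p), ∃ c : Fin (p + 1) → LaurentSeries L,
        (∀ i, c i ∈ laurentBaseChange L (K1 M)) ∧ z = ∑ i, c i * coeffEmb L (b i) := by
  obtain ⟨b, hb, hspan⟩ := exists_spanning_of_weber D hM hp hpM
  exact ⟨b, hb, fun z hz =>
    exists_spanning_laurentBaseChange L (K1 M) (K1Lev M p) b hb hspan z hz⟩

end Fermat.Agent.DS.X1
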