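import Mathlib
import Fermat.Agent.DS.X1.Defs
import Fermat.Agent.DS.X1.DescDep
import Fermat.Agent.X0.ModDeg

/-!
# PROGRAMME III, X1-AN, leaf AN-3d: the tower `ℚ̄(j) ⊂ F̄₀(M) ⊂ K1Bar M` and its descent to `ℚ`

* (i) generic: a separating variable `x : ↥F` of degree `n` gives `K⟮(x : E)⟯.relfinrank F = n`;
  tower law for two function fields `F ≤ F'` with the same separating variable;
* (ii) `[K1Bar M : F̄₀(M)] · ψ(M) = d₁` from AN-3 (`IsSepVar ℚ̄ j d₁` in `K1Bar M`) and main's
  `X0.jBar_isSepVar`;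
* (iii) descent to `ℚ`: from the descent of linear dependence (leaf ALGEBRA (iv), a hypothesis in
  the elementary `Σ`-form) `[K1 M : F₀(M)] ≤ φ(M)/2`, in the `relfinrank` form and in the
  `Module.finrank ↥(restrict _) ↥(K1 M)` form consumed by the Artin step of AN-4.
-/

set_option autoImplicit false

noncomputable section

namespace Fermat.Agent.DS.X1

open ModularCurve HahnSeries IntermediateField Fermat.Agent.X0

/-! ### (i) generic -/

section Generic

variable {K E : Type*} [Field K] [Field E] [Algebra K E]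

theorem adjoin_simple_coe_le (F : IntermediateField K E) (x : F) : K⟮(x : E)⟯ ≤ F := by
  rw [adjoin_simple_le_iff]
  exact x.2

/-- `relfinrank` of a lifted pair: `[F : A]` computed inside `E`. -/
theorem relfinrank_lift_eq_finrank (F : IntermediateField K E) (A : IntermediateField K F) :
    (lift A).relfinrank F = Module.finrank A F := by
  have h := relfinrank_map_map A (⊤ : IntermediateField K F) F.val
  rw [relfinrank_top_right] at h
  rw [← h]
  congr 1
  rw [← AlgHom.fieldRange_eq_map, fieldRange_val]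

/-- **(i)** a separating variable of degree `n` of `F ⊆ E` : `[F : K(x)] = n` inside `E`. -/
theorem relfinrank_adjoin_coe_of_isSepVar (F : IntermediateField K E) (x : F) {n : ℕ}
    (h : IsSepVar K x n) : (K⟮(x : E)⟯).relfinrank F = n := by
  rw [← lift_adjoin_simple, relfinrank_lift_eq_finrank]
  exact h.finrank_eq

/-- `[E' : F]` for `F ≤ E'` in the `restrict` form. -/
theorem relfinrank_eq_finrank_restrict {F F' : IntermediateField K E} (h : F ≤ F') :
    F.relfinrank F' = Module.finrank (restrict h) F' := by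
  rw [← relfinrank_lift_eq_finrank, lift_restrict]

/-- **tower law** for two function fields `F ≤ F'` with the same separating variable. -/
theorem mul_relfinrank_of_isSepVar {F F' : IntermediateField K E} (hFF' : F ≤ F') (x : F) (x' : F')
    (hxx' : (x : E) = x') {n n' : ℕ} (h : IsSepVar K x n) (h' : IsSepVar K x' n') :
    n * F.relfinrank F' = n' := by
  have h1 := relfinrank_adjoin_coe_of_isSepVar F x h
  have h2 := relfinrank_adjoin_coe_of_isSepVar F' x' h'
  rw [← hxx'] at h2
  rw [← h1, ← h2]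
  exact relfinrank_mul_relfinrank (adjoin_simple_coe_le F x) hFF'

theorem pos_of_isSepVar {F : Type*} [Field F] [Algebra K F] {x : F} {n : ℕ} (h : IsSepVar K x n) :
    0 < n := by
  have := h.finite
  rw [← h.finrank_eq]
  exact Module.finrank_pos

/-- finiteness of the top step of the tower. -/
theorem finiteDimensional_restrict_of_isSepVar {F F' : IntermediateField K E} (hFF' : F ≤ F')
    (x : F) (x' : F') (hxx' : (x : E) = x') {n n' : ℕ} (h : IsSepVar K x n)
    (h' : IsSepVar K x' n') : FiniteDimensional (restrict hFF') F' := by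
  have hpos : 0 < F.relfinrank F' := by
    have := mul_relfinrank_of_isSepVar hFF' x x' hxx' h h'
    have hn' := pos_of_isSepVar h'
    rcases Nat.eq_zero_or_pos (F.relfinrank F') with h0 | h0
    · rw [h0, mul_zero] at this; omega
    · exact h0
  rw [relfinrank_eq_finrank_restrict hFF'] at hpos
  exact Module.finite_of_finrank_pos hpos

end Generic

/-! ### (ii) the tower `ℚ̄(j) ⊂ F̄₀(M) ⊂ K1Bar M` -/

section Bar

theorem laurentBaseChange_le_of_le (L : Type*) [Field L] [Algebra ℚ L]
    {F E : IntermediateField ℚ (LaurentSeries ℚ)} (h : F ≤ E) :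
    laurentBaseChange L F ≤ laurentBaseChange L E := by
  rw [laurentBaseChange, IntermediateField.adjoin_le_iff]
  rintro _ ⟨y, hy, rfl⟩
  exact coeffEmb_mem_laurentBaseChange L (h hy)

variable (M : ℕ) [NeZero M]

theorem modularFunctionFieldBar_le_K1Bar : modularFunctionFieldBar M ≤ K1Bar M :=
  laurentBaseChange_le_of_le _ (modularFunctionFieldFull_le_K1 M)

theorem dedekindPsi_pos' : 0 < dedekindPsi M := pos_of_isSepVar (jBar_isSepVar M)

/-- **(ii)** `[K1Bar M : F̄₀(M)] · ψ(M) = d₁`, from AN-3 (`h₁`) and main's `X0.jBar_isSepVar`. -/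
theorem relfinrank_F0Bar_K1Bar_mul (x : K1Bar M) (hx : (x : LaurentSeries Kb) = coeffEmb Kb jq)
    {d₁ : ℕ} (h₁ : IsSepVar Kb x d₁) :
    (modularFunctionFieldBar M).relfinrank (K1Bar M) * dedekindPsi M = d₁ := by
  rw [mul_comm]
  exact mul_relfinrank_of_isSepVar (modularFunctionFieldBar_le_K1Bar M) (jBar M) x
    ((coe_jBar M).trans hx.symm) (jBar_isSepVar M) h₁

/-- `K1Bar M` is finite over `F̄₀(M)`. -/
theorem finiteDimensional_F0Bar_K1Bar (x : K1Bar M) (hx : (x : LaurentSeries Kb) = coeffEmb Kb jq)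
    {d₁ : ℕ} (h₁ : IsSepVar Kb x d₁) :
    FiniteDimensional (restrict (modularFunctionFieldBar_le_K1Bar M)) (K1Bar M) :=
  finiteDimensional_restrict_of_isSepVar (modularFunctionFieldBar_le_K1Bar M) (jBar M) x
    ((coe_jBar M).trans hx.symm) (jBar_isSepVar M) h₁

/-- **(ii')** with the index `d₁ · 2 = ψ(M) φ(M)` (leaf INDEX):
`[K1Bar M : F̄₀(M)] = φ(M)/2`. -/
theorem relfinrank_F0Bar_K1Bar (x : K1Bar M) (hx : (x : LaurentSeries Kb) = coeffEmb Kb jq)
    {d₁ : ℕ} (h₁ : IsSepVar Kb x d₁) (hd : d₁ * 2 = dedekindPsi M * Nat.totient M) :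
    (modularFunctionFieldBar M).relfinrank (K1Bar M) = Nat.totient M / 2 := by
  have h := relfinrank_F0Bar_K1Bar_mul M x hx h₁
  have hpos := dedekindPsi_pos' M
  have h2 : (modularFunctionFieldBar M).relfinrank (K1Bar M) * 2 = Nat.totient M := by
    apply Nat.eq_of_mul_eq_mul_left hpos
    rw [← hd, ← h]
    ring
  rw [← h2, Nat.mul_div_cancel _ (by norm_num)]

end Bar

/-! ### (iii) descent to `ℚ` -/

section Descent

variable (L : Type*) [Field L] [Algebra ℚ L]
variable {F E : IntermediateField ℚ (LaurentSeries ℚ)}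

/-- `Σ`-form of linear independence over the subfield `restrict h` of `↥E`. -/
theorem linearIndependent_restrict_iff {K A : Type*} [Field K] [Field A] [Algebra K A]
    {F E : IntermediateField K A} (h : F ≤ E) {n : ℕ} (y : Fin n → E) :
    LinearIndependent (restrict h) y ↔
      ∀ c : Fin n → A, (∀ i, c i ∈ F) → ∑ i, c i * (y i : A) = 0 → ∀ i, c i = 0 := by
  rw [Fintype.linearIndependent_iff]
  constructor
  · intro H c hc hsum i
    have := H (fun i => ⟨⟨c i, h (hc i)⟩, (mem_restrict h _).mpr (hc i)⟩) (by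
      apply Subtype.ext
      rw [IntermediateField.coe_sum]
      simpa [Algebra.smul_def] using hsum) i
    simpa using congrArg (fun z : restrict h => ((z : E) : A)) this
  · intro H g hsum i
    have := H (fun i => ((g i : E) : A)) (fun i => (mem_restrict h _).mp (g i).2) (by
      have := congrArg (fun z : E => (z : A)) hsum
      simpa [IntermediateField.coe_sum, Algebra.smul_def] using this) i
    exact Subtype.ext (Subtype.ext this)

/-- **descent of the degree** (generic): if linear independence over `F` of elements of `E` is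
preserved by `coeffEmb L` (leaf ALGEBRA (iv)) and `Ē/F̄` is finite, then `E/F` is finite and
`[E : F] ≤ [Ē : F̄]`. -/
theorem finrank_restrict_le_of_descent (hFE : F ≤ E)
    (hdesc : ∀ (n : ℕ) (y : Fin n → LaurentSeries ℚ), (∀ i, y i ∈ E) →
      (∀ c : Fin n → LaurentSeries ℚ, (∀ i, c i ∈ F) → ∑ i, c i * y i = 0 → ∀ i, c i = 0) →
      ∀ c : Fin n → LaurentSeries L, (∀ i, c i ∈ laurentBaseChange L F) →
        ∑ i, c i * coeffEmb L (y i) = 0 → ∀ i, c i = 0)
    [FiniteDimensional (restrict (laurentBaseChange_le_of_le L hFE)) (laurentBaseChange L E)] :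
    FiniteDimensional (restrict hFE) E ∧
      Module.finrank (restrict hFE) E ≤
        Module.finrank (restrict (laurentBaseChange_le_of_le L hFE)) (laurentBaseChange L E) := by
  set N := Module.finrank (restrict (laurentBaseChange_le_of_le L hFE)) (laurentBaseChange L E)
    with hN
  -- any `n` independent elements: `n ≤ N`
  have key : ∀ (n : ℕ) (y : Fin n → E), LinearIndependent (restrict hFE) y → n ≤ N := by
    intro n y hy
    have h1 := (linearIndependent_restrict_iff hFE y).mp hy
    have h2 := hdesc n (fun i => (y i : LaurentSeries ℚ)) (fun i => (y i).2) h1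
    have h3 : LinearIndependent (restrict (laurentBaseChange_le_of_le L hFE))
        (fun i => (⟨coeffEmb L (y i : LaurentSeries ℚ),
          coeffEmb_mem_laurentBaseChange L (y i).2⟩ : laurentBaseChange L E)) :=
      (linearIndependent_restrict_iff (laurentBaseChange_le_of_le L hFE) _).mpr h2
    simpa using h3.fintype_card_le_finrank
  have hrank : Module.rank (restrict hFE) E ≤ (N : Cardinal) := by
    apply rank_le
    intro s hs
    have := key s.card (fun i => ((s.equivFin.symm i : s) : E))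
      (hs.comp _ s.equivFin.symm.injective)
    exact this
  have hfin : FiniteDimensional (restrict hFE) E := by
    have : Module.Free (restrict hFE) E := Module.Free.of_divisionRing _ _
    rw [FiniteDimensional, ← Module.rank_lt_aleph0_iff]
    exact lt_of_le_of_lt hrank (Cardinal.natCast_lt_aleph0)
  exact ⟨hfin, Module.finrank_le_of_rank_le hrank⟩

/-- the same in the `relfinrank` form. -/
theorem relfinrank_le_of_descent (hFE : F ≤ E)
    (hdesc : ∀ (n : ℕ) (y : Fin n → LaurentSeries ℚ), (∀ i, y i ∈ E) →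
      (∀ c : Fin n → LaurentSeries ℚ, (∀ i, c i ∈ F) → ∑ i, c i * y i = 0 → ∀ i, c i = 0) →
      ∀ c : Fin n → LaurentSeries L, (∀ i, c i ∈ laurentBaseChange L F) →
        ∑ i, c i * coeffEmb L (y i) = 0 → ∀ i, c i = 0)
    [FiniteDimensional (restrict (laurentBaseChange_le_of_le L hFE)) (laurentBaseChange L E)] :
    F.relfinrank E ≤ (laurentBaseChange L F).relfinrank (laurentBaseChange L E) := by
  rw [relfinrank_eq_finrank_restrict hFE,
    relfinrank_eq_finrank_restrict (laurentBaseChange_le_of_le L hFE)]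
  exact (finrank_restrict_le_of_descent L hFE hdesc).2

/-- **ALGEBRA (iv)** in the shape of the `hdesc` hypotheses (generic in `F`, `E`, `L`). -/
theorem hdesc_generic (F E : IntermediateField ℚ (LaurentSeries ℚ)) :
    ∀ (n : ℕ) (y : Fin n → LaurentSeries ℚ), (∀ i, y i ∈ E) →
      (∀ c : Fin n → LaurentSeries ℚ, (∀ i, c i ∈ F) → ∑ i, c i * y i = 0 → ∀ i, c i = 0) →
      ∀ c : Fin n → LaurentSeries L, (∀ i, c i ∈ laurentBaseChange L F) →
        ∑ i, c i * coeffEmb L (y i) = 0 → ∀ i, c i = 0 :=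
  fun _ y _ hind c hc hsum => eq_zero_of_sum_mul_coeffEmb F y hind c hc hsum

/-- **descent of the degree**, unconditional: if `Ē/F̄` is finite then `E/F` is finite and
`[E : F] ≤ [Ē : F̄]`. -/
theorem finrank_restrict_le (hFE : F ≤ E)
    [FiniteDimensional (restrict (laurentBaseChange_le_of_le L hFE)) (laurentBaseChange L E)] :
    FiniteDimensional (restrict hFE) E ∧
      Module.finrank (restrict hFE) E ≤
        Module.finrank (restrict (laurentBaseChange_le_of_le L hFE)) (laurentBaseChange L E) :=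
  finrank_restrict_le_of_descent L hFE (hdesc_generic L F E)

theorem relfinrank_le (hFE : F ≤ E)
    [FiniteDimensional (restrict (laurentBaseChange_le_of_le L hFE)) (laurentBaseChange L E)] :
    F.relfinrank E ≤ (laurentBaseChange L F).relfinrank (laurentBaseChange L E) :=
  relfinrank_le_of_descent L hFE (hdesc_generic L F E)

end Descent

/-! ### (iii) the instance: `[K1 M : F₀(M)] ≤ φ(M)/2` -/

section Inst

variable (M : ℕ) [NeZero M]

/-- **(iii)** `hdeg` (upper bound) for the Artin step of AN-4, in the literal shape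
`Module.finrank ↥(F0K M) ↥(K1 M)` with `F0K M = restrict (modularFunctionFieldFull_le_K1 M)`. -/
theorem finrank_F0_K1_le
    (hdesc : ∀ (n : ℕ) (y : Fin n → LaurentSeries ℚ), (∀ i, y i ∈ K1 M) →
      (∀ c : Fin n → LaurentSeries ℚ, (∀ i, c i ∈ modularFunctionFieldFull M) →
        ∑ i, c i * y i = 0 → ∀ i, c i = 0) →
      ∀ c : Fin n → LaurentSeries Kb, (∀ i, c i ∈ modularFunctionFieldBar M) →
        ∑ i, c i * coeffEmb Kb (y i) = 0 → ∀ i, c i = 0)
    (x : K1Bar M) (hx : (x : LaurentSeries Kb) = coeffEmb Kb jq)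
    {d₁ : ℕ} (h₁ : IsSepVar Kb x d₁) (hd : d₁ * 2 = dedekindPsi M * Nat.totient M) :
    FiniteDimensional (restrict (modularFunctionFieldFull_le_K1 M)) (K1 M) ∧
      Module.finrank (restrict (modularFunctionFieldFull_le_K1 M)) (K1 M) ≤ Nat.totient M / 2 := by
  have : FiniteDimensional
      (restrict (laurentBaseChange_le_of_le Kb (modularFunctionFieldFull_le_K1 M)))
      (laurentBaseChange Kb (K1 M)) := finiteDimensional_F0Bar_K1Bar M x hx h₁
  have h := finrank_restrict_le_of_descent Kb (modularFunctionFieldFull_le_K1 M) hdesc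
  refine ⟨h.1, h.2.trans (le_of_eq ?_)⟩
  rw [← relfinrank_eq_finrank_restrict]
  exact relfinrank_F0Bar_K1Bar M x hx h₁ hd

/-- **(iii)** in the `relfinrank` form. -/
theorem relfinrank_F0_K1_le
    (hdesc : ∀ (n : ℕ) (y : Fin n → LaurentSeries ℚ), (∀ i, y i ∈ K1 M) →
      (∀ c : Fin n → LaurentSeries ℚ, (∀ i, c i ∈ modularFunctionFieldFull M) →
        ∑ i, c i * y i = 0 → ∀ i, c i = 0) →
      ∀ c : Fin n → LaurentSeries Kb, (∀ i, c i ∈ modularFunctionFieldBar M) →
        ∑ i, c i * coeffEmb Kb (y i) = 0 → ∀ i, c i = 0)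
    (x : K1Bar M) (hx : (x : LaurentSeries Kb) = coeffEmb Kb jq)
    {d₁ : ℕ} (h₁ : IsSepVar Kb x d₁) (hd : d₁ * 2 = dedekindPsi M * Nat.totient M) :
    (modularFunctionFieldFull M).relfinrank (K1 M) ≤ Nat.totient M / 2 := by
  rw [relfinrank_eq_finrank_restrict (modularFunctionFieldFull_le_K1 M)]
  exact (finrank_F0_K1_le M hdesc x hx h₁ hd).2

/-- for `3 ≤ M` the index `d₁ = ψ(M) φ(M) / 2` (the shape `dOne M` of leaf INDEX) satisfies
`d₁ · 2 = ψ(M) φ(M)`. -/
theorem dedekindPsi_mul_totient_div_two_mul_two (hM : 3 ≤ M) :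
    dedekindPsi M * Nat.totient M / 2 * 2 = dedekindPsi M * Nat.totient M := by
  have he : Even (Nat.totient M) := Nat.totient_even (by omega)
  obtain ⟨k, hk⟩ := he
  rw [hk, ← two_mul, ← mul_assoc, mul_comm (dedekindPsi M) 2, mul_assoc,
    Nat.mul_div_cancel_left _ (by norm_num : 0 < 2)]
  ring

/-- **(ii')** for `d₁ = ψ(M) φ(M) / 2`, `3 ≤ M`. -/
theorem relfinrank_F0Bar_K1Bar_of_three_le (hM : 3 ≤ M) (x : K1Bar M)
    (hx : (x : LaurentSeries Kb) = coeffEmb Kb jq)
    (h₁ : IsSepVar Kb x (dedekindPsi M * Nat.totient M / 2)) :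
    (modularFunctionFieldBar M).relfinrank (K1Bar M) = Nat.totient M / 2 :=
  relfinrank_F0Bar_K1Bar M x hx h₁ (dedekindPsi_mul_totient_div_two_mul_two M hM)

/-- **(iii)** for `d₁ = ψ(M) φ(M) / 2`, `3 ≤ M`. -/
theorem finrank_F0_K1_le_of_three_le (hM : 3 ≤ M)
    (hdesc : ∀ (n : ℕ) (y : Fin n → LaurentSeries ℚ), (∀ i, y i ∈ K1 M) →
      (∀ c : Fin n → LaurentSeries ℚ, (∀ i, c i ∈ modularFunctionFieldFull M) →
        ∑ i, c i * y i = 0 → ∀ i, c i = 0) →
      ∀ c : Fin n → LaurentSeries Kb, (∀ i, c i ∈ modularFunctionFieldBar M) →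
        ∑ i, c i * coeffEmb Kb (y i) = 0 → ∀ i, c i = 0)
    (x : K1Bar M) (hx : (x : LaurentSeries Kb) = coeffEmb Kb jq)
    (h₁ : IsSepVar Kb x (dedekindPsi M * Nat.totient M / 2)) :
    FiniteDimensional (restrict (modularFunctionFieldFull_le_K1 M)) (K1 M) ∧
      Module.finrank (restrict (modularFunctionFieldFull_le_K1 M)) (K1 M) ≤ Nat.totient M / 2 :=
  finrank_F0_K1_le M hdesc x hx h₁ (dedekindPsi_mul_totient_div_two_mul_two M hM)

/-- **(iii), unconditional in the algebra**: `[K1 M : F₀(M)] ≤ φ(M)/2` from AN-3 (`h₁`) and the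
index (`hd`) alone. -/
theorem finrank_F0_K1_le' (x : K1Bar M) (hx : (x : LaurentSeries Kb) = coeffEmb Kb jq)
    {d₁ : ℕ} (h₁ : IsSepVar Kb x d₁) (hd : d₁ * 2 = dedekindPsi M * Nat.totient M) :
    FiniteDimensional (restrict (modularFunctionFieldFull_le_K1 M)) (K1 M) ∧
      Module.finrank (restrict (modularFunctionFieldFull_le_K1 M)) (K1 M) ≤ Nat.totient M / 2 :=
  finrank_F0_K1_le M (hdesc_generic Kb _ _) x hx h₁ hd

theorem relfinrank_F0_K1_le' (x : K1Bar M) (hx : (x : LaurentSeries Kb) = coeffEmb Kb jq)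
    {d₁ : ℕ} (h₁ : IsSepVar Kb x d₁) (hd : d₁ * 2 = dedekindPsi M * Nat.totient M) :
    (modularFunctionFieldFull M).relfinrank (K1 M) ≤ Nat.totient M / 2 :=
  relfinrank_F0_K1_le M (hdesc_generic Kb _ _) x hx h₁ hd

theorem finrank_F0_K1_le_of_three_le' (hM : 3 ≤ M) (x : K1Bar M)
    (hx : (x : LaurentSeries Kb) = coeffEmb Kb jq)
    (h₁ : IsSepVar Kb x (dedekindPsi M * Nat.totient M / 2)) :
    FiniteDimensional (restrict (modularFunctionFieldFull_le_K1 M)) (K1 M) ∧
      Module.finrank (restrict (modularFunctionFieldFull_le_K1 M)) (K1 M) ≤ Nat.totient M / 2 :=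
  finrank_F0_K1_le_of_three_le M hM (hdesc_generic Kb _ _) x hx h₁

/-- `hdesc` of the AN-5 assembly (`LevDegreeInputs.hdesc`), verbatim. -/
theorem hdesc_K1_K1Lev (p : ℕ) [NeZero p] :
    ∀ (n : ℕ) (y : Fin n → LaurentSeries ℚ), (∀ i, y i ∈ K1Lev M p) →
      (∀ c : Fin n → LaurentSeries ℚ, (∀ i, c i ∈ K1 M) → ∑ i, c i * y i = 0 → ∀ i, c i = 0) →
      ∀ c : Fin n → LaurentSeries Kb, (∀ i, c i ∈ K1Bar M) →
        ∑ i, c i * coeffEmb Kb (y i) = 0 → ∀ i, c i = 0 :=
  hdesc_generic Kb (K1 M) (K1Lev M p)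

end Inst

end Fermat.Agent.DS.X1
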