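import Mathlib
import Fermat.Agent.DS.X1.Tower

/-!
# PROGRAMME III, X1-IRR feed (`hdepK`): the degree of a function field over `ℚ(j)` from the degree
of its base change over `L(j)` (going down)

For `E ⊆ ℚ((q))` containing `jq` and `L ⊇ ℚ`: if `j = coeffEmb L jq` is a separating variable of
degree `d` of `laurentBaseChange L E`, then `E` is finite over `ℚ(jq)` of degree `≤ d`, in the
literal shape `ℚ⟮(⟨jq, hj⟩ : ↥E)⟯` consumed by the Hecke bridge (`exists_poly_dependent_of_finrank`).
-/

set_option autoImplicit false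

noncomputable section

namespace Fermat.Agent.DS.X1

open ModularCurve HahnSeries IntermediateField Fermat.Agent.X0

section Generic

variable {K A : Type*} [Field K] [Field A] [Algebra K A]

/-- finiteness of `F'/F` from `0 < relfinrank`. -/
theorem finiteDimensional_restrict_of_relfinrank_pos {F F' : IntermediateField K A} (h : F ≤ F')
    (hpos : 0 < F.relfinrank F') : FiniteDimensional (restrict h) F' := by
  rw [relfinrank_eq_finrank_restrict h] at hpos
  exact Module.finite_of_finrank_pos hpos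

/-- `restrict` of a simple adjoin is the simple adjoin inside. -/
theorem restrict_adjoin_simple_eq {E : IntermediateField K A} {x : A} (hx : x ∈ E)
    (h : K⟮x⟯ ≤ E) : restrict h = K⟮(⟨x, hx⟩ : E)⟯ := by
  apply lift_injective
  rw [lift_restrict, lift_adjoin_simple]

/-- the `ℚ`-algebra structure on the ambient field is irrelevant (the elaborator picks
`DivisionRing.toRatAlgebra` on `↥E` in literals like `ℚ⟮(⟨y, hy⟩ : ↥E)⟯`, generic lemmas produce the
`IntermediateField` instance). -/
theorem finrank_adjoin_simple_algebra_irrel {E₀ : Type*} [Field E₀] (a1 a2 : Algebra ℚ E₀)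
    (z : E₀) (d : ℕ)
    (h : letI := a1; FiniteDimensional ℚ⟮z⟯ E₀ ∧ Module.finrank ℚ⟮z⟯ E₀ ≤ d) :
    letI := a2; FiniteDimensional ℚ⟮z⟯ E₀ ∧ Module.finrank ℚ⟮z⟯ E₀ ≤ d := by
  obtain rfl : a1 = a2 := Subsingleton.elim _ _
  exact h

end Generic

section BaseChangeSimple

variable (L : Type*) [Field L] [Algebra ℚ L]

/-- `laurentBaseChange L ℚ(x) = L(coeffEmb L x)`. -/
theorem laurentBaseChange_adjoin_simple (x : LaurentSeries ℚ) :
    laurentBaseChange L ℚ⟮x⟯ = L⟮coeffEmb L x⟯ := by
  apply le_antisymm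
  · rw [laurentBaseChange, IntermediateField.adjoin_le_iff]
    rintro _ ⟨y, hy, rfl⟩
    induction hy using IntermediateField.adjoin_induction with
    | mem z hz =>
      rw [Set.mem_singleton_iff] at hz
      subst hz
      exact mem_adjoin_simple_self L _
    | algebraMap r =>
      have : coeffEmb L (algebraMap ℚ (LaurentSeries ℚ) r) =
          algebraMap L (LaurentSeries L) (algebraMap ℚ L r) := by
        rw [algebraMap_laurentSeries_eq_single, algebraMap_laurentSeries_eq_single, coeffEmb,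
          coeffMap_single]
      rw [this]
      exact IntermediateField.algebraMap_mem _ _
    | add a b _ _ ha hb => rw [map_add]; exact add_mem ha hb
    | inv a _ ha => rw [map_inv₀]; exact inv_mem ha
    | mul a b _ _ ha hb => rw [map_mul]; exact mul_mem ha hb
  · rw [adjoin_simple_le_iff]
    exact coeffEmb_mem_laurentBaseChange L (mem_adjoin_simple_self ℚ x)

variable {E : IntermediateField ℚ (LaurentSeries ℚ)}

/-- **going down over `ℚ(j)`**: if `coeffEmb L y` is a separating variable of degree `d` of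
`laurentBaseChange L E`, then `E` is finite of degree `≤ d` over `ℚ(y)`. -/
theorem finrank_adjoin_simple_le_of_isSepVar {y : LaurentSeries ℚ} (hy : y ∈ E)
    (x : laurentBaseChange L E) (hx : (x : LaurentSeries L) = coeffEmb L y) {d : ℕ}
    (h : IsSepVar L x d) :
    FiniteDimensional ℚ⟮(⟨y, hy⟩ : E)⟯ E ∧ Module.finrank ℚ⟮(⟨y, hy⟩ : E)⟯ E ≤ d := by
  have hFE : ℚ⟮y⟯ ≤ E := by rw [adjoin_simple_le_iff]; exact hy
  have hrel : (laurentBaseChange L ℚ⟮y⟯).relfinrank (laurentBaseChange L E) = d := by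
    rw [laurentBaseChange_adjoin_simple, ← hx]
    exact relfinrank_adjoin_coe_of_isSepVar _ x h
  have hpos : 0 < (laurentBaseChange L ℚ⟮y⟯).relfinrank (laurentBaseChange L E) := by
    rw [hrel]; exact pos_of_isSepVar h
  have : FiniteDimensional (restrict (laurentBaseChange_le_of_le L hFE))
      (laurentBaseChange L E) := finiteDimensional_restrict_of_relfinrank_pos _ hpos
  have key := finrank_restrict_le L hFE
  rw [← relfinrank_eq_finrank_restrict (laurentBaseChange_le_of_le L hFE), hrel] at key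
  rw [restrict_adjoin_simple_eq hy hFE] at key
  exact finrank_adjoin_simple_algebra_irrel _ _ _ _ key

end BaseChangeSimple

/-! ### instances: `K1 M` and `K1Lev M p` over `ℚ(jq)` -/

section Inst

variable (M : ℕ) [NeZero M]

theorem jq_mem_K1_tower : jq ∈ K1 M := by
  have h := jqd_mem_full M (one_dvd M)
  rw [qExpand_one_apply] at h
  exact modularFunctionFieldFull_le_K1 M h

/-- **`[K1 M : ℚ(jq)] ≤ d₁`** from AN-3 (`h₁`), in the literal shape of the Hecke bridge's
`exists_poly_dependent_of_finrank` (`F₀ := K1 M`, `hj := jq_mem_K1_tower M`). -/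
theorem finrank_Qj_K1_le (x : K1Bar M) (hx : (x : LaurentSeries Kb) = coeffEmb Kb jq) {d₁ : ℕ}
    (h₁ : IsSepVar Kb x d₁) :
    FiniteDimensional ℚ⟮(⟨jq, jq_mem_K1_tower M⟩ : K1 M)⟯ (K1 M) ∧
      Module.finrank ℚ⟮(⟨jq, jq_mem_K1_tower M⟩ : K1 M)⟯ (K1 M) ≤ d₁ :=
  finrank_adjoin_simple_le_of_isSepVar Kb (jq_mem_K1_tower M) x hx h₁

variable (p : ℕ) [NeZero p]

theorem jq_mem_K1Lev_tower : jq ∈ K1Lev M p := K1_le_K1Lev M p (jq_mem_K1_tower M)

/-- **`[K1Lev M p : ℚ(jq)] ≤ d`** from the level-`(M;p)` degree over `ℚ̄`. -/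
theorem finrank_Qj_K1Lev_le (x : laurentBaseChange Kb (K1Lev M p))
    (hx : (x : LaurentSeries Kb) = coeffEmb Kb jq) {d : ℕ} (h : IsSepVar Kb x d) :
    FiniteDimensional ℚ⟮(⟨jq, jq_mem_K1Lev_tower M p⟩ : K1Lev M p)⟯ (K1Lev M p) ∧
      Module.finrank ℚ⟮(⟨jq, jq_mem_K1Lev_tower M p⟩ : K1Lev M p)⟯ (K1Lev M p) ≤ d :=
  finrank_adjoin_simple_le_of_isSepVar Kb (jq_mem_K1Lev_tower M p) x hx h

end Inst

end Fermat.Agent.DS.X1
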