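import Mathlib
import Fermat.Agent.DS.X1.K1Inst
import Fermat.Agent.DS.X1.PmGamma1
import Fermat.Agent.DS.X1.Places.OfGen

/-!
# PROGRAMME III, X1-AN-3 + X1-AN-6 INSTANCE (helper6): `K1Bar M` from the analytic input ALONE

helper23's `K1Inst.lean` discharges `hfrac`, `hinj` of `isSepVar_K1Bar`; here `Γ := PmGamma1 M`
(`DS/X1/PmGamma1.lean`, index `dOne M = ψ(M) φ(M) / 2` for `3 ≤ M`) is plugged in and the
places/ramification layer (`Places/OfGen.lean`) is instantiated.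

So from `D : WeberCuspData M` (leaf AN-1b) and `3 ≤ M`:

* `isSepVar_K1Bar_dOne : IsSepVar Kb (jBar1 M) (dOne M)`, `isSepVarS_K1Bar_dOne`,
  `riemannPkg_K1Bar_of_data`;
* `modRealK1 D : Places.ModReal Kb iotaC (PmGamma1 M) M (K1Bar M)` with `j = jBar1 M`;
* `jRamData_K1Bar : Good.RamGen.JRamData Kb (jBar1 M) M` — the (RAM) input of X1-GOOD;
* the counts of the places over `0`, `1728`, `∞`.
-/

set_option autoImplicit false
set_option linter.unusedSectionVars false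

noncomputable section

namespace Fermat.Agent.DS.X1

open UpperHalfPlane ModularCurve AlgebraicCurve HahnSeries CongruenceSubgroup Fermat.Agent.X0
open Fermat.Agent.S23 Fermat.Agent.DS.X1.Places
open scoped MatrixGroups Manifold

local notation "Δ" => ModularForm.discriminant

variable {M : ℕ} [NeZero M]

theorem pm_of_mem_PmGamma1 : ∀ γ ∈ PmGamma1 M, γ ∈ Gamma1 M ∨ -γ ∈ Gamma1 M :=
  fun _ h => mem_PmGamma1_iff.mp h

/-- the realisations of the generators, for `Γ = ±Γ₁(M)` -/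
theorem hasReal_gens1Bar_pm (D : WeberAnData M) : HasReal iotaC (PmGamma1 M) (gens1Bar M) :=
  hasReal_gens1Bar D pm_of_mem_PmGamma1

theorem hdist_K1Bar (D : WeberAnData M) (hM : 2 ≤ M) (δ : SL(2, ℤ))
    (hδ : ∀ (r : R1Bar M) (z : ℍ), PsiGen (hasReal_gens1Bar_pm D) r (δ • z) =
      PsiGen (hasReal_gens1Bar_pm D) r z) : δ ∈ PmGamma1 M :=
  mem_of_PsiGen_R1Bar_fixed D hM pm_of_mem_PmGamma1 (fun _ h => mem_PmGamma1_iff.mpr h)
    weberQ_inj δ hδ

/-- **AN-3**: `[K1Bar M : ℚ̄(j)] = d₁(M) = ψ(M) φ(M) / 2`. -/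
theorem isSepVar_K1Bar_dOne (D : WeberCuspData M) (hM : 3 ≤ M) :
    IsSepVar Kb (jBar1 M) (dOne M) := by
  have h := isSepVar_K1Bar (Γ := PmGamma1 M) D (by omega) (mem_PmGamma1_iff' M) hfrac_K1Bar
    weberQ_inj
  rwa [card_cosets_PmGamma1 hM] at h

theorem isSepVarS_K1Bar_dOne (D : WeberCuspData M) (hM : 3 ≤ M) :
    Fermat.Agent.FF.IsSepVarS Kb (jBar1 M) (dOne M) := by
  have h := isSepVarS_K1Bar (Γ := PmGamma1 M) D (by omega) (mem_PmGamma1_iff' M) hfrac_K1Bar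
    weberQ_inj
  rwa [card_cosets_PmGamma1 hM] at h

/-- the Riemann package of `K1Bar M`, from the analytic input alone -/
theorem riemannPkg_K1Bar_of_data (D : WeberCuspData M) (hM : 3 ≤ M) :
    Fermat.Agent.Red.RiemannPkg (AlgebraicClosure ℚ) (K1Bar M) :=
  Fermat.Agent.FF.riemannPkg (isSepVarS_K1Bar_dOne D hM)

/-- **the realisation data of `K1Bar M`** (`Γ = ±Γ₁(M)`, width `M`). -/
def modRealK1 (D : WeberCuspData M) : ModReal Kb iotaC (PmGamma1 M) M (K1Bar M) :=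
  modRealOfGen (hasReal_gens1Bar_pm D.toWeberAnData) (K1Bar M) R1Bar_le_K1Bar M hfrac_K1Bar
    (jR1 M) rfl (PsiGen_R1Bar_cusp_bound D pm_of_mem_PmGamma1) (neg_one_mem_PmGamma1 M)
    (Gamma_le_PmGamma1 M)

theorem modRealK1_j (D : WeberCuspData M) : (modRealK1 D).j = jBar1 M := rfl

theorem thetaC_modRealK1_injective (D : WeberCuspData M) (hM : 2 ≤ M) :
    Function.Injective (thetaC (modRealK1 D)) :=
  thetaC_injective_of_gen (hasReal_gens1Bar_pm D.toWeberAnData) (K1Bar M) R1Bar_le_K1Bar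
    hfrac_K1Bar (jR1 M) rfl (PsiGen_R1Bar_cusp_bound D pm_of_mem_PmGamma1)
    (neg_one_mem_PmGamma1 M) (Gamma_le_PmGamma1 M) (hdist_K1Bar D.toWeberAnData hM)

/-- **AN-6 for `K1Bar M`: the (RAM) input of X1-GOOD.**  `j` is a separating variable; ramification
divides `3` over `0`, `2` over `1728`, is trivial over the other finite values, and divides `M`
at the poles of `j`. -/
theorem jRamData_K1Bar (D : WeberCuspData M) (hM : 2 ≤ M) :
    Good.RamGen.JRamData Kb (jBar1 M) M :=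
  jRamData_of_gen (hasReal_gens1Bar_pm D.toWeberAnData) (K1Bar M) R1Bar_le_K1Bar
    hfrac_K1Bar (jR1 M) rfl (PsiGen_R1Bar_cusp_bound D pm_of_mem_PmGamma1)
    (neg_one_mem_PmGamma1 M) (Gamma_le_PmGamma1 M) (hdist_K1Bar D.toWeberAnData hM)

/-- places of `K1Bar M` over `j = 0` ↔ orbits of `ST` on `SL(2,ℤ) ⧸ ±Γ₁(M)` -/
theorem card_placesOver_zero_K1Bar (D : WeberCuspData M) (hM : 2 ≤ M) :
    Nat.card (placesOver (jBar1 M) (0 : Kb)) =
      Nat.card (MulAction.orbitRel.Quotient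
        (Subgroup.zpowers (MulAction.toPerm (ModularGroup.S * ModularGroup.T : SL(2, ℤ)) :
          Equiv.Perm (SL(2, ℤ) ⧸ PmGamma1 M))) (SL(2, ℤ) ⧸ PmGamma1 M)) :=
  card_placesOver_zero_of_gen (hasReal_gens1Bar_pm D.toWeberAnData) (K1Bar M) R1Bar_le_K1Bar
    hfrac_K1Bar (jR1 M) rfl (PsiGen_R1Bar_cusp_bound D pm_of_mem_PmGamma1)
    (neg_one_mem_PmGamma1 M) (Gamma_le_PmGamma1 M) (hdist_K1Bar D.toWeberAnData hM)

/-- places of `K1Bar M` over `j = 1728` ↔ orbits of `S` -/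
theorem card_placesOver_1728_K1Bar (D : WeberCuspData M) (hM : 2 ≤ M) :
    Nat.card (placesOver (jBar1 M) (1728 : Kb)) =
      Nat.card (MulAction.orbitRel.Quotient
        (Subgroup.zpowers (MulAction.toPerm (ModularGroup.S : SL(2, ℤ)) :
          Equiv.Perm (SL(2, ℤ) ⧸ PmGamma1 M))) (SL(2, ℤ) ⧸ PmGamma1 M)) :=
  card_placesOver_1728_of_gen (hasReal_gens1Bar_pm D.toWeberAnData) (K1Bar M) R1Bar_le_K1Bar
    hfrac_K1Bar (jR1 M) rfl (PsiGen_R1Bar_cusp_bound D pm_of_mem_PmGamma1)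
    (neg_one_mem_PmGamma1 M) (Gamma_le_PmGamma1 M) (hdist_K1Bar D.toWeberAnData hM)

/-- the cusps of `K1Bar M` ↔ orbits of `T` -/
theorem card_placesOverInfty_K1Bar (D : WeberCuspData M) (hM : 2 ≤ M) :
    Nat.card (placesOverInfty Kb (jBar1 M)) =
      Nat.card (MulAction.orbitRel.Quotient
        (Subgroup.zpowers (MulAction.toPerm (ModularGroup.T : SL(2, ℤ)) :
          Equiv.Perm (SL(2, ℤ) ⧸ PmGamma1 M))) (SL(2, ℤ) ⧸ PmGamma1 M)) :=
  card_placesOverInfty_of_gen (hasReal_gens1Bar_pm D.toWeberAnData) (K1Bar M) R1Bar_le_K1Bar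
    hfrac_K1Bar (jR1 M) rfl (PsiGen_R1Bar_cusp_bound D pm_of_mem_PmGamma1)
    (neg_one_mem_PmGamma1 M) (Gamma_le_PmGamma1 M) (hdist_K1Bar D.toWeberAnData hM)

end Fermat.Agent.DS.X1
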