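import Mathlib
import Fermat.Agent.DS.X1.Psi1

/-!
# PROGRAMME III, X1-AN, leaf AN-4 (helper2): the diamond automorphisms of `K1 M`

On top of helper23's `Psi1.lean` (`R1 M`, `Psi1`, `diamondR`):

* `K1 M` is the fraction field of `R1 M`;
* `diamondK D γ hγ : K1 M ≃ₐ[ℚ] K1 M` for `γ ∈ Γ₀(M)`, extending `diamondR`; depends only on the
  upper-left entry of `γ` modulo `M`, up to sign; fixes `F₀(M) = modularFunctionFieldFull M`;
* `diamondQ D d`, `d : (ZMod M)ˣ`, `diamondQ d (W_a) = W_{da}`; `diamondQ d = diamondQ d' ↔ d = ± d'`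
  given the injectivity `S2` of `a ↦ weberQ M a` modulo `±`;
* Artin: given `[K1 M : F₀(M)] = φ(M)/2`, the fixed field of the diamonds is `F₀(M)`, `K1 M/F₀(M)` is
  Galois and every automorphism over `F₀(M)` is a diamond.
-/

set_option autoImplicit false

noncomputable section

namespace Fermat.Agent.DS.X1

open UpperHalfPlane ModularCurve HahnSeries CongruenceSubgroup Fermat.Agent.X0
open scoped MatrixGroups Manifold

variable {M : ℕ} [NeZero M]

/-! ### `K1 M` is the fraction field of `R1 M` -/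

open scoped IntermediateField.algebraAdjoinAdjoin in
instance instAlgebraR1K1 : Algebra ↥(R1 M) ↥(K1 M) :=
  inferInstanceAs (Algebra ↥(Algebra.adjoin ℚ (gens1 M)) ↥(IntermediateField.adjoin ℚ (gens1 M)))

instance instIsScalarTowerR1K1 : IsScalarTower ℚ ↥(R1 M) ↥(K1 M) :=
  IsScalarTower.of_algebraMap_eq fun q => Subtype.ext (by
    show ((algebraMap ℚ ↥(K1 M) q : ↥(K1 M)) : LaurentSeries ℚ) =
      ((algebraMap ℚ ↥(R1 M) q : ↥(R1 M)) : LaurentSeries ℚ)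
    simp)

open scoped IntermediateField.algebraAdjoinAdjoin in
instance instIsFractionRingR1K1 : IsFractionRing ↥(R1 M) ↥(K1 M) :=
  inferInstanceAs (IsFractionRing ↥(Algebra.adjoin ℚ (gens1 M))
    ↥(IntermediateField.adjoin ℚ (gens1 M)))

@[simp] theorem coe_algebraMap_R1_K1 (r : R1 M) :
    ((algebraMap ↥(R1 M) ↥(K1 M) r : ↥(K1 M)) : LaurentSeries ℚ) = (r : LaurentSeries ℚ) := rfl

theorem algebraMap_R1_K1_mk {x : LaurentSeries ℚ} (hx : x ∈ R1 M) :
    algebraMap ↥(R1 M) ↥(K1 M) ⟨x, hx⟩ = ⟨x, R1_le_K1 M hx⟩ := rfl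

/-! ### `diamondR` as an automorphism of `R1 M` -/

theorem diamondR_congr (D : WeberAnData M) {γ γ' : SL(2, ℤ)} (h : γ = γ') (hγ : γ ∈ Gamma0 M)
    (hγ' : γ' ∈ Gamma0 M) (r : R1 M) : diamondR D γ hγ r = diamondR D γ' hγ' r := by
  subst h
  rfl

theorem diamondR_inv_diamondR (D : WeberAnData M) (γ : SL(2, ℤ)) (hγ : γ ∈ Gamma0 M) (r : R1 M) :
    diamondR D γ⁻¹ (inv_mem hγ) (diamondR D γ hγ r) = r := by
  rw [← diamondR_mul, diamondR_congr D (mul_inv_cancel γ) _ (one_mem _), diamondR_one]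

theorem diamondR_diamondR_inv (D : WeberAnData M) (γ : SL(2, ℤ)) (hγ : γ ∈ Gamma0 M) (r : R1 M) :
    diamondR D γ hγ (diamondR D γ⁻¹ (inv_mem hγ) r) = r := by
  rw [← diamondR_mul, diamondR_congr D (inv_mul_cancel γ) _ (one_mem _), diamondR_one]

/-- `f ↦ f ∘ γ` as an automorphism of `R1 M`. -/
def diamondREquiv (D : WeberAnData M) (γ : SL(2, ℤ)) (hγ : γ ∈ Gamma0 M) : ↥(R1 M) ≃ₐ[ℚ] ↥(R1 M) :=
  AlgEquiv.ofAlgHom (diamondR D γ hγ) (diamondR D γ⁻¹ (inv_mem hγ))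
    (AlgHom.ext fun r => diamondR_diamondR_inv D γ hγ r)
    (AlgHom.ext fun r => diamondR_inv_diamondR D γ hγ r)

@[simp] theorem diamondREquiv_apply (D : WeberAnData M) (γ : SL(2, ℤ)) (hγ : γ ∈ Gamma0 M)
    (r : R1 M) : diamondREquiv D γ hγ r = diamondR D γ hγ r := rfl

/-! ### the automorphisms of `K1 M` -/

/-- **`f ↦ f ∘ γ` on `K1 M`, `γ ∈ Γ₀(M)`.** -/
def diamondK (D : WeberAnData M) (γ : SL(2, ℤ)) (hγ : γ ∈ Gamma0 M) : ↥(K1 M) ≃ₐ[ℚ] ↥(K1 M) :=
  IsFractionRing.algEquivOfAlgEquiv (diamondREquiv D γ hγ)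

theorem diamondK_algebraMap (D : WeberAnData M) (γ : SL(2, ℤ)) (hγ : γ ∈ Gamma0 M) (r : R1 M) :
    diamondK D γ hγ (algebraMap ↥(R1 M) ↥(K1 M) r) =
      algebraMap ↥(R1 M) ↥(K1 M) (diamondR D γ hγ r) := by
  rw [diamondK, IsFractionRing.algEquivOfAlgEquiv_algebraMap, diamondREquiv_apply]

/-- two `ℚ`-algebra automorphisms of `K1 M` agreeing on `R1 M` are equal. -/
theorem algEquiv_K1_ext {σ τ : ↥(K1 M) ≃ₐ[ℚ] ↥(K1 M)}
    (h : ∀ r : R1 M, σ (algebraMap ↥(R1 M) ↥(K1 M) r) = τ (algebraMap ↥(R1 M) ↥(K1 M) r)) :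
    σ = τ := by
  ext x
  obtain ⟨a, b, -, rfl⟩ := IsFractionRing.div_surjective (A := ↥(R1 M)) x
  rw [map_div₀, map_div₀, h a, h b]

theorem diamondK_mul (D : WeberAnData M) (γ γ' : SL(2, ℤ)) (hγ : γ ∈ Gamma0 M)
    (hγ' : γ' ∈ Gamma0 M) :
    diamondK D (γ * γ') (mul_mem hγ hγ') = (diamondK D γ hγ).trans (diamondK D γ' hγ') := by
  refine algEquiv_K1_ext fun r => ?_
  rw [AlgEquiv.trans_apply, diamondK_algebraMap, diamondK_algebraMap, diamondK_algebraMap,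
    diamondR_mul]

theorem diamondK_of_mem_Gamma1 (D : WeberAnData M) (γ : SL(2, ℤ)) (hγ : γ ∈ Gamma1 M) :
    diamondK D γ (Gamma1_in_Gamma0 M hγ) = AlgEquiv.refl := by
  refine algEquiv_K1_ext fun r => ?_
  rw [diamondK_algebraMap, diamondR_of_mem_Gamma1 D γ hγ, AlgEquiv.coe_refl, id]

theorem diamondK_one (D : WeberAnData M) : diamondK D 1 (one_mem _) = AlgEquiv.refl :=
  diamondK_of_mem_Gamma1 D 1 (one_mem _)

/-- `-γ` acts as `γ`. -/
theorem diamondR_neg (D : WeberAnData M) (γ : SL(2, ℤ)) (hγ : γ ∈ Gamma0 M)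
    (hγ' : -γ ∈ Gamma0 M) (r : R1 M) : diamondR D (-γ) hγ' r = diamondR D γ hγ r := by
  apply Psi1_injective D
  funext z
  rw [Psi1_diamondR, Psi1_diamondR, ModularGroup.SL_neg_smul]

omit [NeZero M] in
theorem neg_mem_Gamma0 {γ : SL(2, ℤ)} (hγ : γ ∈ Gamma0 M) : -γ ∈ Gamma0 M := by
  rw [Gamma0_mem] at hγ ⊢
  simpa using hγ

theorem diamondK_neg (D : WeberAnData M) (γ : SL(2, ℤ)) (hγ : γ ∈ Gamma0 M) :
    diamondK D (-γ) (neg_mem_Gamma0 hγ) = diamondK D γ hγ := by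
  refine algEquiv_K1_ext fun r => ?_
  rw [diamondK_algebraMap, diamondK_algebraMap, diamondR_neg D γ hγ]

theorem diamondK_weberQ (D : WeberAnData M) (γ : SL(2, ℤ)) (hγ : γ ∈ Gamma0 M) {a b : ℕ}
    (ha : 0 < a) (haM : a < M) (hb : 0 < b) (hbM : b < M)
    (hab : (b : ZMod M) = (a : ZMod M) * ((γ 0 0 : ℤ) : ZMod M)) :
    diamondK D γ hγ ⟨weberQ M a, weberQ_mem_K1 M ha haM⟩ = ⟨weberQ M b, weberQ_mem_K1 M hb hbM⟩ := by
  have h1 := diamondK_algebraMap D γ hγ ⟨weberQ M a, weberQ_mem_R1 ha haM⟩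
  rw [diamondR_weberQ D γ hγ ha haM hb hbM hab] at h1
  exact h1

theorem diamondK_jqd (D : WeberAnData M) (γ : SL(2, ℤ)) (hγ : γ ∈ Gamma0 M) {d : ℕ} [NeZero d]
    (hd : d ∣ M) :
    diamondK D γ hγ ⟨qExpand ℚ d jq, R1_le_K1 M (jqd_mem_R1 hd)⟩ =
      ⟨qExpand ℚ d jq, R1_le_K1 M (jqd_mem_R1 hd)⟩ := by
  have h1 := diamondK_algebraMap D γ hγ ⟨qExpand ℚ d jq, jqd_mem_R1 hd⟩
  rw [diamondR_jqd D γ hγ hd] at h1
  exact h1

/-! ### dependence on the upper-left entry only -/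

theorem sl_det_eq_one' (g : SL(2, ℤ)) : g 0 0 * g 1 1 - g 0 1 * g 1 0 = 1 := by
  have h := g.det_coe
  rwa [Matrix.det_fin_two] at h

/-- `γ⁻¹ γ' ∈ Γ₁(M)` if `γ, γ' ∈ Γ₀(M)` have the same upper-left entry modulo `M`. -/
theorem inv_mul_mem_Gamma1 {γ γ' : SL(2, ℤ)} (hγ : γ ∈ Gamma0 M) (hγ' : γ' ∈ Gamma0 M)
    (h : ((γ 0 0 : ℤ) : ZMod M) = ((γ' 0 0 : ℤ) : ZMod M)) : γ⁻¹ * γ' ∈ Gamma1 M := by
  have h10 : ((γ 1 0 : ℤ) : ZMod M) = 0 := Gamma0_mem.mp hγ
  have h10' : ((γ' 1 0 : ℤ) : ZMod M) = 0 := Gamma0_mem.mp hγ'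
  have hdet : ((γ 0 0 : ℤ) : ZMod M) * ((γ 1 1 : ℤ) : ZMod M) = 1 := upperLeft_mul_lowerRight hγ
  have hdet' : ((γ' 0 0 : ℤ) : ZMod M) * ((γ' 1 1 : ℤ) : ZMod M) = 1 :=
    upperLeft_mul_lowerRight hγ'
  have e00 : (γ⁻¹ * γ') 0 0 = γ 1 1 * γ' 0 0 - γ 0 1 * γ' 1 0 := by
    rw [Matrix.SpecialLinearGroup.SL2_inv_expl γ]
    simp [Matrix.SpecialLinearGroup.coe_mul, Matrix.mul_apply, Fin.sum_univ_two]
    ring
  have e10 : (γ⁻¹ * γ') 1 0 = -γ 1 0 * γ' 0 0 + γ 0 0 * γ' 1 0 := by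
    rw [Matrix.SpecialLinearGroup.SL2_inv_expl γ]
    simp [Matrix.SpecialLinearGroup.coe_mul, Matrix.mul_apply, Fin.sum_univ_two]
  have e11 : (γ⁻¹ * γ') 1 1 = -γ 1 0 * γ' 0 1 + γ 0 0 * γ' 1 1 := by
    rw [Matrix.SpecialLinearGroup.SL2_inv_expl γ]
    simp [Matrix.SpecialLinearGroup.coe_mul, Matrix.mul_apply, Fin.sum_univ_two]
  rw [Gamma1_mem]
  refine ⟨?_, ?_, ?_⟩
  · rw [e00]
    push_cast
    rw [h10', ← h]
    linear_combination hdet
  · rw [e11]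
    push_cast
    rw [h10, h]
    linear_combination hdet'
  · rw [e10]
    push_cast
    rw [h10, h10']
    ring

theorem diamondR_eq_of_upperLeft_eq (D : WeberAnData M) {γ γ' : SL(2, ℤ)} (hγ : γ ∈ Gamma0 M)
    (hγ' : γ' ∈ Gamma0 M) (h : ((γ 0 0 : ℤ) : ZMod M) = ((γ' 0 0 : ℤ) : ZMod M)) (r : R1 M) :
    diamondR D γ hγ r = diamondR D γ' hγ' r := by
  have h1 := inv_mul_mem_Gamma1 hγ hγ' h
  have h2 : diamondR D (γ * (γ⁻¹ * γ')) (mul_mem hγ (Gamma1_in_Gamma0 M h1)) r =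
      diamondR D γ' hγ' r := diamondR_congr D (mul_inv_cancel_left γ γ') _ _ r
  rw [← h2, diamondR_mul D γ (γ⁻¹ * γ') hγ (Gamma1_in_Gamma0 M h1), diamondR_of_mem_Gamma1 D _ h1]

theorem diamondK_eq_of_upperLeft_eq (D : WeberAnData M) {γ γ' : SL(2, ℤ)} (hγ : γ ∈ Gamma0 M)
    (hγ' : γ' ∈ Gamma0 M) (h : ((γ 0 0 : ℤ) : ZMod M) = ((γ' 0 0 : ℤ) : ZMod M)) :
    diamondK D γ hγ = diamondK D γ' hγ' := by
  refine algEquiv_K1_ext fun r => ?_
  rw [diamondK_algebraMap, diamondK_algebraMap, diamondR_eq_of_upperLeft_eq D hγ hγ' h]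

/-! ### the diamonds fix `F₀(M)` -/

theorem diamondK_fixes_F0 (D : WeberAnData M) (γ : SL(2, ℤ)) (hγ : γ ∈ Gamma0 M)
    (x : ↥(K1 M)) (hx : (x : LaurentSeries ℚ) ∈ modularFunctionFieldFull M) :
    diamondK D γ hγ x = x := by
  obtain ⟨x, hxK⟩ := x
  change x ∈ IntermediateField.adjoin ℚ (divisorExpansions M) at hx
  induction hx using IntermediateField.adjoin_induction with
  | mem y hy =>
    obtain ⟨d, hne, hd, rfl⟩ := hy
    exact diamondK_jqd D γ hγ hd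
  | algebraMap q =>
    have : (⟨algebraMap ℚ (LaurentSeries ℚ) q, hxK⟩ : ↥(K1 M)) = algebraMap ℚ ↥(K1 M) q :=
      Subtype.ext (by simp)
    rw [this, AlgEquiv.commutes]
  | add y z hy hz ihy ihz =>
    have hyK : y ∈ K1 M := modularFunctionFieldFull_le_K1 M hy
    have hzK : z ∈ K1 M := modularFunctionFieldFull_le_K1 M hz
    have : (⟨y + z, hxK⟩ : ↥(K1 M)) = ⟨y, hyK⟩ + ⟨z, hzK⟩ := rfl
    rw [this, map_add, ihy hyK, ihz hzK]
  | inv y hy ihy =>
    have hyK : y ∈ K1 M := modularFunctionFieldFull_le_K1 M hy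
    have : (⟨y⁻¹, hxK⟩ : ↥(K1 M)) = (⟨y, hyK⟩ : ↥(K1 M))⁻¹ := rfl
    rw [this, map_inv₀, ihy hyK]
  | mul y z hy hz ihy ihz =>
    have hyK : y ∈ K1 M := modularFunctionFieldFull_le_K1 M hy
    have hzK : z ∈ K1 M := modularFunctionFieldFull_le_K1 M hz
    have : (⟨y * z, hxK⟩ : ↥(K1 M)) = ⟨y, hyK⟩ * ⟨z, hzK⟩ := rfl
    rw [this, map_mul, ihy hyK, ihz hzK]

/-! ### the diamond operators `⟨d⟩`, `d : (ZMod M)ˣ` -/

/-- every unit class modulo `M` is the upper-left entry of some element of `Γ₀(M)`. -/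
theorem exists_Gamma0_upperLeft (d : (ZMod M)ˣ) :
    ∃ γ : SL(2, ℤ), γ ∈ Gamma0 M ∧ ((γ 0 0 : ℤ) : ZMod M) = d := by
  have hcop : IsCoprime ((d : ZMod M).val : ℤ) (M : ℤ) :=
    Nat.isCoprime_iff_coprime.mpr (ZMod.val_coe_unit_coprime d)
  obtain ⟨a, b, hab⟩ := hcop
  have hdet : (!![((d : ZMod M).val : ℤ), -b; (M : ℤ), a] : Matrix (Fin 2) (Fin 2) ℤ).det = 1 := by
    rw [Matrix.det_fin_two_of]
    linear_combination hab
  refine ⟨(⟨!![((d : ZMod M).val : ℤ), -b; (M : ℤ), a], hdet⟩ : SL(2, ℤ)), ?_, ?_⟩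
  · refine Gamma0_mem.mpr ?_
    show (((M : ℤ) : ℤ) : ZMod M) = 0
    simp
  · show ((((d : ZMod M).val : ℤ) : ℤ) : ZMod M) = d
    simp

/-- **the diamond operator `⟨d⟩`** on `K1 M`: `(⟨d⟩ f)(E, P) = f(E, dP)`, `⟨d⟩ W_a = W_{da}`. -/
def diamondQ (D : WeberAnData M) (d : (ZMod M)ˣ) : ↥(K1 M) ≃ₐ[ℚ] ↥(K1 M) :=
  diamondK D (exists_Gamma0_upperLeft d).choose (exists_Gamma0_upperLeft d).choose_spec.1

theorem diamondQ_eq_diamondK (D : WeberAnData M) (d : (ZMod M)ˣ) {γ : SL(2, ℤ)}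
    (hγ : γ ∈ Gamma0 M) (hd : ((γ 0 0 : ℤ) : ZMod M) = d) : diamondQ D d = diamondK D γ hγ :=
  diamondK_eq_of_upperLeft_eq D _ hγ
    (by rw [(exists_Gamma0_upperLeft d).choose_spec.2, hd])

theorem diamondQ_weberQ (D : WeberAnData M) (d : (ZMod M)ˣ) {a b : ℕ}
    (ha : 0 < a) (haM : a < M) (hb : 0 < b) (hbM : b < M)
    (hab : (b : ZMod M) = (a : ZMod M) * (d : ZMod M)) :
    diamondQ D d ⟨weberQ M a, weberQ_mem_K1 M ha haM⟩ = ⟨weberQ M b, weberQ_mem_K1 M hb hbM⟩ := by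
  obtain ⟨γ, hγ, hd⟩ := exists_Gamma0_upperLeft d
  rw [diamondQ_eq_diamondK D d hγ hd]
  exact diamondK_weberQ D γ hγ ha haM hb hbM (by rw [hab, hd])

theorem diamondQ_fixes_F0 (D : WeberAnData M) (d : (ZMod M)ˣ) (x : ↥(K1 M))
    (hx : (x : LaurentSeries ℚ) ∈ modularFunctionFieldFull M) : diamondQ D d x = x :=
  diamondK_fixes_F0 D _ _ x hx

omit [NeZero M] in
theorem upperLeft_mul {γ γ' : SL(2, ℤ)} (hγ' : γ' ∈ Gamma0 M) :
    (((γ * γ') 0 0 : ℤ) : ZMod M) = ((γ 0 0 : ℤ) : ZMod M) * ((γ' 0 0 : ℤ) : ZMod M) := by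
  have h10' : ((γ' 1 0 : ℤ) : ZMod M) = 0 := Gamma0_mem.mp hγ'
  have e00 : (γ * γ') 0 0 = γ 0 0 * γ' 0 0 + γ 0 1 * γ' 1 0 := by
    simp [Matrix.SpecialLinearGroup.coe_mul, Matrix.mul_apply, Fin.sum_univ_two]
  rw [e00]
  push_cast
  rw [h10']
  ring

theorem diamondQ_one (D : WeberAnData M) : diamondQ D 1 = AlgEquiv.refl := by
  rw [diamondQ_eq_diamondK D 1 (one_mem _) (by simp), diamondK_one]

theorem diamondQ_mul (D : WeberAnData M) (d d' : (ZMod M)ˣ) :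
    diamondQ D (d * d') = (diamondQ D d).trans (diamondQ D d') := by
  obtain ⟨γ, hγ, hd⟩ := exists_Gamma0_upperLeft d
  obtain ⟨γ', hγ', hd'⟩ := exists_Gamma0_upperLeft d'
  rw [diamondQ_eq_diamondK D d hγ hd, diamondQ_eq_diamondK D d' hγ' hd',
    diamondQ_eq_diamondK D (d * d') (mul_mem hγ hγ')
      (by rw [upperLeft_mul hγ', hd, hd', Units.val_mul]),
    diamondK_mul]

theorem diamondQ_neg (D : WeberAnData M) (d : (ZMod M)ˣ) : diamondQ D (-d) = diamondQ D d := by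
  obtain ⟨γ, hγ, hd⟩ := exists_Gamma0_upperLeft d
  rw [diamondQ_eq_diamondK D d hγ hd,
    diamondQ_eq_diamondK D (-d) (neg_mem_Gamma0 hγ) (by simp [hd]), diamondK_neg]

/-- the diamonds as a group homomorphism (the group `(ZMod M)ˣ` is commutative, so the order of
composition does not matter). -/
def diamondQHom (D : WeberAnData M) : (ZMod M)ˣ →* (↥(K1 M) ≃ₐ[ℚ] ↥(K1 M)) where
  toFun := diamondQ D
  map_one' := diamondQ_one D
  map_mul' d d' := by
    rw [mul_comm d d', diamondQ_mul]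
    rfl

@[simp] theorem diamondQHom_apply (D : WeberAnData M) (d : (ZMod M)ˣ) :
    diamondQHom D d = diamondQ D d := rfl

/-- `S2` (helper10): `a ↦ weberQ M a` is injective modulo `±` on `0 < a < M`. -/
def WeberInj (M : ℕ) [NeZero M] : Prop :=
  ∀ a b : ℕ, 0 < a → a < M → 0 < b → b < M → weberQ M a = weberQ M b →
    (a : ZMod M) = (b : ZMod M) ∨ (a : ZMod M) = -(b : ZMod M)

theorem diamondQ_eq_iff (D : WeberAnData M) (hinj : WeberInj M) (d d' : (ZMod M)ˣ) :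
    diamondQ D d = diamondQ D d' ↔ d = d' ∨ d = -d' := by
  constructor
  · intro h
    rcases Nat.lt_or_ge 1 M with hM | hM
    · -- apply both sides to `W_1`
      have hval : ∀ e : (ZMod M)ˣ, 0 < (e : ZMod M).val ∧ (e : ZMod M).val < M := by
        intro e
        refine ⟨?_, ZMod.val_lt _⟩
        rw [Nat.pos_iff_ne_zero, Ne, ZMod.val_eq_zero]
        have : Fact (1 < M) := ⟨hM⟩
        exact e.ne_zero
      have h1 := diamondQ_weberQ D d Nat.one_pos hM (hval d).1 (hval d).2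
        (by rw [ZMod.natCast_zmod_val, Nat.cast_one, one_mul])
      have h2 := diamondQ_weberQ D d' Nat.one_pos hM (hval d').1 (hval d').2
        (by rw [ZMod.natCast_zmod_val, Nat.cast_one, one_mul])
      rw [h, h2] at h1
      have h3 : weberQ M (d' : ZMod M).val = weberQ M (d : ZMod M).val :=
        congrArg Subtype.val h1
      rcases hinj _ _ (hval d').1 (hval d').2 (hval d).1 (hval d).2 h3 with h4 | h4
      · left
        rw [ZMod.natCast_zmod_val, ZMod.natCast_zmod_val] at h4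
        exact (Units.ext h4).symm
      · right
        rw [ZMod.natCast_zmod_val, ZMod.natCast_zmod_val] at h4
        refine Units.ext ?_
        rw [Units.val_neg, h4, neg_neg]
    · left
      have hM1 : M = 1 := le_antisymm hM (Nat.pos_of_ne_zero (NeZero.ne M))
      subst hM1
      exact Subsingleton.elim _ _
  · rintro (rfl | rfl)
    · rfl
    · exact diamondQ_neg D d'

/-! ### Artin: the fixed field of the diamonds -/

/-- `F₀(M) = modularFunctionFieldFull M` as a subfield of `K1 M`. -/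
def F0Ksub (M : ℕ) [NeZero M] : Subfield ↥(K1 M) where
  carrier := {x | (x : LaurentSeries ℚ) ∈ modularFunctionFieldFull M}
  mul_mem' ha hb := (modularFunctionFieldFull M).mul_mem ha hb
  one_mem' := (modularFunctionFieldFull M).one_mem
  add_mem' ha hb := (modularFunctionFieldFull M).add_mem ha hb
  zero_mem' := (modularFunctionFieldFull M).zero_mem
  neg_mem' ha := (modularFunctionFieldFull M).neg_mem ha
  inv_mem' _ hx := (modularFunctionFieldFull M).inv_mem hx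

/-- `F₀(M) = modularFunctionFieldFull M` as an intermediate field of `K1 M / ℚ`. -/
def F0K (M : ℕ) [NeZero M] : IntermediateField ℚ ↥(K1 M) :=
  Subfield.toIntermediateField (F0Ksub M)
    (fun q => by
      show ((algebraMap ℚ ↥(K1 M) q : ↥(K1 M)) : LaurentSeries ℚ) ∈ modularFunctionFieldFull M
      have : ((algebraMap ℚ ↥(K1 M) q : ↥(K1 M)) : LaurentSeries ℚ) =
          algebraMap ℚ (LaurentSeries ℚ) q := by simp
      rw [this]
      exact (modularFunctionFieldFull M).algebraMap_mem q)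

theorem mem_F0K (x : ↥(K1 M)) :
    x ∈ F0K M ↔ (x : LaurentSeries ℚ) ∈ modularFunctionFieldFull M :=
  Iff.rfl

/-- `F0K M ≃ modularFunctionFieldFull M` -/
def F0KEquiv (M : ℕ) [NeZero M] : ↥(F0K M) ≃+* ↥(modularFunctionFieldFull M) where
  toFun x := ⟨((x : ↥(K1 M)) : LaurentSeries ℚ), (mem_F0K x.1).mp x.2⟩
  invFun y := ⟨⟨(y : LaurentSeries ℚ), modularFunctionFieldFull_le_K1 M y.2⟩, y.2⟩
  left_inv _ := rfl
  right_inv _ := rfl
  map_mul' _ _ := rfl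
  map_add' _ _ := rfl

/-- bridge: the degree over `F0K M` is the degree over `modularFunctionFieldFull M` for ANY algebra
structure on `K1 M` whose structure map is the inclusion. -/
theorem finrank_F0K_eq [Algebra ↥(modularFunctionFieldFull M) ↥(K1 M)]
    (hmap : ∀ x : ↥(modularFunctionFieldFull M),
      ((algebraMap ↥(modularFunctionFieldFull M) ↥(K1 M) x : ↥(K1 M)) : LaurentSeries ℚ) = x) :
    Module.finrank ↥(F0K M) ↥(K1 M) =
      Module.finrank ↥(modularFunctionFieldFull M) ↥(K1 M) := by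
  refine Algebra.finrank_eq_of_equiv_equiv (F0KEquiv M) (RingEquiv.refl ↥(K1 M)) ?_
  refine RingHom.ext fun x => Subtype.ext ?_
  show ((algebraMap ↥(modularFunctionFieldFull M) ↥(K1 M) (F0KEquiv M x) : ↥(K1 M)) :
    LaurentSeries ℚ) = ((algebraMap ↥(F0K M) ↥(K1 M) x : ↥(K1 M)) : LaurentSeries ℚ)
  rw [hmap]
  rfl

/-- the group of diamond automorphisms of `K1 M`. -/
def diamondGroup (D : WeberAnData M) : Subgroup (↥(K1 M) ≃ₐ[ℚ] ↥(K1 M)) :=
  (diamondQHom D).range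

theorem mem_diamondGroup (D : WeberAnData M) (σ : ↥(K1 M) ≃ₐ[ℚ] ↥(K1 M)) :
    σ ∈ diamondGroup D ↔ ∃ d : (ZMod M)ˣ, diamondQ D d = σ := Iff.rfl

instance finite_diamondGroup (D : WeberAnData M) : Finite (diamondGroup D) :=
  Finite.of_surjective (diamondQHom D).rangeRestrict (diamondQHom D).rangeRestrict_surjective

theorem F0K_le_fixedField (D : WeberAnData M) :
    F0K M ≤ IntermediateField.fixedField (diamondGroup D) := by
  intro x hx
  rw [IntermediateField.mem_fixedField_iff]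
  rintro σ ⟨d, rfl⟩
  exact diamondQ_fixes_F0 D d x ((mem_F0K x).mp hx)

/-- `[K1 M : (K1 M)^{diamonds}] = #diamonds`. -/
theorem finrank_fixedField_diamondGroup (D : WeberAnData M) :
    Module.finrank ↥(IntermediateField.fixedField (diamondGroup D)) ↥(K1 M) =
      Nat.card (diamondGroup D) := by
  have := Fintype.ofFinite (diamondGroup D)
  rw [Nat.card_eq_fintype_card]
  exact FixedPoints.finrank_eq_card (diamondGroup D) ↥(K1 M)

theorem ker_diamondQHom (D : WeberAnData M) (hinj : WeberInj M) :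
    ((diamondQHom D).ker : Set (ZMod M)ˣ) = {1, -1} := by
  ext d
  simp only [SetLike.mem_coe, MonoidHom.mem_ker, diamondQHom_apply, Set.mem_insert_iff,
    Set.mem_singleton_iff]
  rw [show (1 : ↥(K1 M) ≃ₐ[ℚ] ↥(K1 M)) = diamondQ D 1 from (diamondQ_one D).symm,
    diamondQ_eq_iff D hinj]

omit [NeZero M] in
theorem one_ne_neg_one_units (hM : 3 ≤ M) : (1 : (ZMod M)ˣ) ≠ -1 := by
  intro h
  have h1 : ((1 : (ZMod M)ˣ) : ZMod M) = ((-1 : (ZMod M)ˣ) : ZMod M) := congrArg Units.val h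
  rw [Units.val_one, Units.val_neg, Units.val_one] at h1
  have h2 : (2 : ZMod M) = 0 := by linear_combination h1
  have h3 : ((2 : ℕ) : ZMod M) = 0 := by exact_mod_cast h2
  rw [ZMod.natCast_eq_zero_iff] at h3
  have := Nat.le_of_dvd (by norm_num) h3
  omega

/-- `#diamonds = φ(M)/2` for `M ≥ 3`. -/
theorem card_diamondGroup (D : WeberAnData M) (hinj : WeberInj M) (hM : 3 ≤ M) :
    Nat.card (diamondGroup D) = Nat.totient M / 2 := by
  have h1 : Nat.card (diamondQHom D).ker = 2 := by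
    show Nat.card ((diamondQHom D).ker : Set (ZMod M)ˣ) = 2
    rw [Nat.card_coe_set_eq, ker_diamondQHom D hinj, Set.ncard_pair (one_ne_neg_one_units hM)]
  have h2 : (diamondQHom D).ker.index = Nat.card (diamondGroup D) :=
    Subgroup.index_ker (diamondQHom D)
  have h3 := Subgroup.card_mul_index (diamondQHom D).ker
  rw [h1, h2, Nat.card_eq_fintype_card (α := (ZMod M)ˣ), ZMod.card_units_eq_totient] at h3
  omega

section artin

variable (D : WeberAnData M) (hinj : WeberInj M) (hM : 3 ≤ M)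
  (hdeg : Module.finrank ↥(F0K M) ↥(K1 M) = Nat.totient M / 2)

include D hinj hM hdeg

/-- **Artin**: the fixed field of the diamonds is `F₀(M)`. -/
theorem fixedField_diamondGroup_eq :
    IntermediateField.fixedField (diamondGroup D) = F0K M := by
  have hpos : 0 < Module.finrank ↥(F0K M) ↥(K1 M) := by
    rw [hdeg, ← card_diamondGroup D hinj hM]
    exact Nat.card_pos
  have : FiniteDimensional ↥(F0K M) ↥(K1 M) := Module.finite_of_finrank_pos hpos
  refine (IntermediateField.eq_of_le_of_finrank_eq' (F0K_le_fixedField D) ?_).symm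
  rw [hdeg, finrank_fixedField_diamondGroup, card_diamondGroup D hinj hM]

/-- every automorphism of `K1 M` fixing `F₀(M)` pointwise is a diamond. -/
theorem exists_diamondQ_eq_of_fixes (σ : ↥(K1 M) ≃ₐ[ℚ] ↥(K1 M))
    (hσ : ∀ x ∈ F0K M, σ x = x) : ∃ d : (ZMod M)ˣ, diamondQ D d = σ := by
  have hfix := fixedField_diamondGroup_eq D hinj hM hdeg
  let f : ↥(K1 M) ≃ₐ[FixedPoints.subfield (diamondGroup D) ↥(K1 M)] ↥(K1 M) :=
    AlgEquiv.ofRingEquiv (f := σ.toRingEquiv) (fun ⟨x, hx⟩ => by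
      have hx' : x ∈ IntermediateField.fixedField (diamondGroup D) := hx
      rw [hfix] at hx'
      exact hσ x hx')
  obtain ⟨⟨τ, hτ⟩, hτf⟩ := FixedPoints.toAlgAut_surjective (diamondGroup D) ↥(K1 M) f
  obtain ⟨d, rfl⟩ := hτ
  refine ⟨d, AlgEquiv.ext fun x => ?_⟩
  have := congrArg (fun g => g x) hτf
  exact this

/-- `K1 M / F₀(M)` is Galois. -/
theorem isGalois_K1_F0K : IsGalois ↥(F0K M) ↥(K1 M) := by
  rw [← fixedField_diamondGroup_eq D hinj hM hdeg]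
  have h1 : Normal ↥(FixedPoints.subfield (diamondGroup D) ↥(K1 M)) ↥(K1 M) := inferInstance
  have h2 : Algebra.IsSeparable ↥(FixedPoints.subfield (diamondGroup D) ↥(K1 M)) ↥(K1 M) :=
    inferInstance
  exact @IsGalois.mk _ _ _ _ _ h2 h1

end artin

end Fermat.Agent.DS.X1
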