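import Mathlib
import Fermat.Agent.DS.X1.K1Places
import Fermat.Agent.DS.X1.Places.PsiGen
import Fermat.Agent.DS.X1Hecke.Inst
import Fermat.Agent.Jac.SepVarFc

/-!
# PROGRAMME III (S48), KUM-2 instance (I-ℂ) (helper29): the realisation of `K1L ℂ M` over `ℂ`

Twin of helper6's `DS/X1/K1Places.lean` with `(K, ι) := (ℂ, RingHom.id ℂ)`, through helper6's
`K`-generic builder `Places.modRealGen` (`DS/X1/Places/PsiGen.lean`).

From `D : WeberCuspData M` (leaf AN-1b):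

* `modRealK1C D : Places.ModReal ℂ (RingHom.id ℂ) (PmGamma1 M) M (K1L ℂ M)` with
  `(modRealK1C D).j = jOne ℂ M`; generators `coeffEmb ℂ '' gens1 M` realised by the SAME functions
  `j(d ·)`, `W_a` as over `ℚ̄`;
* `isSepVarS_K1C_dOne`, `isSepVar_K1C_dOne : IsSepVar ℂ (jOne ℂ M) (dOne M)` for `3 ≤ M` — NO new
  analysis: main's `Jac.Descent.isSepVarS_bcHom` applied to helper6's `isSepVarS_K1Bar_dOne`;
* `thetaC_modRealK1C_injective` for `2 ≤ M` (the conjugates are pairwise distinct), from the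
  function-level statement `mem_pm_of_fixes` (a `δ ∈ SL(2,ℤ)` fixing `j(M ·)` and `W_1` lies in
  `± Γ₁(M)`);
* `card_cosets_PmGamma1_fintype` : the `hcard` of the place dictionary.

These are the inputs `(D, hsep, hcard, hdist)` of `DS/Kum/C/D4Of.lean` (`kummer_dvd_of`) and of
`ThetaData.ofSepVar` for `Γ = Γ₁(M)`, `Γ' = ± Γ₁(M)`, `F = K1L ℂ M`.
-/

set_option autoImplicit false
set_option linter.unusedSectionVars false

noncomputable section

namespace Fermat.Agent.DS.X1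

open UpperHalfPlane ModularCurve AlgebraicCurve HahnSeries CongruenceSubgroup Fermat.Agent.X0
open Fermat.Agent.S23 Fermat.Agent.S23.PrimEltQExp Fermat.Agent.DS.X1Hecke
open scoped MatrixGroups Manifold

local notation "Δ" => ModularForm.discriminant

/-! ## generic: from helper23's `IsRealOf` over `ℚ` to helper6's `Places.IsRealOf` over `ℂ` -/

theorem coeffMap_id_coeffEmb (x : LaurentSeries ℚ) :
    coeffMap (RingHom.id ℂ) (coeffEmb ℂ x) = coeffMap (algebraMap ℚ ℂ) x := by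
  rw [coeffEmb, coeffMap_coeffMap]
  rfl

/-- a realisation of a rational series for `Γ`, meromorphic at all cusps, is a realisation over `ℂ`
of its image for every `Γ' ⊆ ± Γ`. -/
theorem isRealOfC {Γ Γ' : Subgroup SL(2, ℤ)} (hpm : ∀ γ ∈ Γ', γ ∈ Γ ∨ -γ ∈ Γ)
    {x : LaurentSeries ℚ} {F : ℍ → ℂ} (h : IsRealOf (algebraMap ℚ ℂ) Γ x F)
    (hc : IsMeroAtCusps F) : Places.IsRealOf (RingHom.id ℂ) Γ' (coeffEmb ℂ x) F :=
  ⟨h.mer, by rw [coeffMap_id_coeffEmb]; exact h.qexp, (h.of_pm hpm).inv, hc⟩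

theorem isMeroAtCusps_jFun : IsMeroAtCusps jFun := by
  have := isMeroAtCusps_jFun_scaleH 1
  simpa [scaleH_one] using this

/-- distinctness of the conjugates of a `modRealGen` from the statement "a `δ` fixing all
realisations lies in `Γ`". -/
theorem thetaC_injective_modRealGen {K : Type*} [Field K] {ι : K →+* ℂ} {Γ : Subgroup SL(2, ℤ)}
    {L : IntermediateField K (LaurentSeries K)} {G : Set L}
    (hG : ∀ x ∈ G, ∃ Fn : ℍ → ℂ, Places.IsRealOf ι Γ ((x : L) : LaurentSeries K) Fn) (W : ℕ)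
    (hfrac : ∀ f : L, ∃ g h : Places.RGen L G,
      f = ((g : Places.RGen L G) : L) / ((h : Places.RGen L G) : L))
    (jx : L) (hjx : jx ∈ Places.RGen L G)
    (hj : Places.IsRealOf ι Γ ((jx : L) : LaurentSeries K) jFun)
    (hneg : (-1 : SL(2, ℤ)) ∈ Γ) (hW : CongruenceSubgroup.Gamma W ≤ Γ)
    (hdist : ∀ δ : SL(2, ℤ), (∀ (r : Places.RGen L G) (z : ℍ),
      Places.PsiGen hG r (δ • z) = Places.PsiGen hG r z) → δ ∈ Γ) :
    Function.Injective (Places.thetaC (Places.modRealGen hG W hfrac jx hjx hj hneg hW)) := by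
  set D := Places.modRealGen hG W hfrac jx hjx hj hneg hW with hD
  intro c c' h
  induction c using QuotientGroup.induction_on with
  | H γ =>
  induction c' using QuotientGroup.induction_on with
  | H γ' =>
  rw [Places.thetaC_mk, Places.thetaC_mk] at h
  rw [QuotientGroup.eq]
  apply hdist
  intro r z
  have h1 : D.θ r (γ⁻¹ • (γ' • z)) = D.θ r (γ'⁻¹ • (γ' • z)) :=
    congrFun (congrArg (fun θ : D.R →+* (ℍ → ℂ) => θ r) h) (γ' • z)
  rw [inv_smul_smul] at h1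
  rw [mul_smul]
  exact h1

/-- **Bridge between the two realisation layers**: helper6's `Places.PsiGen` (on
`RGen L G ⊂ L`) and helper23's `PsiGen` (on `Algebra.adjoin K S ⊂ K((q))`) agree on elements with
the same underlying series — both are THE function with that `q`-expansion. -/
theorem places_PsiGen_eq_PsiGen {K : Type*} [Field K] {ι : K →+* ℂ} {Γ Γ₀ : Subgroup SL(2, ℤ)}
    {L : IntermediateField K (LaurentSeries K)} {G : Set L}
    (hG : ∀ x ∈ G, ∃ Fn : ℍ → ℂ, Places.IsRealOf ι Γ ((x : L) : LaurentSeries K) Fn)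
    {S : Set (LaurentSeries K)} (hS : HasReal ι Γ₀ S)
    (r : Places.RGen L G) (r' : Algebra.adjoin K S)
    (h : (((r : Places.RGen L G) : L) : LaurentSeries K) = (r' : LaurentSeries K)) :
    Places.PsiGen hG r = PsiGen hS r' := by
  have h1 := Places.isRealOf_PsiGen hG r
  have h2 := isRealOf_PsiGen hS r'
  have hq : qexpLHom ⟨Places.PsiGen hG r, h1.mer⟩ = qexpLHom ⟨PsiGen hS r', h2.mer⟩ := by
    simp only [qexpLHom_apply, h1.qexp, h2.qexp, h]
  exact congrArg Subtype.val (qexpLHom_injective hq)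

/-- the realisation by a `Places.PsiGen` of an element whose series has a known realisation -/
theorem places_PsiGen_eq_of_isRealOf {K : Type*} [Field K] {ι : K →+* ℂ}
    {Γ Γ₀ : Subgroup SL(2, ℤ)} {L : IntermediateField K (LaurentSeries K)} {G : Set L}
    (hG : ∀ x ∈ G, ∃ Fn : ℍ → ℂ, Places.IsRealOf ι Γ ((x : L) : LaurentSeries K) Fn)
    (r : Places.RGen L G) {F : ℍ → ℂ}
    (hF : IsRealOf ι Γ₀ (((r : Places.RGen L G) : L) : LaurentSeries K) F) :
    Places.PsiGen hG r = F := by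
  have h1 := Places.isRealOf_PsiGen hG r
  have hq : qexpLHom ⟨Places.PsiGen hG r, h1.mer⟩ = qexpLHom ⟨F, hF.mer⟩ := by
    simp only [qexpLHom_apply, h1.qexp, hF.qexp]
  exact congrArg Subtype.val (qexpLHom_injective hq)

/-! ## the function-level distinctness statement -/

variable {M : ℕ} [NeZero M]

/-- **Distinctness, function level**: a `δ ∈ SL(2,ℤ)` fixing `j(M ·)` and `W_1` lies in
`± Γ₁(M)`. -/
theorem mem_pm_of_fixes (D : WeberAnData M) (hM : 2 ≤ M) (δ : SL(2, ℤ))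
    (hj : ∀ z : ℍ, jFun (scaleH M (δ • z)) = jFun (scaleH M z))
    (hW1 : ∀ z : ℍ, D.W 1 (δ • z) = D.W 1 z) : δ ∈ Gamma1 M ∨ -δ ∈ Gamma1 M := by
  have h0 : δ ∈ Gamma0 M := mem_Gamma0_of_jFun_scaleH_smul_eq M δ hj
  have h1 : 0 < 1 := Nat.one_pos
  have h1M : 1 < M := hM
  obtain ⟨b, hb0, hbM, hb⟩ := exists_index h0 h1 h1M
  have hW : D.W b = D.W 1 := by
    funext z
    rw [← D.smul δ h0 1 b h1 h1M hb0 hbM hb z]
    exact hW1 z
  have hq : weberQ M b = weberQ M 1 := by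
    have e1 := (D.real b hb0 hbM).qexp
    have e2 := (D.real 1 h1 h1M).qexp
    rw [hW, e2] at e1
    exact (coeffMap_injective _ (algebraMap ℚ ℂ).injective e1).symm
  have hcast : ((δ 0 0 : ℤ) : ZMod M) = 1 ∨ ((δ 0 0 : ℤ) : ZMod M) = -1 := by
    rcases weberQ_inj b 1 hb0 hbM h1 h1M hq with h | h
    · left
      rw [h] at hb
      simpa using hb.symm
    · right
      have hb' : (b : ZMod M) = -1 := by
        have : ((b + 1 : ℕ) : ZMod M) = 0 := by rw [h]; exact ZMod.natCast_self M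
        push_cast at this
        exact eq_neg_of_add_eq_zero_left this
      rw [hb'] at hb
      simpa using hb.symm
  have h10 : ((δ 1 0 : ℤ) : ZMod M) = 0 := Gamma0_mem.mp h0
  have hul := upperLeft_mul_lowerRight h0
  rcases hcast with h | h
  · left
    rw [Gamma1_mem]
    refine ⟨h, ?_, h10⟩
    rw [h, one_mul] at hul
    exact hul
  · right
    rw [Gamma1_mem]
    have e00 : ((-δ : SL(2, ℤ)) 0 0 : ℤ) = -(δ 0 0) := by simp
    have e11 : ((-δ : SL(2, ℤ)) 1 1 : ℤ) = -(δ 1 1) := by simp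
    have e10 : ((-δ : SL(2, ℤ)) 1 0 : ℤ) = -(δ 1 0) := by simp
    rw [e00, e11, e10]
    push_cast
    refine ⟨by rw [h, neg_neg], ?_, by rw [h10, neg_zero]⟩
    rw [h] at hul
    have : ((δ 1 1 : ℤ) : ZMod M) = -1 := by
      have := congrArg Neg.neg hul
      simpa using this
    rw [this, neg_neg]

/-! ## the instance `K1L ℂ M` -/

/-- the generators of `K1L ℂ M` over `ℂ`: the images of `j(q^d)` (`d ∣ M`) and of the Weber
series. -/
def gens1C (M : ℕ) [NeZero M] : Set (K1L ℂ M) :=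
  {x | ∃ s ∈ gens1 M, ((x : K1L ℂ M) : LaurentSeries ℂ) = coeffEmb ℂ s}

/-- the image of a generator, as an element of `K1L ℂ M` -/
def genC {s : LaurentSeries ℚ} (hs : s ∈ gens1 M) : K1L ℂ M :=
  ⟨coeffEmb ℂ s, coeffEmb_mem_laurentBaseChange ℂ (IntermediateField.subset_adjoin ℚ _ hs)⟩

theorem genC_mem_gens1C {s : LaurentSeries ℚ} (hs : s ∈ gens1 M) : genC hs ∈ gens1C M :=
  ⟨s, hs, rfl⟩

theorem genC_mem_RGen {s : LaurentSeries ℚ} (hs : s ∈ gens1 M) :
    genC hs ∈ Places.RGen (K1L ℂ M) (gens1C M) :=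
  Algebra.subset_adjoin (genC_mem_gens1C hs)

theorem jqd_mem_gens1 {d : ℕ} [NeZero d] (hd : d ∣ M) : qExpand ℚ d jq ∈ gens1 M :=
  Or.inl ⟨d, ‹_›, hd, rfl⟩

theorem weberQ_mem_gens1 {a : ℕ} (ha : 0 < a) (haM : a < M) : weberQ M a ∈ gens1 M :=
  Or.inr ⟨a, ha, haM, rfl⟩

theorem isRealOfC_jqd {d : ℕ} [NeZero d] (hd : d ∣ M) :
    Places.IsRealOf (RingHom.id ℂ) (PmGamma1 M) (coeffEmb ℂ (qExpand ℚ d jq))
      (fun z => jAn (scaleH d z)) :=
  isRealOfC pm_of_mem_PmGamma1 ((isRealOf_jqd hd).mono (Gamma1_in_Gamma0 M))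
    (isMeroAtCusps_jFun_scaleH d)

theorem isRealOfC_weberQ (D : WeberCuspData M) {a : ℕ} (ha : 0 < a) (haM : a < M) :
    Places.IsRealOf (RingHom.id ℂ) (PmGamma1 M) (coeffEmb ℂ (weberQ M a)) (D.W a) :=
  isRealOfC pm_of_mem_PmGamma1 (D.real a ha haM) fun g => by
    obtain ⟨m, hm⟩ := D.bound a ha haM g
    exact ⟨m, hm⟩

/-- the realisations of the generators over `ℂ`, for `Γ' = ± Γ₁(M)` -/
theorem hG_K1C (D : WeberCuspData M) : ∀ x ∈ gens1C M, ∃ Fn : ℍ → ℂ,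
    Places.IsRealOf (RingHom.id ℂ) (PmGamma1 M) ((x : K1L ℂ M) : LaurentSeries ℂ) Fn := by
  rintro x ⟨s, (⟨d, hne, hd, rfl⟩ | ⟨a, ha, haM, rfl⟩), hx⟩
  · rw [hx]
    exact ⟨_, isRealOfC_jqd hd⟩
  · rw [hx]
    exact ⟨_, isRealOfC_weberQ D ha haM⟩

/-- **`hfrac` for `K1L ℂ M`**: every element is a quotient of elements of `ℂ[gens1C M]`. -/
theorem hfrac_K1C (f : K1L ℂ M) : ∃ g h : Places.RGen (K1L ℂ M) (gens1C M),
    f = ((g : Places.RGen (K1L ℂ M) (gens1C M)) : K1L ℂ M) /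
      ((h : Places.RGen (K1L ℂ M) (gens1C M)) : K1L ℂ M) :=
  Places.exists_div_of_mem_laurentBaseChange (K := ℂ) (gens1 M) (G := gens1C M)
    (fun _ hy => ⟨⟨genC hy, genC_mem_RGen hy⟩, rfl⟩) f

theorem jOne_mem_RGen : jOne ℂ M ∈ Places.RGen (K1L ℂ M) (gens1C M) :=
  Algebra.subset_adjoin ⟨jq, jq_mem_gens1, rfl⟩

theorem isRealOfC_jOne :
    Places.IsRealOf (RingHom.id ℂ) (PmGamma1 M) ((jOne ℂ M : K1L ℂ M) : LaurentSeries ℂ) jFun :=
  ⟨isMerCusp_jAn, by rw [coe_jOne, coeffMap_id_coeffEmb]; exact qexpL_jAn,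
    fun γ _ z => jFun_smul γ z, isMeroAtCusps_jFun⟩

/-- **the realisation data of `K1L ℂ M`** (`Γ' = ± Γ₁(M)`, width `M`). -/
def modRealK1C (D : WeberCuspData M) :
    Places.ModReal ℂ (RingHom.id ℂ) (PmGamma1 M) M (K1L ℂ M) :=
  Places.modRealGen (L := K1L ℂ M) (G := gens1C M) (hG_K1C D) M hfrac_K1C (jOne ℂ M)
    jOne_mem_RGen isRealOfC_jOne (neg_one_mem_PmGamma1 M) (Gamma_le_PmGamma1 M)

theorem modRealK1C_j (D : WeberCuspData M) : (modRealK1C D).j = jOne ℂ M := rfl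

theorem modRealK1C_R (D : WeberCuspData M) :
    (modRealK1C D).R = Places.RGen (K1L ℂ M) (gens1C M) := rfl

theorem modRealK1C_θ (D : WeberCuspData M) : (modRealK1C D).θ = Places.PsiGen (hG_K1C D) := rfl

/-- the value of the realisation on the image of `j(q^d)` -/
theorem modRealK1C_θ_jqd (D : WeberCuspData M) {d : ℕ} [NeZero d] (hd : d ∣ M) :
    Places.PsiGen (hG_K1C D) ⟨genC (jqd_mem_gens1 hd), genC_mem_RGen _⟩ =
      fun z => jAn (scaleH d z) :=
  Places.PsiGen_of_mem (hG_K1C D) (genC_mem_RGen _) (isRealOfC_jqd hd)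

/-- the value of the realisation on the image of the Weber series `weberQ M a` -/
theorem modRealK1C_θ_weberQ (D : WeberCuspData M) {a : ℕ} (ha : 0 < a) (haM : a < M) :
    Places.PsiGen (hG_K1C D) ⟨genC (weberQ_mem_gens1 ha haM), genC_mem_RGen _⟩ = D.W a :=
  Places.PsiGen_of_mem (hG_K1C D) (genC_mem_RGen _) (isRealOfC_weberQ D ha haM)

/-- **Distinctness over `ℂ`**: a `δ ∈ SL(2,ℤ)` fixing all realisations lies in `± Γ₁(M)`. -/
theorem hdist_K1C (D : WeberCuspData M) (hM : 2 ≤ M) (δ : SL(2, ℤ))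
    (hδ : ∀ (r : Places.RGen (K1L ℂ M) (gens1C M)) (z : ℍ),
      Places.PsiGen (hG_K1C D) r (δ • z) = Places.PsiGen (hG_K1C D) r z) : δ ∈ PmGamma1 M := by
  apply mem_PmGamma1_iff.mpr
  refine mem_pm_of_fixes D.toWeberAnData hM δ (fun z => ?_) (fun z => ?_)
  · have := hδ ⟨genC (jqd_mem_gens1 (dvd_refl M)), genC_mem_RGen _⟩ z
    rw [modRealK1C_θ_jqd D (dvd_refl M)] at this
    exact this
  · have := hδ ⟨genC (weberQ_mem_gens1 Nat.one_pos hM), genC_mem_RGen _⟩ z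
    rw [modRealK1C_θ_weberQ D Nat.one_pos hM] at this
    exact this

/-- **`hdist`**: the conjugates of the realisation of `K1L ℂ M` are pairwise distinct. -/
theorem thetaC_modRealK1C_injective (D : WeberCuspData M) (hM : 2 ≤ M) :
    Function.Injective (Places.thetaC (modRealK1C D)) :=
  thetaC_injective_modRealGen (hG_K1C D) M hfrac_K1C (jOne ℂ M) jOne_mem_RGen isRealOfC_jOne
    (neg_one_mem_PmGamma1 M) (Gamma_le_PmGamma1 M) (hdist_K1C D hM)

/-! ## the degree over `ℂ(j)`, by base change from `ℚ̄` -/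

theorem bcHom_jBar1 (ι₀ : Kb →+* ℂ) :
    Fermat.Agent.Jac.Descent.bcHom ι₀ (K1 M) (jBar1 M) = jOne ℂ M :=
  Subtype.ext (Fermat.Agent.Jac.Descent.coeffMap_coeffEmb_hom ι₀ jq)

/-- **`[K1L ℂ M : ℂ(j)] = d₁(M)`**, characteristic-free form. -/
theorem isSepVarS_K1C_dOne (D : WeberCuspData M) (hM : 3 ≤ M) :
    Fermat.Agent.FF.IsSepVarS ℂ (jOne ℂ M) (dOne M) := by
  obtain ⟨ι₀⟩ := Fermat.Agent.Jac.Descent.nonempty_ringHom_Kb ℂ
  rw [← bcHom_jBar1 ι₀]
  exact Fermat.Agent.Jac.Descent.isSepVarS_bcHom ι₀ (isSepVarS_K1Bar_dOne D hM)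

/-- **`[K1L ℂ M : ℂ(j)] = d₁(M) = ψ(M) φ(M) / 2`** (`= hsep` of `kummer_dvd_of`, `hx` of
`ThetaData.ofSepVar`). -/
theorem isSepVar_K1C_dOne (D : WeberCuspData M) (hM : 3 ≤ M) :
    IsSepVar ℂ (jOne ℂ M) (dOne M) :=
  (isSepVarS_K1C_dOne D hM).1

/-- the same for the `j` of the realisation -/
theorem isSepVar_modRealK1C (D : WeberCuspData M) (hM : 3 ≤ M) :
    IsSepVar ℂ (modRealK1C D).j (dOne M) :=
  isSepVar_K1C_dOne D hM

/-- the Riemann package of `K1L ℂ M`, from the analytic input alone -/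
theorem riemannPkg_K1C_of_data (D : WeberCuspData M) (hM : 3 ≤ M) :
    Fermat.Agent.Red.RiemannPkg ℂ (K1L ℂ M) :=
  Fermat.Agent.FF.riemannPkg (isSepVarS_K1C_dOne D hM)

/-- **`hcard`**: the number of cosets of `± Γ₁(M)`, for any `Fintype` instance. -/
theorem card_cosets_PmGamma1_fintype [Fintype (SL(2, ℤ) ⧸ PmGamma1 M)] (hM : 3 ≤ M) :
    Fintype.card (SL(2, ℤ) ⧸ PmGamma1 M) = dOne M := by
  rw [← Nat.card_eq_fintype_card]
  exact card_cosets_PmGamma1 hM

end Fermat.Agent.DS.X1
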