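/-
PROGRAMME III (target S48), port leaf AN-3c/5b ALGEBRA (helper26; X1-PORT BOARD v2 = finding #2029).

Pure field algebra inside `ℚ((q))` and `L((q))`:

* (i)  `laurentBaseChange_adjoin` : `laurentBaseChange L (adjoin ℚ S) = adjoin L (coeffEmb L '' S)`;
* (ii) `hRF_*`, `hfrac_*` : the two hypotheses of helper23's `isSepVar_gen` (DS/X1/DegGen.lean) for
       `K1Bar M` and `laurentBaseChange Kb (K1Lev M p)`, with EXPLICIT generator sets (they are
       the unfoldings of helper23's `gens1Bar M` and of helper22's `gensLevBar M p`);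
* (iii) `K1Lev_eq_adjoin` : `K1Lev M p = ℚ(gens1 M ∪ qExpand ℚ p '' gens1 M ∪ divisorExpansions (M p))`;
* (iv) descent of linear dependence: a family of `ℚ((q))` which is linearly independent over an
       intermediate field `F` stays linearly independent over `laurentBaseChange L F` (`L/ℚ`
       algebraic), in the elementary `Σ`-form `descent_sum` (= the field `hdesc` of helper15's
       `LevDegreeInputs` and the hypothesis of helper11's `finrank_restrict_le_of_descent`).
-/
import Mathlib
import Fermat.Prelude.Def_ModularCurve_LaurentCoeff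
import Fermat.Agent.DS.X1.Defs
import Fermat.Agent.DS.X1.Psi1

set_option autoImplicit false

noncomputable section

namespace Fermat.Agent.DS.X1.AdjoinBC

open ModularCurve HahnSeries IntermediateField

/-! ### (i) base change of an adjoin -/

section BaseChangeAdjoin

variable (L : Type*) [Field L] [Algebra ℚ L]

/-- `coeffEmb` of a rational constant. -/
theorem coeffEmb_algebraMap (c : ℚ) :
    coeffEmb L (algebraMap ℚ (LaurentSeries ℚ) c)
      = algebraMap L (LaurentSeries L) (algebraMap ℚ L c) := by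
  rw [algebraMap_laurentSeries_eq_single, algebraMap_laurentSeries_eq_single, coeffEmb,
    coeffMap_single]

/-- `coeffEmb` maps `adjoin ℚ S` into `adjoin L (coeffEmb '' S)`. -/
theorem coeffEmb_mem_adjoin_image (S : Set (LaurentSeries ℚ)) {x : LaurentSeries ℚ}
    (hx : x ∈ IntermediateField.adjoin ℚ S) :
    coeffEmb L x ∈ IntermediateField.adjoin L (⇑(coeffEmb L) '' S) := by
  induction hx using IntermediateField.adjoin_induction with
  | mem y hy => exact IntermediateField.subset_adjoin L _ ⟨y, hy, rfl⟩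
  | algebraMap c =>
    rw [coeffEmb_algebraMap]
    exact IntermediateField.algebraMap_mem _ _
  | add x y _ _ hx hy => rw [map_add]; exact add_mem hx hy
  | inv x _ hx => rw [map_inv₀]; exact inv_mem hx
  | mul x y _ _ hx hy => rw [map_mul]; exact mul_mem hx hy

/-- **(i)** `laurentBaseChange` of a field generated by `S` is generated by `coeffEmb '' S`. -/
theorem laurentBaseChange_adjoin (S : Set (LaurentSeries ℚ)) :
    laurentBaseChange L (IntermediateField.adjoin ℚ S)
      = IntermediateField.adjoin L (⇑(coeffEmb L) '' S) := by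
  apply le_antisymm
  · rw [laurentBaseChange, IntermediateField.adjoin_le_iff]
    rintro _ ⟨x, hx, rfl⟩
    exact coeffEmb_mem_adjoin_image L S hx
  · apply IntermediateField.adjoin.mono
    exact Set.image_mono (IntermediateField.subset_adjoin ℚ S)

theorem laurentBaseChange_mono {F E : IntermediateField ℚ (LaurentSeries ℚ)} (h : F ≤ E) :
    laurentBaseChange L F ≤ laurentBaseChange L E :=
  IntermediateField.adjoin.mono L _ _ (Set.image_mono h)

end BaseChangeAdjoin

/-! ### (ii) the ring of generators inside its field, fractions -/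

section Frac

variable {L : Type*} [Field L] (T : Set (LaurentSeries L))

/-- `hRF` for a field generated by `T`. -/
theorem algebraAdjoin_mem_adjoin {r : LaurentSeries L} (hr : r ∈ Algebra.adjoin L T) :
    r ∈ IntermediateField.adjoin L T :=
  IntermediateField.algebra_adjoin_le_adjoin L T hr

/-- `hfrac` for a field generated by `T`: every element is a fraction of elements of `L[T]`. -/
theorem exists_frac_of_mem_adjoin (f : IntermediateField.adjoin L T) :
    ∃ g h : Algebra.adjoin L T, h ≠ 0 ∧
      (f : LaurentSeries L) * (h : LaurentSeries L) = g := by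
  obtain ⟨r, hr, s, hs, hfs⟩ := IntermediateField.mem_adjoin_iff_div.mp f.2
  by_cases hs0 : s = 0
  · refine ⟨0, 1, one_ne_zero, ?_⟩
    rw [hfs, hs0, div_zero, zero_mul]
    rfl
  · refine ⟨⟨r, hr⟩, ⟨s, hs⟩, fun h => hs0 (congrArg Subtype.val h), ?_⟩
    rw [hfs]
    exact div_mul_cancel₀ r hs0

end Frac

section FracBC

variable (L : Type*) [Field L] [Algebra ℚ L]

/-- `hRF` for the base change of a field generated by `S`. -/
theorem hRF_of_eq_adjoin {E : IntermediateField ℚ (LaurentSeries ℚ)} {S : Set (LaurentSeries ℚ)}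
    (hE : E = IntermediateField.adjoin ℚ S) :
    ∀ r ∈ Algebra.adjoin L (⇑(coeffEmb L) '' S), r ∈ laurentBaseChange L E := by
  intro r hr
  rw [hE, laurentBaseChange_adjoin]
  exact algebraAdjoin_mem_adjoin _ hr

/-- `hfrac` for the base change of a field generated by `S`. -/
theorem hfrac_of_eq_adjoin {E : IntermediateField ℚ (LaurentSeries ℚ)} {S : Set (LaurentSeries ℚ)}
    (hE : E = IntermediateField.adjoin ℚ S) :
    ∀ f : laurentBaseChange L E, ∃ g h : Algebra.adjoin L (⇑(coeffEmb L) '' S),
      h ≠ 0 ∧ (f : LaurentSeries L) * (h : LaurentSeries L) = g := by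
  intro f
  have hf : (f : LaurentSeries L) ∈ IntermediateField.adjoin L (⇑(coeffEmb L) '' S) := by
    rw [← laurentBaseChange_adjoin, ← hE]
    exact f.2
  exact exists_frac_of_mem_adjoin (⇑(coeffEmb L) '' S) ⟨f, hf⟩

end FracBC

/-! ### (ii) for `K1Bar M` -/

section K1

open Fermat.Agent.X0 (Kb)

variable (M : ℕ) [NeZero M]

/-- `K1Bar M` is generated over `ℚ̄` by the base change of the generators of `K1 M`. -/
theorem K1Bar_eq_adjoin :
    K1Bar M = IntermediateField.adjoin Kb (⇑(coeffEmb Kb) '' gens1 M) :=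
  laurentBaseChange_adjoin Kb (gens1 M)

/-- **`hRF` for `K1Bar M`** (hypothesis of `isSepVar_gen`). -/
theorem hRF_K1Bar : ∀ r ∈ Algebra.adjoin Kb (⇑(coeffEmb Kb) '' gens1 M), r ∈ K1Bar M :=
  hRF_of_eq_adjoin Kb (E := K1 M) (S := gens1 M) rfl

/-- **`hfrac` for `K1Bar M`** (hypothesis of `isSepVar_gen`). -/
theorem hfrac_K1Bar : ∀ f : K1Bar M, ∃ g h : Algebra.adjoin Kb (⇑(coeffEmb Kb) '' gens1 M),
    h ≠ 0 ∧ (f : LaurentSeries Kb) * (h : LaurentSeries Kb) = g :=
  hfrac_of_eq_adjoin Kb (E := K1 M) (S := gens1 M) rfl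

/-! ### (iii) generators of `K1Lev M p` -/

variable (p : ℕ) [NeZero p]

/-- a ring endomorphism of `ℚ((q))` maps `adjoin ℚ S` into `adjoin ℚ (ψ '' S)`. -/
theorem ringHom_mem_adjoin_image (ψ : LaurentSeries ℚ →+* LaurentSeries ℚ)
    (S : Set (LaurentSeries ℚ)) {x : LaurentSeries ℚ}
    (hx : x ∈ IntermediateField.adjoin ℚ S) :
    ψ x ∈ IntermediateField.adjoin ℚ (⇑ψ '' S) := by
  induction hx using IntermediateField.adjoin_induction with
  | mem y hy => exact IntermediateField.subset_adjoin ℚ _ ⟨y, hy, rfl⟩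
  | algebraMap c =>
    rw [eq_ratCast, map_ratCast, ← eq_ratCast (algebraMap ℚ (LaurentSeries ℚ))]
    exact IntermediateField.algebraMap_mem _ _
  | add x y _ _ hx hy => rw [map_add]; exact add_mem hx hy
  | inv x _ hx => rw [map_inv₀]; exact inv_mem hx
  | mul x y _ _ hx hy => rw [map_mul]; exact mul_mem hx hy

/-- **(iii)** `K1Lev M p = ℚ(gens1 M, gens1 M (q^p), j(q^d) (d ∣ Mp))`.  The generating set is
the unfolding of helper22's `gensLev M p` (`DS/X1/LevReal.lean`). -/
theorem K1Lev_eq_adjoin :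
    K1Lev M p = IntermediateField.adjoin ℚ
      (gens1 M ∪ ⇑(qExpand ℚ p) '' gens1 M ∪ divisorExpansions (M * p)) := by
  apply le_antisymm
  · rw [K1Lev, IntermediateField.adjoin_le_iff]
    rintro x ((hx | hx) | ⟨y, hy, rfl⟩)
    · exact IntermediateField.subset_adjoin ℚ _ (Or.inr hx)
    · have h1 : K1 M ≤ IntermediateField.adjoin ℚ
          (gens1 M ∪ ⇑(qExpand ℚ p) '' gens1 M ∪ divisorExpansions (M * p)) :=
        IntermediateField.adjoin.mono ℚ _ _
          (fun z hz => Or.inl (Or.inl hz))
      exact h1 hx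
    · have h1 := ringHom_mem_adjoin_image (qExpand ℚ p) (gens1 M) hy
      have h2 : IntermediateField.adjoin ℚ (⇑(qExpand ℚ p) '' gens1 M)
          ≤ IntermediateField.adjoin ℚ
            (gens1 M ∪ ⇑(qExpand ℚ p) '' gens1 M ∪ divisorExpansions (M * p)) :=
        IntermediateField.adjoin.mono ℚ _ _ (fun z hz => Or.inl (Or.inr hz))
      exact h2 h1
  · rw [IntermediateField.adjoin_le_iff]
    rintro x ((hx | ⟨y, hy, rfl⟩) | hx)
    · exact K1_le_K1Lev M p (IntermediateField.subset_adjoin ℚ _ hx)
    · exact qExpand_mem_K1Lev M p (IntermediateField.subset_adjoin ℚ _ hy)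
    · exact IntermediateField.subset_adjoin ℚ _ (Or.inl (Or.inl hx))

/-- the base change to `ℚ̄` of `K1Lev M p` is generated by the base change of its generators
(the generating set is the unfolding of helper22's `gensLevBar M p`). -/
theorem laurentBaseChange_K1Lev_eq_adjoin :
    laurentBaseChange Kb (K1Lev M p) = IntermediateField.adjoin Kb
      (⇑(coeffEmb Kb) '' (gens1 M ∪ ⇑(qExpand ℚ p) '' gens1 M ∪ divisorExpansions (M * p))) := by
  rw [K1Lev_eq_adjoin]
  exact laurentBaseChange_adjoin Kb _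

/-- **`hRF` for `laurentBaseChange Kb (K1Lev M p)`.** -/
theorem hRF_K1LevBar : ∀ r ∈ Algebra.adjoin Kb
      (⇑(coeffEmb Kb) '' (gens1 M ∪ ⇑(qExpand ℚ p) '' gens1 M ∪ divisorExpansions (M * p))),
    r ∈ laurentBaseChange Kb (K1Lev M p) :=
  hRF_of_eq_adjoin Kb (K1Lev_eq_adjoin M p)

/-- **`hfrac` for `laurentBaseChange Kb (K1Lev M p)`** (the field `hfrac` of helper15's
`LevDegreeInputs` with `S' := gensLevBar M p`). -/
theorem hfrac_K1LevBar : ∀ f : laurentBaseChange Kb (K1Lev M p),
    ∃ g h : Algebra.adjoin Kb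
      (⇑(coeffEmb Kb) '' (gens1 M ∪ ⇑(qExpand ℚ p) '' gens1 M ∪ divisorExpansions (M * p))),
    h ≠ 0 ∧ (f : LaurentSeries Kb) * (h : LaurentSeries Kb) = g :=
  hfrac_of_eq_adjoin Kb (K1Lev_eq_adjoin M p)

theorem K1Bar_le_K1LevBar : K1Bar M ≤ laurentBaseChange Kb (K1Lev M p) :=
  laurentBaseChange_mono Kb (K1_le_K1Lev M p)

end K1

/-! ### (iv) descent of linear dependence -/

section Descent

variable (L : Type*) [Field L] [Algebra ℚ L]

/-- apply a `ℚ`-linear functional `L → ℚ` coefficientwise -/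
def coeffDual (φ : L →ₗ[ℚ] ℚ) : LaurentSeries L →+ LaurentSeries ℚ where
  toFun x := x.map φ
  map_zero' := by ext n; simp
  map_add' x y := by ext n; simp

@[simp]
theorem coeffDual_coeff (φ : L →ₗ[ℚ] ℚ) (x : LaurentSeries L) (n : ℤ) :
    (coeffDual L φ x).coeff n = φ (x.coeff n) := rfl

theorem support_coeffEmb_subset (z : LaurentSeries ℚ) : (coeffEmb L z).support ⊆ z.support := by
  intro n hn
  rw [HahnSeries.mem_support] at hn ⊢
  intro h0
  apply hn
  rw [coeffEmb_coeff, h0, map_zero]

theorem support_coeffDual_subset (φ : L →ₗ[ℚ] ℚ) (x : LaurentSeries L) :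
    (coeffDual L φ x).support ⊆ x.support := by
  intro n hn
  rw [HahnSeries.mem_support] at hn ⊢
  intro h0
  apply hn
  rw [coeffDual_coeff, h0, map_zero]

/-- `coeffDual φ` is `ℚ((q))`-linear. -/
theorem coeffDual_coeffEmb_mul (φ : L →ₗ[ℚ] ℚ) (z : LaurentSeries ℚ) (x : LaurentSeries L) :
    coeffDual L φ (coeffEmb L z * x) = z * coeffDual L φ x := by
  ext a
  rw [coeffDual_coeff, HahnSeries.coeff_mul_left' z.isPWO_support (support_coeffEmb_subset L z),
    HahnSeries.coeff_mul_right' x.isPWO_support (support_coeffDual_subset L φ x), map_sum]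
  refine Finset.sum_congr rfl fun ij _ => ?_
  rw [coeffEmb_coeff, coeffDual_coeff, ← Algebra.smul_def, map_smul, smul_eq_mul]

theorem coeffDual_one (φ : L →ₗ[ℚ] ℚ) :
    coeffDual L φ 1 = algebraMap ℚ (LaurentSeries ℚ) (φ 1) := by
  ext n
  rw [coeffDual_coeff, algebraMap_laurentSeries_eq_single, HahnSeries.coeff_one]
  by_cases hn : n = 0
  · subst hn
    simp
  · rw [if_neg hn, map_zero, HahnSeries.coeff_single_of_ne hn]

theorem coeffDual_coeffEmb (φ : L →ₗ[ℚ] ℚ) (z : LaurentSeries ℚ) :
    coeffDual L φ (coeffEmb L z) = z * algebraMap ℚ (LaurentSeries ℚ) (φ 1) := by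
  have h := coeffDual_coeffEmb_mul L φ z 1
  rwa [mul_one, coeffDual_one] at h

/-- scalar multiplication by `lam : L` amounts to precomposing the functional. -/
theorem coeffDual_smul (φ : L →ₗ[ℚ] ℚ) (lam : L) (x : LaurentSeries L) :
    coeffDual L φ (lam • x) = coeffDual L (φ.comp (LinearMap.mulLeft ℚ lam)) x := by
  ext n
  simp [HahnSeries.coeff_smul]

/-- if all coefficientwise functionals kill `x`, then `x = 0`. -/
theorem eq_zero_of_forall_coeffDual {x : LaurentSeries L}
    (h : ∀ φ : L →ₗ[ℚ] ℚ, coeffDual L φ x = 0) : x = 0 := by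
  ext n
  rw [HahnSeries.coeff_zero, ← Module.forall_dual_apply_eq_zero_iff ℚ]
  intro φ
  have := congrArg (fun y : LaurentSeries ℚ => y.coeff n) (h φ)
  simpa using this

/-- the algebra generated by a submonoid is its linear span -/
theorem adjoin_le_span_of_submonoid (R : Type*) {A : Type*} [CommSemiring R] [Semiring A]
    [Algebra R A] (S : Submonoid A) :
    ∀ z ∈ Algebra.adjoin R (S : Set A), z ∈ Submodule.span R (S : Set A) := by
  intro z hz
  have h0 : z ∈ Subalgebra.toSubmodule (Algebra.adjoin R (S : Set A)) := hz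
  rwa [Algebra.adjoin_eq_span, Submonoid.closure_eq] at h0

variable (F : IntermediateField ℚ (LaurentSeries ℚ))

/-- coefficientwise functionals map the `L`-span of `coeffEmb '' F` into `F`. -/
theorem coeffDual_mem_of_mem_span {x : LaurentSeries L}
    (hx : x ∈ Submodule.span L (⇑(coeffEmb L) '' (F : Set (LaurentSeries ℚ))))
    (φ : L →ₗ[ℚ] ℚ) : coeffDual L φ x ∈ F := by
  induction hx using Submodule.span_induction generalizing φ with
  | mem x hx =>
    obtain ⟨f, hf, rfl⟩ := hx
    rw [coeffDual_coeffEmb]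
    exact mul_mem hf (F.algebraMap_mem _)
  | zero => rw [map_zero]; exact zero_mem _
  | add x y _ _ hx hy => rw [map_add]; exact add_mem (hx φ) (hy φ)
  | smul lam x _ hx => rw [coeffDual_smul]; exact hx _

variable [Algebra.IsAlgebraic ℚ L]

/-- **Step A.** For `L/ℚ` algebraic, `laurentBaseChange L F` is the `L`-span of `coeffEmb '' F`
(the compositum of `L` and `F` is the ring they generate). -/
theorem mem_span_of_mem_laurentBaseChange {x : LaurentSeries L}
    (hx : x ∈ laurentBaseChange L F) :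
    x ∈ Submodule.span L (⇑(coeffEmb L) '' (F : Set (LaurentSeries ℚ))) := by
  classical
  set T : Set (LaurentSeries L) := ⇑(coeffEmb L) '' (F : Set (LaurentSeries ℚ)) with hT
  -- (a) `L[T] ⊆ span_L T` since `T` is a submonoid
  have hspan : ∀ z ∈ Algebra.adjoin L T, z ∈ Submodule.span L T := by
    have hS : T = ((F.toSubfield.toSubring.toSubmonoid).map
        (coeffEmb L : LaurentSeries ℚ →* LaurentSeries L) : Set (LaurentSeries L)) := rfl
    rw [hS]
    intro z hz
    have h0 := adjoin_le_span_of_submonoid L (A := LaurentSeries L)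
      ((F.toSubfield.toSubring.toSubmonoid).map
        (coeffEmb L : LaurentSeries ℚ →* LaurentSeries L)) z hz
    clear hz
    induction h0 using Submodule.span_induction with
    | mem w hw => exact Submodule.subset_span hw
    | zero => exact zero_mem _
    | add w w' _ _ hw hw' => exact add_mem hw hw'
    | smul a w _ hw =>
      rw [Algebra.smul_def, algebraMap_laurentSeries_eq_single,
        HahnSeries.single_zero_mul_eq_smul]
      exact Submodule.smul_mem _ a hw
  -- (b) `L[T]` is closed under inverses: its elements are integral over the field `F`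
  have hinv : ∀ y ∈ Algebra.adjoin L T, y⁻¹ ∈ Algebra.adjoin L T := by
    intro y hy
    let φF : F →+* LaurentSeries L := (coeffEmb L).comp (algebraMap F (LaurentSeries ℚ))
    let _ : Algebra F (LaurentSeries L) := φF.toAlgebra
    have hint : ∀ z ∈ Algebra.adjoin L T, IsIntegral F z := by
      intro z hz
      induction hz using Algebra.adjoin_induction with
      | mem z hz =>
        obtain ⟨f, hf, rfl⟩ := hz
        exact isIntegral_algebraMap (x := (⟨f, hf⟩ : F))
      | algebraMap lam =>
        have h1 : IsIntegral ℚ lam := (Algebra.IsAlgebraic.isAlgebraic lam).isIntegral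
        exact IsIntegral.map_of_comp_eq (algebraMap ℚ F) (algebraMap L (LaurentSeries L))
          (Subsingleton.elim _ _) h1
      | add z w _ _ hz hw => exact hz.add hw
      | mul z w _ _ hz hw => exact hz.mul hw
    have h3 : y⁻¹ ∈ Algebra.adjoin F {y} := (hint y hy).inv_mem_adjoin
    have h4 : ∀ z ∈ Algebra.adjoin F {y}, z ∈ Algebra.adjoin L T := by
      intro z hz
      induction hz using Algebra.adjoin_induction with
      | mem z hz =>
        rw [Set.mem_singleton_iff] at hz
        rw [hz]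
        exact hy
      | algebraMap f => exact Algebra.subset_adjoin ⟨f, f.2, rfl⟩
      | add z w _ _ hz hw => exact add_mem hz hw
      | mul z w _ _ hz hw => exact mul_mem hz hw
    exact h4 _ h3
  have h1 : laurentBaseChange L F ≤ Subalgebra.toIntermediateField (Algebra.adjoin L T) hinv :=
    IntermediateField.adjoin_le_iff.mpr Algebra.subset_adjoin
  have h2 : x ∈ Algebra.adjoin L T := h1 hx
  exact hspan x h2

/-- coefficientwise functionals map `laurentBaseChange L F` into `F`. -/
theorem coeffDual_mem {x : LaurentSeries L} (hx : x ∈ laurentBaseChange L F)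
    (φ : L →ₗ[ℚ] ℚ) : coeffDual L φ x ∈ F :=
  coeffDual_mem_of_mem_span L F (mem_span_of_mem_laurentBaseChange L F hx) φ

/-- **(iv) Descent of linear dependence** (elementary `Σ`-form): a family `y` of `ℚ((q))` which
is linearly independent over `F` stays linearly independent over `laurentBaseChange L F` after
`coeffEmb`. -/
theorem eq_zero_of_sum_mul_coeffEmb {J : Type*} [Fintype J] (y : J → LaurentSeries ℚ)
    (hy : ∀ c : J → LaurentSeries ℚ, (∀ j, c j ∈ F) → ∑ j, c j * y j = 0 → ∀ j, c j = 0)
    (c : J → LaurentSeries L) (hc : ∀ j, c j ∈ laurentBaseChange L F)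
    (h : ∑ j, c j * coeffEmb L (y j) = 0) : ∀ j, c j = 0 := by
  have key : ∀ (φ : L →ₗ[ℚ] ℚ) (j : J), coeffDual L φ (c j) = 0 := by
    intro φ
    refine hy (fun j => coeffDual L φ (c j)) (fun j => coeffDual_mem L F (hc j) φ) ?_
    have h1 := congrArg (coeffDual L φ) h
    rw [map_sum, map_zero] at h1
    rw [← h1]
    refine Finset.sum_congr rfl fun j _ => ?_
    rw [mul_comm (c j), coeffDual_coeffEmb_mul, mul_comm]
  intro j
  exact eq_zero_of_forall_coeffDual L fun φ => key φ j

/-- **(iv), the literal `hdesc`** of helper15's `LevDegreeInputs` (`F := K1 M`, `E := K1Lev M p`,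
`L := Kb`) and of helper11's `finrank_restrict_le_of_descent` (generic `F ≤ E`). The hypothesis
`y i ∈ E` is not used. -/
theorem descent_sum (E : IntermediateField ℚ (LaurentSeries ℚ)) :
    ∀ (n : ℕ) (y : Fin n → LaurentSeries ℚ), (∀ i, y i ∈ E) →
      (∀ c : Fin n → LaurentSeries ℚ, (∀ i, c i ∈ F) → ∑ i, c i * y i = 0 → ∀ i, c i = 0) →
      ∀ c : Fin n → LaurentSeries L, (∀ i, c i ∈ laurentBaseChange L F) →
        ∑ i, c i * coeffEmb L (y i) = 0 → ∀ i, c i = 0 :=
  fun _ y _ hy c hc h => eq_zero_of_sum_mul_coeffEmb L F y hy c hc h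

end Descent

section DescentKb

open Fermat.Agent.X0 (Kb)

/-- `ℚ̄/ℚ` is algebraic, for the `Algebra ℚ Kb` instance in force (`DivisionRing.toRatAlgebra`). -/
theorem isAlgebraic_rat_Kb : Algebra.IsAlgebraic ℚ Kb := AlgebraicClosure.isAlgebraic ℚ

/-- **(iv) over `ℚ̄`**: the literal `hdesc` for any `F` (and any `E`), no instance needed. -/
theorem descent_sum_Kb (F E : IntermediateField ℚ (LaurentSeries ℚ)) :
    ∀ (n : ℕ) (y : Fin n → LaurentSeries ℚ), (∀ i, y i ∈ E) →
      (∀ c : Fin n → LaurentSeries ℚ, (∀ i, c i ∈ F) → ∑ i, c i * y i = 0 → ∀ i, c i = 0) →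
      ∀ c : Fin n → LaurentSeries Kb, (∀ i, c i ∈ laurentBaseChange Kb F) →
        ∑ i, c i * coeffEmb Kb (y i) = 0 → ∀ i, c i = 0 :=
  haveI := isAlgebraic_rat_Kb
  descent_sum Kb F E

/-- **`hdesc` of `LevDegreeInputs M p d`** (helper15), literally. -/
theorem hdesc_K1_K1Lev (M : ℕ) [NeZero M] (p : ℕ) [NeZero p] :
    ∀ (n : ℕ) (y : Fin n → LaurentSeries ℚ), (∀ i, y i ∈ K1Lev M p) →
      (∀ c : Fin n → LaurentSeries ℚ, (∀ i, c i ∈ K1 M) → ∑ i, c i * y i = 0 → ∀ i, c i = 0) →
      ∀ c : Fin n → LaurentSeries Kb, (∀ i, c i ∈ K1Bar M) →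
        ∑ i, c i * coeffEmb Kb (y i) = 0 → ∀ i, c i = 0 :=
  descent_sum_Kb (K1 M) (K1Lev M p)

/-- **`hdesc` for `F₀(M) ≤ K1 M`** (helper11's `finrank_F0_K1_le`), literally. -/
theorem hdesc_F0_K1 (M : ℕ) [NeZero M] :
    ∀ (n : ℕ) (y : Fin n → LaurentSeries ℚ), (∀ i, y i ∈ K1 M) →
      (∀ c : Fin n → LaurentSeries ℚ, (∀ i, c i ∈ modularFunctionFieldFull M) →
        ∑ i, c i * y i = 0 → ∀ i, c i = 0) →
      ∀ c : Fin n → LaurentSeries Kb,
        (∀ i, c i ∈ laurentBaseChange Kb (modularFunctionFieldFull M)) →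
        ∑ i, c i * coeffEmb Kb (y i) = 0 → ∀ i, c i = 0 :=
  descent_sum_Kb (modularFunctionFieldFull M) (K1 M)

end DescentKb


end Fermat.Agent.DS.X1.AdjoinBC
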