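import Mathlib
import Fermat.Agent.DS.X1.LevRealBar
import Fermat.Agent.DS.X1.AdjoinBC

/-!
# PROGRAMME III (S48), X1-KUM, leaf KUM-2b (T_p half), realisation side (helper21):
the analytic realisations of levels `M` and `(M; p)` over an ARBITRARY coefficient field

`K` any field of characteristic `0` with an embedding `ι : K →+* ℂ` (instances: `K = ℂ`, `ι = id`
for the Kummer theory over `ℂ`; `K = ℚ̄`, `ι = iotaC` recovers `K1Deg`/`LevRealBar`).
K-generic twin of helper23's `K1Deg.lean` (`gens1Bar`, `R1Bar`) and of helper22's `LevRealBar.lean`.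

* `isRealOf_coeffEmbK ι` : a realisation over `ℚ` is a realisation over `K` of the base-changed
  series (`ι ∘ algebraMap ℚ K = algebraMap ℚ ℂ` is automatic);
* `gens1K K M`, `R1K K M`, `gensLevK K M p`, `RLevK K M p`; `hasReal_gens1K`, `hasReal_gensLevK`;
* `Psi1K ι D hΓ : R1K K M →+* (ℍ → ℂ)`, `PsiLevK ι D hpM hΓ' : RLevK K M p →+* (ℍ → ℂ)` (injective,
  holomorphic values, invariant);
* (A) `R1K_le_RLevK`, `PsiLevK_of_mem_R1K` : `PsiLevK r = Psi1K r` on `R1K`;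
* (B) `qExpand_mem_RLevK`, `PsiLevK_qExpand` : `PsiLevK (qExpand K p r) = fun z => Psi1K r (p z)`;
* (C) `PsiLevK_jqd` : `PsiLevK (j(q^d)) = fun z => jAn (d z)` for `d ∣ M p`; `Psi1K_jqd`,
  `Psi1K_weber`, `PsiLevK_weber`;
* `R1K_le_K1L`, `RLevK_le_K1LevL`, the inclusion algebra structures and
  `isFractionRing_R1K`, `isFractionRing_RLevK` (the fraction fields are `laurentBaseChange K (K1 M)`
  and `laurentBaseChange K (K1Lev M p)`), so that `X0.merHom` applies.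
-/

set_option autoImplicit false
set_option linter.style.haveILetI false

noncomputable section

namespace Fermat.Agent.DS.X1

open UpperHalfPlane ModularCurve HahnSeries CongruenceSubgroup Fermat.Agent.X0
open Fermat.Agent.S23 Fermat.Agent.S23.PrimEltQExp
open scoped MatrixGroups Manifold

variable {K : Type*} [Field K] [Algebra ℚ K] (ι : K →+* ℂ)

/-! ### base change of realisations -/

theorem coeffMap_coeffEmbK (s : LaurentSeries ℚ) :
    coeffMap ι (coeffEmb K s) = coeffMap (algebraMap ℚ ℂ) s := by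
  rw [coeffEmb, coeffMap_coeffMap]
  exact coeffMap_congr (Subsingleton.elim _ _) s

theorem isRealOf_coeffEmbK {Γ : Subgroup SL(2, ℤ)} {x : LaurentSeries ℚ} {F : ℍ → ℂ}
    (h : IsRealOf (algebraMap ℚ ℂ) Γ x F) : IsRealOf ι Γ (coeffEmb K x) F :=
  ⟨h.mer, by rw [coeffMap_coeffEmbK]; exact h.qexp, h.inv⟩

theorem coeffEmb_qExpandK (p : ℕ) [NeZero p] (x : LaurentSeries ℚ) :
    coeffEmb K (qExpand ℚ p x) = qExpand K p (coeffEmb K x) := by
  unfold coeffEmb
  rw [ModularCurve.coeffMap_qExpand]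

/-! ### the generators over `K` -/

variable (K) (M : ℕ) [NeZero M] (p : ℕ) [NeZero p]

/-- the generators of `laurentBaseChange K (K1 M)` over `K` -/
def gens1K : Set (LaurentSeries K) := ⇑(coeffEmb K) '' gens1 M

/-- `K[j(q^d), W_a]` -/
abbrev R1K : Subalgebra K (LaurentSeries K) := Algebra.adjoin K (gens1K K M)

/-- the generators of `laurentBaseChange K (K1Lev M p)` over `K` -/
def gensLevK : Set (LaurentSeries K) := ⇑(coeffEmb K) '' gensLev M p

/-- `K[gensLevK]` -/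
abbrev RLevK : Subalgebra K (LaurentSeries K) := Algebra.adjoin K (gensLevK K M p)

variable {K M p}

theorem gens1K_subset_gensLevK : gens1K K M ⊆ gensLevK K M p := by
  rintro _ ⟨x, hx, rfl⟩
  exact ⟨x, Or.inl (Or.inl hx), rfl⟩

/-- (A), algebraic part. -/
theorem R1K_le_RLevK : R1K K M ≤ RLevK K M p :=
  Algebra.adjoin_mono gens1K_subset_gensLevK

/-- (B), algebraic part: `q ↦ q^p` maps `R1K` into `RLevK`. -/
theorem qExpand_mem_RLevK {r : LaurentSeries K} (hr : r ∈ R1K K M) :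
    qExpand K p r ∈ RLevK K M p := by
  induction hr using Algebra.adjoin_induction with
  | mem x hx =>
    obtain ⟨s, hs, rfl⟩ := hx
    rw [← coeffEmb_qExpandK]
    exact Algebra.subset_adjoin ⟨_, Or.inl (Or.inr ⟨s, hs, rfl⟩), rfl⟩
  | algebraMap c =>
    have : qExpand K p (algebraMap K (LaurentSeries K) c) = algebraMap K (LaurentSeries K) c := by
      rw [algebraMap_laurentSeries_eq_single, qExpand_single, mul_zero]
    rw [this]
    exact Subalgebra.algebraMap_mem _ c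
  | add x y _ _ hx hy => rw [map_add]; exact Subalgebra.add_mem _ hx hy
  | mul x y _ _ hx hy => rw [map_mul]; exact Subalgebra.mul_mem _ hx hy

theorem jqdK_mem_R1K {d : ℕ} [NeZero d] (hd : d ∣ M) :
    coeffEmb K (qExpand ℚ d jq) ∈ R1K K M :=
  Algebra.subset_adjoin ⟨_, Or.inl ⟨d, ‹_›, hd, rfl⟩, rfl⟩

theorem weberK_mem_R1K {a : ℕ} (ha : 0 < a) (haM : a < M) :
    coeffEmb K (weberQ M a) ∈ R1K K M :=
  Algebra.subset_adjoin ⟨_, Or.inr ⟨a, ha, haM, rfl⟩, rfl⟩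

theorem jqK_mem_R1K : coeffEmb K jq ∈ R1K K M :=
  Algebra.subset_adjoin ⟨jq, jq_mem_gens1, rfl⟩

theorem jqdK_mem_RLevK {d : ℕ} [NeZero d] (hd : d ∣ M * p) :
    coeffEmb K (qExpand ℚ d jq) ∈ RLevK K M p :=
  Algebra.subset_adjoin ⟨_, Or.inr ⟨d, ‹_›, hd, rfl⟩, rfl⟩

/-! ### the realisations -/

section Real

variable {Γ Γ' : Subgroup SL(2, ℤ)}

theorem hasReal_gens1K (D : WeberAnData M) (hΓ : ∀ γ ∈ Γ, γ ∈ Gamma1 M ∨ -γ ∈ Gamma1 M) :
    HasReal ι Γ (gens1K K M) := by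
  rintro s ⟨x, hx, rfl⟩
  obtain ⟨F, hF⟩ := hasReal_gens1 D x hx
  exact ⟨F, (isRealOf_coeffEmbK ι hF).of_pm hΓ⟩

theorem hasReal_gensLevK (D : WeberAnData M) (hpM : p.Coprime M)
    (hΓ' : ∀ γ ∈ Γ', γ ∈ Gamma1 M ⊓ Gamma0 p ∨ -γ ∈ Gamma1 M ⊓ Gamma0 p) :
    HasReal ι Γ' (gensLevK K M p) := by
  rintro s ⟨x, hx, rfl⟩
  obtain ⟨F, hF⟩ := hasReal_gensLev D hpM x hx
  exact ⟨F, (isRealOf_coeffEmbK ι hF).of_pm hΓ'⟩

/-- **the analytic realisation of `R1K K M`** (level `M`, coefficients in `K`). -/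
def Psi1K (D : WeberAnData M) (hΓ : ∀ γ ∈ Γ, γ ∈ Gamma1 M ∨ -γ ∈ Gamma1 M) :
    R1K K M →+* (ℍ → ℂ) := PsiGen (hasReal_gens1K ι D hΓ)

/-- **the analytic realisation of `RLevK K M p`** (level `(M; p)`, coefficients in `K`). -/
def PsiLevK (D : WeberAnData M) (hpM : p.Coprime M)
    (hΓ' : ∀ γ ∈ Γ', γ ∈ Gamma1 M ⊓ Gamma0 p ∨ -γ ∈ Gamma1 M ⊓ Gamma0 p) :
    RLevK K M p →+* (ℍ → ℂ) := PsiGen (hasReal_gensLevK ι D hpM hΓ')

variable (D : WeberAnData M) (hΓ : ∀ γ ∈ Γ, γ ∈ Gamma1 M ∨ -γ ∈ Gamma1 M) (hpM : p.Coprime M)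
  (hΓ' : ∀ γ ∈ Γ', γ ∈ Gamma1 M ⊓ Gamma0 p ∨ -γ ∈ Gamma1 M ⊓ Gamma0 p)

theorem isRealOf_Psi1K (r : R1K K M) :
    IsRealOf ι Γ (r : LaurentSeries K) (Psi1K ι D hΓ r) := isRealOf_PsiGen _ r

theorem isRealOf_PsiLevK (r : RLevK K M p) :
    IsRealOf ι Γ' (r : LaurentSeries K) (PsiLevK ι D hpM hΓ' r) := isRealOf_PsiGen _ r

theorem Psi1K_injective : Function.Injective (Psi1K ι D hΓ) := PsiGen_injective _

theorem PsiLevK_injective : Function.Injective (PsiLevK ι D hpM hΓ') := PsiGen_injective _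

theorem Psi1K_mdiff (r : R1K K M) : MDiff (Psi1K ι D hΓ r) := PsiGen_mdiff _ r

theorem PsiLevK_mdiff (r : RLevK K M p) : MDiff (PsiLevK ι D hpM hΓ' r) := PsiGen_mdiff _ r

theorem Psi1K_smul (r : R1K K M) (γ : SL(2, ℤ)) (hγ : γ ∈ Γ) (z : ℍ) :
    Psi1K ι D hΓ r (γ • z) = Psi1K ι D hΓ r z := PsiGen_smul _ r γ hγ z

theorem PsiLevK_smul (r : RLevK K M p) (γ : SL(2, ℤ)) (hγ : γ ∈ Γ') (z : ℍ) :
    PsiLevK ι D hpM hΓ' r (γ • z) = PsiLevK ι D hpM hΓ' r z := PsiGen_smul _ r γ hγ z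

theorem Psi1K_algebraMap (c : K) :
    Psi1K ι D hΓ (algebraMap K (R1K K M) c) = fun _ => ι c := PsiGen_algebraMap _ c

theorem PsiLevK_algebraMap (c : K) :
    PsiLevK ι D hpM hΓ' (algebraMap K (RLevK K M p) c) = fun _ => ι c := PsiGen_algebraMap _ c

omit [Algebra ℚ K] in
/-- uniqueness of realisations, irrespective of the invariance group -/
theorem IsRealOf.unique' {Γ₁ Γ₂ : Subgroup SL(2, ℤ)} {x : LaurentSeries K} {F G : ℍ → ℂ}
    (hF : IsRealOf ι Γ₁ x F) (hG : IsRealOf ι Γ₂ x G) : F = G :=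
  (hF.mono (bot_le : (⊥ : Subgroup SL(2, ℤ)) ≤ Γ₁)).unique (hG.mono bot_le)

/-- the value of `Psi1K` from any realisation (any invariance group) -/
theorem Psi1K_eq {Γ₁ : Subgroup SL(2, ℤ)} {r : R1K K M} {F : ℍ → ℂ}
    (hF : IsRealOf ι Γ₁ (r : LaurentSeries K) F) : Psi1K ι D hΓ r = F :=
  IsRealOf.unique' ι (isRealOf_Psi1K ι D hΓ r) hF

/-- the value of `PsiLevK` from any realisation (any invariance group) -/
theorem PsiLevK_eq {Γ₁ : Subgroup SL(2, ℤ)} {r : RLevK K M p} {F : ℍ → ℂ}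
    (hF : IsRealOf ι Γ₁ (r : LaurentSeries K) F) : PsiLevK ι D hpM hΓ' r = F :=
  IsRealOf.unique' ι (isRealOf_PsiLevK ι D hpM hΓ' r) hF

/-- **(A)**: on `R1K` the realisation at level `(M; p)` is the realisation at level `M`. -/
theorem PsiLevK_of_mem_R1K (r : R1K K M) :
    PsiLevK ι D hpM hΓ' ⟨r, R1K_le_RLevK r.2⟩ = Psi1K ι D hΓ r :=
  PsiLevK_eq ι D hpM hΓ' (r := ⟨r, R1K_le_RLevK r.2⟩) (isRealOf_Psi1K ι D hΓ r)

/-- **(B)**: on `qExpand p (R1K)` the realisation at level `(M; p)` is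
`(realisation at level M) ∘ (z ↦ p z)`. -/
theorem PsiLevK_qExpand (r : R1K K M) :
    PsiLevK ι D hpM hΓ' ⟨qExpand K p r, qExpand_mem_RLevK r.2⟩ =
      fun z => Psi1K ι D hΓ r (scaleH p z) := by
  refine PsiLevK_eq ι D hpM hΓ' (r := ⟨qExpand K p r, qExpand_mem_RLevK r.2⟩)
    (Γ₁ := (⊥ : Subgroup SL(2, ℤ))) ?_
  refine (isRealOf_Psi1K ι D hΓ r).scale_of p fun γ hγ => ⟨1, one_mem _, fun z => ?_⟩
  rw [Subgroup.mem_bot.mp hγ, one_smul, one_smul]

/-- **(C)**: the realisation of `j(q^d)`, `d ∣ M p`, at level `(M; p)`. -/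
theorem PsiLevK_jqd {d : ℕ} [NeZero d] (hd : d ∣ M * p) :
    PsiLevK ι D hpM hΓ' ⟨coeffEmb K (qExpand ℚ d jq), jqdK_mem_RLevK hd⟩ =
      fun z => jAn (scaleH d z) :=
  PsiLevK_eq ι D hpM hΓ' (r := ⟨coeffEmb K (qExpand ℚ d jq), jqdK_mem_RLevK hd⟩)
    (isRealOf_coeffEmbK ι (isRealOf_jqd_lev hpM hd))

theorem Psi1K_jqd {d : ℕ} [NeZero d] (hd : d ∣ M) :
    Psi1K ι D hΓ ⟨coeffEmb K (qExpand ℚ d jq), jqdK_mem_R1K hd⟩ = fun z => jAn (scaleH d z) :=
  Psi1K_eq ι D hΓ (r := ⟨coeffEmb K (qExpand ℚ d jq), jqdK_mem_R1K hd⟩)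
    (isRealOf_coeffEmbK ι (isRealOf_jqd hd))

theorem Psi1K_weber {a : ℕ} (ha : 0 < a) (haM : a < M) :
    Psi1K ι D hΓ ⟨coeffEmb K (weberQ M a), weberK_mem_R1K ha haM⟩ = D.W a :=
  Psi1K_eq ι D hΓ (r := ⟨coeffEmb K (weberQ M a), weberK_mem_R1K ha haM⟩)
    (isRealOf_coeffEmbK ι (D.real a ha haM))

theorem PsiLevK_weber {a : ℕ} (ha : 0 < a) (haM : a < M) :
    PsiLevK ι D hpM hΓ' ⟨coeffEmb K (weberQ M a), R1K_le_RLevK (weberK_mem_R1K ha haM)⟩ = D.W a :=
  PsiLevK_eq ι D hpM hΓ'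
    (r := ⟨coeffEmb K (weberQ M a), R1K_le_RLevK (weberK_mem_R1K ha haM)⟩)
    (isRealOf_coeffEmbK ι (D.real a ha haM))

theorem Psi1K_jq :
    Psi1K ι D hΓ ⟨coeffEmb K jq, jqK_mem_R1K⟩ = jAn := by
  have h : IsRealOf (algebraMap ℚ ℂ) (Gamma0 M) jq jAn := by
    have h1 := isRealOf_jqd (M := M) (one_dvd M)
    rw [qExpand_one_apply] at h1
    have h2 : (fun z => jAn (scaleH 1 z)) = jAn := by
      funext z
      congr 1
      apply UpperHalfPlane.ext
      rw [coe_scaleH]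
      simp
    rwa [h2] at h1
  exact Psi1K_eq ι D hΓ (r := ⟨coeffEmb K jq, jqK_mem_R1K⟩) (isRealOf_coeffEmbK ι h)

end Real

/-! ### the rings of generators inside their fields -/

section Frac

variable (K M p)

theorem R1K_le_K1L : R1K K M ≤ (laurentBaseChange K (K1 M)).toSubalgebra := fun r hr =>
  AdjoinBC.hRF_of_eq_adjoin K (E := K1 M) (S := gens1 M) rfl r hr

theorem RLevK_le_K1LevL : RLevK K M p ≤ (laurentBaseChange K (K1Lev M p)).toSubalgebra :=
  fun r hr => AdjoinBC.hRF_of_eq_adjoin K (AdjoinBC.K1Lev_eq_adjoin M p) r hr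

/-- the inclusion `R1K K M → laurentBaseChange K (K1 M)`; use with `letI`/local instance. -/
@[reducible] def algebraR1K : Algebra (R1K K M) (laurentBaseChange K (K1 M)) :=
  (Subalgebra.inclusion (R1K_le_K1L K M)).toRingHom.toAlgebra

/-- the inclusion `RLevK K M p → laurentBaseChange K (K1Lev M p)`. -/
@[reducible] def algebraRLevK : Algebra (RLevK K M p) (laurentBaseChange K (K1Lev M p)) :=
  (Subalgebra.inclusion (RLevK_le_K1LevL K M p)).toRingHom.toAlgebra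

theorem coe_algebraMap_R1K (r : R1K K M) :
    letI := algebraR1K K M
    ((algebraMap (R1K K M) (laurentBaseChange K (K1 M)) r : laurentBaseChange K (K1 M)) :
      LaurentSeries K) = r := rfl

theorem coe_algebraMap_RLevK (r : RLevK K M p) :
    letI := algebraRLevK K M p
    ((algebraMap (RLevK K M p) (laurentBaseChange K (K1Lev M p)) r :
      laurentBaseChange K (K1Lev M p)) : LaurentSeries K) = r := rfl

omit [Algebra ℚ K] in
/-- a subalgebra of a field, every element of which is a fraction, has it as fraction field -/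
theorem isFractionRing_of_frac {E : IntermediateField K (LaurentSeries K)}
    {R : Subalgebra K (LaurentSeries K)} (hR : R ≤ E.toSubalgebra)
    (hfrac : ∀ f : E, ∃ g h : R, h ≠ 0 ∧ (f : LaurentSeries K) * (h : LaurentSeries K) = g) :
    letI := (Subalgebra.inclusion hR).toRingHom.toAlgebra
    IsFractionRing R E := by
  letI := (Subalgebra.inclusion hR).toRingHom.toAlgebra
  have hinj : Function.Injective (algebraMap R E) := Subalgebra.inclusion_injective hR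
  haveI : FaithfulSMul R E := (faithfulSMul_iff_algebraMap_injective R E).mpr hinj
  refine IsFractionRing.of_field R E fun f => ?_
  obtain ⟨g, h, hh, hfh⟩ := hfrac f
  refine ⟨g, h, ?_⟩
  have hh' : algebraMap R E h ≠ 0 := fun h0 => hh (hinj (by rw [h0, map_zero]))
  rw [eq_div_iff hh']
  exact Subtype.ext hfh

theorem isFractionRing_R1K :
    letI := algebraR1K K M
    IsFractionRing (R1K K M) (laurentBaseChange K (K1 M)) :=
  isFractionRing_of_frac K (R1K_le_K1L K M)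
    (AdjoinBC.hfrac_of_eq_adjoin K (E := K1 M) (S := gens1 M) rfl)

theorem isFractionRing_RLevK :
    letI := algebraRLevK K M p
    IsFractionRing (RLevK K M p) (laurentBaseChange K (K1Lev M p)) :=
  isFractionRing_of_frac K (RLevK_le_K1LevL K M p)
    (AdjoinBC.hfrac_of_eq_adjoin K (AdjoinBC.K1Lev_eq_adjoin M p))

end Frac

end Fermat.Agent.DS.X1
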