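/-
PROGRAMME III (S48, Deligne–Serre), X1-PORT, leaf AN-5 FINAL (helper15; board #2029):
**`[K1Lev M p : K1 M] ≤ p + 1`, UNCONDITIONALLY** — `LevDegreeInst.lean` with the analytic input
`WeberCuspData M` discharged by helper16's `DS/Div/WeberCuspInst.lean` (AN-1b).
-/
import Fermat.Agent.DS.X1.LevDegreeInst
import Fermat.Agent.DS.Div.WeberCuspInst

set_option autoImplicit false

noncomputable section

namespace Fermat.Agent.DS.X1

open ModularCurve IntermediateField Fermat.Agent.X0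

variable {M p : ℕ} [NeZero M] [NeZero p]

/-- **AN-5 over `ℚ̄`** (unconditional): `[K1LevBar M p : K1Bar M] ≤ p + 1`. -/
theorem relrank_K1Bar_K1LevBar_le_final (hM : 2 ≤ M) (hp : p.Prime) (hpM : p.Coprime M) :
    relrank (K1Bar M) (K1LevBar M p) ≤ ((p + 1 : ℕ) : Cardinal) :=
  relrank_K1Bar_K1LevBar_le (Fermat.Agent.DS.Div.weberCuspData M) hM hp hpM

/-- **AN-5** (unconditional): `K1Lev M p` is finite over `K1 M` (algebra structure `alphaOne`, the
inclusion) of degree `≤ p + 1`. -/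
theorem finrank_K1Lev_le_final (hM : 2 ≤ M) (hp : p.Prime) (hpM : p.Coprime M) :
    letI : Algebra (K1 M) (K1Lev M p) := (alphaOne M p).toAlgebra
    FiniteDimensional (K1 M) (K1Lev M p) ∧ Module.finrank (K1 M) (K1Lev M p) ≤ p + 1 :=
  finrank_K1Lev_le_of_weber (Fermat.Agent.DS.Div.weberCuspData M) hM hp hpM

/-- **AN-5, spanning form** (unconditional; IRR-3's `hdeg`). -/
theorem exists_spanning_final (hM : 2 ≤ M) (hp : p.Prime) (hpM : p.Coprime M) :
    ∃ b : Fin (p + 1) → LaurentSeries ℚ, (∀ i, b i ∈ K1Lev M p) ∧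
      ∀ y ∈ K1Lev M p, ∃ c : Fin (p + 1) → LaurentSeries ℚ,
        (∀ i, c i ∈ K1 M) ∧ y = ∑ i, c i * b i :=
  exists_spanning_of_weber (Fermat.Agent.DS.Div.weberCuspData M) hM hp hpM

/-- **AN-5, spanning form over any field `L ⊇ ℚ`** (unconditional; `L = ℂ` for KUM-2b (b2)). -/
theorem exists_spanning_baseChange_final (L : Type*) [Field L] [Algebra ℚ L]
    (hM : 2 ≤ M) (hp : p.Prime) (hpM : p.Coprime M) :
    ∃ b : Fin (p + 1) → LaurentSeries ℚ, (∀ i, b i ∈ K1Lev M p) ∧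
      ∀ z ∈ laurentBaseChange L (K1Lev M p), ∃ c : Fin (p + 1) → LaurentSeries L,
        (∀ i, c i ∈ laurentBaseChange L (K1 M)) ∧ z = ∑ i, c i * coeffEmb L (b i) :=
  exists_spanning_baseChange_of_weber L (Fermat.Agent.DS.Div.weberCuspData M) hM hp hpM

end Fermat.Agent.DS.X1
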