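/-
PROGRAMME III (S48, Deligne–Serre), X1-PORT, leaf AN-5 in the `finrankAlong` vocabulary (helper15):
for ANY field `L ⊇ ℚ` (e.g. `ℂ`, `ℚ̄`), `p ∤ M` prime, `M ≥ 2`:

  `FiniteAlong L (alphaOneBar L M p)`  and  `finrankAlong L (alphaOneBar L M p) ≤ p + 1`

(helper24's `DS/X1Hecke/Inst.lean` names; consumers: helper7 KUM-2b (b2) `hdeg`, helper1 (I3),
helper24 `LevInputs.finA`), UNCONDITIONALLY, from `LevDegreeFinal.lean`.
-/
import Fermat.Agent.DS.X1.LevDegreeFinal
import Fermat.Agent.DS.X1Hecke.Inst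

set_option autoImplicit false

noncomputable section

namespace Fermat.Agent.DS.X1

open AlgebraicCurve ModularCurve IntermediateField Fermat.Agent.X0 Fermat.Agent.DS.X1Hecke

/-! ### generic: a spanning family bounds the degree along an injection of subfields -/

section Generic

variable {K Ω : Type*} [Field K] [Field Ω] [Algebra K Ω]

/-- if `B = Σ_{i < n} A · b i` inside `Ω`, then any `K`-algebra map `φ : A → B` which is the
inclusion on underlying elements is finite of degree `≤ n`. -/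
theorem finiteAlong_and_finrankAlong_le_of_spanning {A B : IntermediateField K Ω}
    (φ : A →ₐ[K] B) (hφ : ∀ x : A, ((φ x : B) : Ω) = (x : Ω)) {n : ℕ} (b : Fin n → Ω)
    (hb : ∀ i, b i ∈ B)
    (hspan : ∀ z ∈ B, ∃ c : Fin n → Ω, (∀ i, c i ∈ A) ∧ z = ∑ i, c i * b i) :
    FiniteAlong K φ ∧ finrankAlong K φ ≤ n := by
  letI := algebraAlong φ
  set v : Fin n → B := fun i => ⟨b i, hb i⟩ with hv
  have htop : Submodule.span A (Set.range v) = ⊤ := by
    rw [eq_top_iff]
    rintro ⟨z, hz⟩ -
    obtain ⟨c, hc, rfl⟩ := hspan z hz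
    rw [Submodule.mem_span_range_iff_exists_fun]
    refine ⟨fun i => ⟨c i, hc i⟩, Subtype.ext ?_⟩
    rw [AddSubmonoidClass.coe_finsetSum]
    refine Finset.sum_congr rfl fun i _ => ?_
    rw [Algebra.smul_def]
    show ((φ ⟨c i, hc i⟩ : B) : Ω) * b i = c i * b i
    rw [hφ]
  have hfin : Module.Finite A B := by
    rw [Module.finite_def, ← htop]
    exact Submodule.fg_span (Set.finite_range v)
  refine ⟨hfin, ?_⟩
  show Module.finrank A B ≤ n
  have h1 := finrank_range_le_card (R := A) v
  rw [Set.finrank, htop, finrank_top, Fintype.card_fin] at h1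
  exact h1

end Generic

variable (L : Type*) [Field L] [Algebra ℚ L] {M p : ℕ} [NeZero M] [NeZero p]

/-- **AN-5 in the `finrankAlong` vocabulary**, any field `L ⊇ ℚ`, unconditional. -/
theorem finiteAlong_and_finrankAlong_alphaOneBar_le (hM : 2 ≤ M) (hp : p.Prime)
    (hpM : p.Coprime M) :
    FiniteAlong L (alphaOneBar L M p) ∧ finrankAlong L (alphaOneBar L M p) ≤ p + 1 := by
  obtain ⟨b, hb, hspan⟩ := exists_spanning_baseChange_final L hM hp hpM
  exact finiteAlong_and_finrankAlong_le_of_spanning (alphaOneBar L M p)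
    (coe_alphaOneBar L M p) (fun i => coeffEmb L (b i))
    (fun i => coeffEmb_mem_laurentBaseChange L (hb i)) hspan

theorem finiteAlong_alphaOneBar (hM : 2 ≤ M) (hp : p.Prime) (hpM : p.Coprime M) :
    FiniteAlong L (alphaOneBar L M p) :=
  (finiteAlong_and_finrankAlong_alphaOneBar_le L hM hp hpM).1

theorem finrankAlong_alphaOneBar_le (hM : 2 ≤ M) (hp : p.Prime) (hpM : p.Coprime M) :
    finrankAlong L (alphaOneBar L M p) ≤ p + 1 :=
  (finiteAlong_and_finrankAlong_alphaOneBar_le L hM hp hpM).2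

end Fermat.Agent.DS.X1
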