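import Mathlib
import Fermat.Agent.Igusa.GaussVal
import Fermat.Agent.Igusa.ZlDvr

/-!
# PROGRAMME III, X1-GOOD: HONEST series from integrality (normality of `ℤ_(ℓ)((q))`)

`ℤ_(ℓ)` is a DVR, so `ℤ_(ℓ)⟦q⟧` is a UFD (Mathlib, `PowerSeries/Ideal.lean`), hence integrally closed,
and so is its localisation `ℤ_(ℓ)((q))`.  Consequently a series `x ∈ ℚ((q))` which is a quotient of
two `ℤ_(ℓ)`-series (`Igusa.IsZlFraction`) and is integral over `ℤ_(ℓ)((q))` HAS `ℤ_(ℓ)`-coefficients: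

  `exists_zlIota_eq_of_isIntegral : IsZlFraction ℓ x → (P monic over ℤ_(ℓ)((q)), P(x) = 0) →
     ∃ y : ℤ_(ℓ)((q)), zlIota ℓ y = x`.

This is what turns Gauss-integral chart elements (integral over `ℤ_(ℓ)[j]`) into the honest series
required by `Val.OrthoData`.  (`√(1+2q)` at `ℓ = 2` shows the fraction hypothesis is needed.)
-/

set_option autoImplicit false

noncomputable section

namespace Fermat.Agent.DS.X1.Honest

open Fermat.Agent.Igusa Polynomial

variable (ℓ : ℕ) [Fact ℓ.Prime]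

set_option quotPrecheck false in
local notation "ℤℓ" => ↥(GaloisRep.ratLocalizedAt ℓ)

/-- `ℤ_(ℓ)((q))` is integrally closed (in its fraction field). -/
instance isIntegrallyClosed_laurentSeries_zl : IsIntegrallyClosed (LaurentSeries ℤℓ) :=
  isIntegrallyClosed_of_isLocalization (LaurentSeries ℤℓ)
    (Submonoid.powers (PowerSeries.X : PowerSeries ℤℓ))
    (powers_le_nonZeroDivisors_of_noZeroDivisors PowerSeries.X_ne_zero)

/-- **normality**: a `ℤ_(ℓ)`-fraction which is integral over `ℤ_(ℓ)((q))` is an honest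
`ℤ_(ℓ)`-series. -/
theorem exists_zlIota_eq_of_isIntegral {x : LaurentSeries ℚ} (hx : IsZlFraction ℓ x)
    (P : (LaurentSeries ℤℓ)[X]) (hP : P.Monic) (hPx : eval₂ (zlIota ℓ) x P = 0) :
    ∃ y : LaurentSeries ℤℓ, zlIota ℓ y = x := by
  obtain ⟨a, b, hb, hab⟩ := hx
  let Fr := FractionRing (LaurentSeries ℤℓ)
  let Φ : Fr →+* LaurentSeries ℚ := IsFractionRing.lift (zlIota_injective ℓ)
  have hΦ : ∀ y : LaurentSeries ℤℓ, Φ (algebraMap _ Fr y) = zlIota ℓ y := fun y =>
    IsFractionRing.lift_algebraMap (zlIota_injective ℓ) y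
  have hb' : algebraMap (LaurentSeries ℤℓ) Fr b ≠ 0 := by
    intro h
    exact hb (IsFractionRing.injective (LaurentSeries ℤℓ) Fr (by rw [h, map_zero]))
  have hbι : zlIota ℓ b ≠ 0 := fun h => hb (zlIota_injective ℓ (by rw [h, map_zero]))
  set z : Fr := algebraMap _ Fr a / algebraMap _ Fr b with hz
  have hΦz : Φ z = x := by
    rw [hz, map_div₀, hΦ, hΦ, ← hab, mul_div_assoc, div_self hbι, mul_one]
  have hint : IsIntegral (LaurentSeries ℤℓ) z := by
    refine ⟨P, hP, ?_⟩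
    apply Φ.injective
    rw [map_zero, hom_eval₂, hΦz]
    have : Φ.comp (algebraMap (LaurentSeries ℤℓ) Fr) = zlIota ℓ := RingHom.ext hΦ
    rw [this]
    exact hPx
  obtain ⟨y, hy⟩ := IsIntegrallyClosed.isIntegral_iff.mp hint
  exact ⟨y, by rw [← hΦ, hy, hΦz]⟩

/-- the same, for a monic polynomial over ANY ring `A` mapping into the honest series. -/
theorem exists_zlIota_eq_of_isIntegral' {x : LaurentSeries ℚ} (hx : IsZlFraction ℓ x)
    {A : Type*} [CommRing A] (φ : A →+* LaurentSeries ℚ)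
    (hφ : ∀ a : A, ∃ y : LaurentSeries ℤℓ, zlIota ℓ y = φ a)
    (P : A[X]) (hP : P.Monic) (hPx : eval₂ φ x P = 0) :
    ∃ y : LaurentSeries ℤℓ, zlIota ℓ y = x := by
  have hlift : P.map φ ∈ Polynomial.lifts (zlIota ℓ) := by
    rw [Polynomial.lifts_iff_coeff_lifts]
    intro n
    rw [coeff_map]
    obtain ⟨y, hy⟩ := hφ (P.coeff n)
    exact ⟨y, hy⟩
  obtain ⟨Q, hQ, -, hQm⟩ := Polynomial.lifts_and_degree_eq_and_monic hlift (hP.map φ)
  refine exists_zlIota_eq_of_isIntegral ℓ hx Q hQm ?_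
  rw [← eval_map, hQ, eval_map]
  exact hPx

/-- the honest series form a subring of `ℚ((q))`; integrality over it. -/
theorem exists_zlIota_eq_of_isIntegral_range {x : LaurentSeries ℚ} (hx : IsZlFraction ℓ x)
    (hint : IsIntegral (zlIota ℓ).range x) : ∃ y : LaurentSeries ℤℓ, zlIota ℓ y = x := by
  obtain ⟨P, hP, hPx⟩ := hint
  refine exists_zlIota_eq_of_isIntegral' ℓ hx (zlIota ℓ).range.subtype ?_ P hP hPx
  rintro ⟨_, y, rfl⟩
  exact ⟨y, rfl⟩

end Fermat.Agent.DS.X1.Honest
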