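import Mathlib
import Fermat.Agent.DS.X1.K1Deg
import Fermat.Agent.DS.Chart.Defs
import Fermat.Agent.DS.X1.Good.RamGenBar

/-!
# PROGRAMME III, X1-GOOD glue (helper6): `K1 M → K1Bar M` in the CHART / G-RAM vocabulary

* `jq_mem_K1`, `instance fact_jq_mem_K1 : Fact (jq ∈ K1 M)` (so that helper27's chart layer
  `Chart.jG (K1 M)`, `Chart.chartAlgFin (K1 M) ℓ`, … applies to `F₀ = K1 M`);
* `toBarK1 M := RamGenBar.toBar (K1 M) : K1 M →+* K1Bar M` and `toBarK1_jG : toBarK1 M (jG (K1 M)) =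
  jBar1 M` — the `θ`, `hθ` of helper14's `isIntegrallyClosed_tensor_chartAlgFin_of_jRamData`.
-/

set_option autoImplicit false

noncomputable section

namespace Fermat.Agent.DS.X1

open ModularCurve Fermat.Agent.X0 Fermat.Agent.S23.PrimEltQExp

variable (M : ℕ) [NeZero M]

theorem jq_mem_K1 : jq ∈ K1 M :=
  modularFunctionFieldFull_le_K1 M (by
    have h := jqd_mem_full M (one_dvd M)
    rwa [qExpand_one_apply] at h)

instance fact_jq_mem_K1 : Fact (jq ∈ K1 M) := ⟨jq_mem_K1 M⟩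

/-- the coefficient embedding `K1 M → K1Bar M` (helper21's `RamGenBar.toBar`) -/
abbrev toBarK1 : ↥(K1 M) →+* ↥(K1Bar M) := Good.RamGenBar.toBar (K1 M)

theorem coe_toBarK1 (x : K1 M) :
    ((toBarK1 M x : K1Bar M) : LaurentSeries Kb) = coeffEmb Kb (x : LaurentSeries ℚ) := rfl

theorem toBarK1_jG : toBarK1 M (Fermat.Agent.DS.Chart.jG (K1 M)) = jBar1 M := rfl

theorem toBarK1_injective : Function.Injective (toBarK1 M) := (toBarK1 M).injective

end Fermat.Agent.DS.X1
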