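/-
PROGRAMME III (S48, Deligne–Serre), X1-PORT (helper15): **going-up of a finite spanning family**
in the Laurent model, for ANY field `L ⊇ ℚ`.

If `E = Σ_i F · b i` (`F, E ⊆ ℚ((q))` intermediate fields, `b i ∈ E`), then
`laurentBaseChange L E = Σ_i (laurentBaseChange L F) · coeffEmb L (b i)`.
-/
import Mathlib
import Fermat.Prelude.Def_ModularCurve_LaurentCoeff

set_option autoImplicit false

noncomputable section

namespace Fermat.Agent.DS.X1

open ModularCurve

variable (L : Type*) [Field L] [Algebra ℚ L]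

/-- **going-up of the spanning form.** -/
theorem exists_spanning_laurentBaseChange (F E : IntermediateField ℚ (LaurentSeries ℚ)) {m : ℕ}
    (b : Fin m → LaurentSeries ℚ) (hb : ∀ i, b i ∈ E)
    (hspan : ∀ y ∈ E, ∃ c : Fin m → LaurentSeries ℚ, (∀ i, c i ∈ F) ∧ y = ∑ i, c i * b i)
    (z : LaurentSeries L) (hz : z ∈ laurentBaseChange L E) :
    ∃ c : Fin m → LaurentSeries L, (∀ i, c i ∈ laurentBaseChange L F) ∧
      z = ∑ i, c i * coeffEmb L (b i) := by
  classical
  set Fb := laurentBaseChange L F with hFb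
  set V : Submodule Fb (LaurentSeries L) :=
    Submodule.span Fb (Set.range fun i => coeffEmb L (b i)) with hV
  -- `coeffEmb E ⊆ V`
  have hE : ∀ y ∈ E, coeffEmb L y ∈ V := by
    intro y hy
    obtain ⟨c, hc, rfl⟩ := hspan y hy
    rw [map_sum]
    refine V.sum_mem fun i _ => ?_
    rw [map_mul]
    have : coeffEmb L (c i) * coeffEmb L (b i) =
        (⟨coeffEmb L (c i), coeffEmb_mem_laurentBaseChange L (hc i)⟩ : Fb) • coeffEmb L (b i) := by
      rw [Algebra.smul_def]; rfl
    rw [this]
    exact V.smul_mem _ (Submodule.subset_span ⟨i, rfl⟩)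
  have h1 : (1 : LaurentSeries L) ∈ V := by
    have := hE 1 E.one_mem
    rwa [map_one] at this
  -- `V` is closed under multiplication
  have hmul : ∀ x y, x ∈ V → y ∈ V → x * y ∈ V := by
    have hVV : V * V ≤ V := by
      rw [hV, Submodule.span_mul_span, Submodule.span_le]
      rintro _ ⟨_, ⟨i, rfl⟩, _, ⟨j, rfl⟩, rfl⟩
      have := hE (b i * b j) (E.mul_mem (hb i) (hb j))
      rwa [map_mul] at this
    intro x y hx hy
    exact hVV (Submodule.mul_mem_mul hx hy)
  set S : Subalgebra Fb (LaurentSeries L) := V.toSubalgebra h1 hmul with hS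
  have hfg : (Subalgebra.toSubmodule S).FG := by
    rw [hS, Submodule.toSubalgebra_toSubmodule]
    exact Submodule.fg_span (Set.finite_range _)
  have hinv : ∀ x, x ∈ V → x⁻¹ ∈ V := by
    intro x hx
    have hint : IsIntegral Fb x := IsIntegral.of_mem_of_fg S hfg x hx
    exact S.inv_mem_of_algebraic (x := ⟨x, hx⟩) hint.isAlgebraic
  -- the whole base change lies in `V`
  have hzV : z ∈ V := by
    induction hz using IntermediateField.adjoin_induction with
    | mem x hx =>
      obtain ⟨y, hy, rfl⟩ := hx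
      exact hE y hy
    | algebraMap l =>
      have : algebraMap L (LaurentSeries L) l = (algebraMap L Fb l) • (1 : LaurentSeries L) := by
        rw [Algebra.smul_def, mul_one]; rfl
      rw [this]
      exact V.smul_mem _ h1
    | add x y _ _ hx hy => exact V.add_mem hx hy
    | inv x _ hx => exact hinv x hx
    | mul x y _ _ hx hy => exact hmul x y hx hy
  obtain ⟨c, hc⟩ := (Submodule.mem_span_range_iff_exists_fun Fb).mp hzV
  refine ⟨fun i => ((c i : Fb) : LaurentSeries L), fun i => (c i).2, ?_⟩
  rw [← hc]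
  refine Finset.sum_congr rfl fun i _ => ?_
  rw [Algebra.smul_def]
  rfl

end Fermat.Agent.DS.X1
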